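import Fermat.Agent.LanglandsTunnell.Expansion.CommonTranslate

/-!
# Pointwise Fourier expansion

Bessel's inequality `sum_norm_coef_sq_le`, the expansion `hasSum_coef`, and
`coef_eq_zero_of_not_dualOK`: only frequencies dual to a period occur.
-/

set_option autoImplicit false

open NumberField Matrix MeasureTheory

noncomputable section

namespace FLTAgent.LanglandsTunnell.Expansion

open FLTAgent.LanglandsTunnell FLTAgent.LanglandsTunnell.Seed
open FLTAgent.LanglandsTunnell.Geom (BIdx)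

variable {F : Type} [Field F] [NumberField F] {ι : Type} [Fintype ι] [DecidableEq ι]
  {Φ : PlaceChoice F ι} {n : Ideal (𝓞 F)} {φ : Pt F ι n → ℂ}

/-- Only frequencies dual to a period occur. -/
theorem coef_eq_zero_of_not_dualOK (hA : IsAutomorphic Φ φ) {m : ℕ} {v : FinPt F n}
    (hm : Admissible m v) {ξ : F} (hξ : ¬ DualOK m ξ) (P : ι → H3) : coef Φ φ v ξ P = 0 := by
  obtain ⟨a, ha⟩ := not_forall.mp hξ
  obtain ⟨k, hk, b, hb⟩ := LanglandsTunnell.Geom.exists_natCast_mul_eq_coe ξ
  have hM : Admissible (k * m) v := hm.mul_left hk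
  have hd : DualOK (k * m) ξ := mul_comm m k ▸ (dualOK_of_mul_eq hb).mul_left m
  obtain ⟨s₀, hs₀⟩ := (LanglandsTunnell.Geom.embLin_bijective Φ).surjective
    fun i => Φ.emb i ((m : F) * (a : F)) / ((k * m : ℕ) : ℂ)
  have hL : latPt Φ (k * m) s₀ = fun i => Φ.emb i ((m : F) * (a : F)) := funext fun i => by
    rw [latPt, hs₀]
    exact mul_div_cancel₀ _ (Nat.cast_ne_zero.mpr hM.1)
  have h := cubeMean_add_right (isPer_coefInt hA hM hd P) (continuous_coefInt hA v ξ (k * m) P) s₀
  have e : (fun s => coefInt Φ φ v ξ (k * m) P (s + s₀))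
      = fun s => trExp (ξ * ((m : F) * (a : F))) * coefInt Φ φ v ξ (k * m) P s := by
    funext s
    rw [coefInt, coefInt, latPt_add, hL, chiInf_add, chiInf_emb, add_comm, ← shiftVec_shiftVec,
      apply_shift_of_admissible hA hm]
    ring
  rw [e, cubeMean_const_mul] at h
  rw [coef_eq hA hM hd, coefAt]
  by_contra hne
  exact ha (mul_right_cancel₀ hne (h.trans (one_mul _).symm))

/-- The line through the coefficient at a frequency. -/
theorem cubeMean_charVec_eq_coef (hA : IsAutomorphic Φ φ) {M : ℕ} {v : FinPt F n}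
    (hM : Admissible M v) {ξ : F} {q : BIdx F → ℤ} (hξ : ∀ k, traceMap M ξ k = (q k : ℚ))
    (P : ι → H3) :
    cubeMean (fun s => charVec (-q) s * φ (v, shiftVec (latPt Φ M s) P)) = coef Φ φ v ξ P := by
  rw [coef_eq hA hM (dualOK_of_traceMap hξ), coefAt]
  refine congrArg cubeMean (funext fun s => ?_)
  rw [charVec_eq_chiInf (Φ := Φ) hξ, coefInt, mul_comm]

theorem exists_int_traceMap {M : ℕ} {ξ : F} (hd : DualOK M ξ) :
    ∃ q : BIdx F → ℤ, ∀ k, traceMap M ξ k = (q k : ℚ) := by
  choose q hq using fun k => (trExp_eq_one_iff _).mp (hd (RingOfIntegers.basis F k))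
  exact ⟨q, hq⟩

theorem isPer_orbit (hA : IsAutomorphic Φ φ) {M : ℕ} {v : FinPt F n} (hM : Admissible M v)
    (P : ι → H3) : IsPer fun s => φ (v, shiftVec (latPt Φ M s) P) := fun s r => by
  show φ (v, shiftVec (latPt Φ M (s + intVec r)) P) = _
  rw [latPt_add, add_comm, ← shiftVec_shiftVec,
    show latPt Φ M (intVec r) = _ from funext (latPt_intVec Φ M r),
    apply_shift_of_admissible hA hM]

/-- Bessel's inequality for the coefficients. -/
theorem sum_norm_coef_sq_le (hA : IsAutomorphic Φ φ) (hn : n ≠ ⊥) {C : ℝ}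
    (hC : ∀ x, ‖φ x‖ ≤ C) (v : FinPt F n) (P : ι → H3) (S : Finset F) :
    ∑ ξ ∈ S, ‖coef Φ φ v ξ P‖ ^ 2 ≤ C ^ 2 := by
  classical
  obtain ⟨m, hm⟩ := exists_admissible hn v
  choose k hk b hb using fun ξ : F => LanglandsTunnell.Geom.exists_natCast_mul_eq_coe ξ
  set M := (∏ ξ ∈ S, k ξ) * m with hM
  have hM0 : M ≠ 0 := mul_ne_zero (Finset.prod_ne_zero_iff.mpr fun ξ _ => hk ξ) hm.1
  have hMv : Admissible M v := hm.mul_left (Finset.prod_ne_zero_iff.mpr fun ξ _ => hk ξ)
  have hd : ∀ ξ ∈ S, DualOK M ξ := fun ξ hξ => by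
    rw [hM, ← Finset.prod_erase_mul S k hξ, mul_right_comm]
    exact (dualOK_of_mul_eq (hb ξ)).mul_left _
  have hex : ∀ ξ : F, ∃ q : BIdx F → ℤ, ξ ∈ S → ∀ l, traceMap M ξ l = (q l : ℚ) := fun ξ => by
    by_cases h : ξ ∈ S
    · obtain ⟨q, hq⟩ := exists_int_traceMap (hd ξ h)
      exact ⟨q, fun _ => hq⟩
    · exact ⟨0, fun h' => absurd h' h⟩
  choose q hq using hex
  have hinj : Set.InjOn q S := fun ξ h ξ' h' e =>
    traceMap_injective hM0 (funext fun l => by rw [hq ξ h, hq ξ' h', e])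
  refine le_trans (le_of_eq ?_) (sum_norm_sq_le (isPer_orbit hA hMv P)
    ((continuous_apply_shift hA v P).comp (continuous_latPt Φ M)) (C := C) (fun s => hC _)
    (S.image q))
  rw [Finset.sum_image hinj]
  exact Finset.sum_congr rfl fun ξ h => by rw [cubeMean_charVec_eq_coef hA hMv (hq ξ h)]

/-- The Fourier expansion, when the coefficients are summable. -/
theorem hasSum_coef (hA : IsAutomorphic Φ φ) (hn : n ≠ ⊥) (v : FinPt F n) (P : ι → H3)
    (hs : Summable fun ξ : F => coef Φ φ v ξ P) :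
    HasSum (fun ξ : F => coef Φ φ v ξ P) (φ (v, P)) := by
  obtain ⟨M, hM⟩ := exists_admissible hn v
  choose ξ hξ using fun q : BIdx F → ℤ => exists_traceMap_eq (F := F) hM.1 q
  have hinj : Function.Injective ξ := fun q q' e => funext fun l => by
    have h1 := hξ q l
    rw [e, hξ q' l] at h1
    exact_mod_cast h1.symm
  have hsupp : ∀ η ∉ Set.range ξ, coef Φ φ v η P = 0 := fun η hη => by
    refine coef_eq_zero_of_not_dualOK hA hM (fun hd => hη ?_) P
    obtain ⟨q, hq⟩ := exists_int_traceMap hd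
    exact ⟨q, traceMap_injective hM.1 (funext fun l => (hξ q l).trans (hq l).symm)⟩
  have e : ∀ q, cubeMean (fun s => charVec (-q) s * φ (v, shiftVec (latPt Φ M s) P))
      = coef Φ φ v (ξ q) P := fun q => cubeMean_charVec_eq_coef hA hM (hξ q) P
  have h := hasSum_charVec (isPer_orbit hA hM P)
    ((continuous_apply_shift hA v P).comp (continuous_latPt Φ M))
    (by simpa only [e, Function.comp_def] using hs.comp_injective hinj) 0
  simp only [e] at h
  have e0 : latPt Φ M (0 : BIdx F → ℝ) = 0 := funext fun i => by simp [latPt]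
  rw [← hinj.hasSum_iff hsupp]
  simp only [e0, shiftVec_zero] at h
  refine h.congr_fun fun q => ?_
  simp [charVec]

end FLTAgent.LanglandsTunnell.Expansion

end
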