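import Fermat.Agent.LanglandsTunnell.Isolation.Defs
import Fermat.Agent.LanglandsTunnell.AdelicUnits
import Fermat.Agent.LanglandsTunnell.Geom.Heights

/-!
# The additive character and the idempotent at `N`

The standard additive character `psi` of the finite adeles, a generator `diffUnit` of the
different, the idempotent `eN` of the primes dividing `N`, and the decomposition `inPart`,
`outPart` of units it induces.
-/

set_option autoImplicit false

open NumberField Matrix
open scoped Real TensorProduct nonZeroDivisors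

noncomputable section

namespace FLTAgent.LanglandsTunnell.Expansion

open FLTAgent.LanglandsTunnell FLTAgent.LanglandsTunnell.Isolation
open FLTAgent.LanglandsTunnell.Geom (placeEquiv placeEquiv_apply)

variable {F : Type} [Field F] [NumberField F]

/-! ### The character -/

/-- `exp (-2πi Tr f)`. -/
def trExp (f : F) : ℂ :=
  Complex.exp (-(2 * π * Complex.I) * ((Algebra.trace ℚ F f : ℚ) : ℂ))

theorem trExp_add (f g : F) : trExp (f + g) = trExp f * trExp g := by
  rw [trExp, trExp, trExp, map_add, Rat.cast_add, mul_add, Complex.exp_add]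

theorem trExp_eq_one_iff (f : F) : trExp f = 1 ↔ ∃ k : ℤ, Algebra.trace ℚ F f = (k : ℚ) := by
  rw [trExp, Complex.exp_eq_one_iff]
  constructor
  · rintro ⟨k, hk⟩
    refine ⟨-k, ?_⟩
    have h2 : (2 * (π : ℂ) * Complex.I) ≠ 0 := by simp [Real.pi_ne_zero, Complex.I_ne_zero]
    have h : ((Algebra.trace ℚ F f : ℚ) : ℂ) = ((-k : ℤ) : ℂ) := mul_left_cancel₀ h2 (by
      push_cast
      linear_combination -hk)
    exact_mod_cast h
  · rintro ⟨k, hk⟩
    refine ⟨-k, ?_⟩
    rw [hk]
    push_cast
    ring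

theorem exists_trace_coe (a : 𝓞 F) : ∃ k : ℤ, Algebra.trace ℚ F (a : F) = (k : ℚ) := by
  obtain ⟨k, hk⟩ := IsIntegrallyClosed.isIntegral_iff.mp
    (Algebra.isIntegral_trace (L := ℚ) (RingOfIntegers.isIntegral_coe a))
  exact ⟨k, by simpa using hk.symm⟩

theorem trExp_coe (a : 𝓞 F) : trExp (a : F) = 1 := (trExp_eq_one_iff _).mpr (exists_trace_coe a)

theorem exists_sub_mem_int (x : AF F) : ∃ f : F, x - toAF F f ∈ intAF F := by
  obtain ⟨f, hf⟩ := exists_sub_mem_idealAF (n := (⊤ : Ideal (𝓞 F))) top_ne_bot x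
  rw [idealAF_top] at hf
  exact ⟨f, hf⟩

/-- The character of `AF F`, inverse to `exp (2πi Tr)` on `F`. -/
def psi (x : AF F) : ℂ := trExp (exists_sub_mem_int x).choose

theorem psi_eq {x : AF F} {f : F} (h : x - toAF F f ∈ intAF F) : psi x = trExp f := by
  have h' := sub_mem h (exists_sub_mem_int x).choose_spec
  rw [sub_sub_sub_cancel_left, ← map_sub] at h'
  obtain ⟨a, ha⟩ := exists_eq_of_toAF_mem_intAF h'
  show trExp (exists_sub_mem_int x).choose = trExp f
  rw [show (exists_sub_mem_int x).choose = (a : F) + f by linear_combination -ha, trExp_add,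
    trExp_coe, one_mul]

theorem psi_toAF (f : F) : psi (toAF F f) = trExp f :=
  psi_eq (by rw [sub_self]; exact zero_mem _)

theorem psi_of_mem {x : AF F} (h : x ∈ intAF F) : psi x = 1 := by
  rw [psi_eq (f := 0) (by simpa using h)]
  simp [trExp]

/-- The additive character is additive. -/
theorem psi_add (x y : AF F) : psi (x + y) = psi x * psi y := by
  obtain ⟨f, hf⟩ := exists_sub_mem_int x
  obtain ⟨g, hg⟩ := exists_sub_mem_int y
  rw [psi_eq hf, psi_eq hg, psi_eq (f := f + g), trExp_add]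
  rw [map_add, add_sub_add_comm]
  exact add_mem hf hg

theorem psi_ne_zero (x : AF F) : psi x ≠ 0 := Complex.exp_ne_zero _

theorem psi_zero : psi (0 : AF F) = 1 := psi_of_mem (zero_mem _)

/-! ### The different -/

theorem differentIdeal_ne_bot' : differentIdeal ℤ (𝓞 F) ≠ ⊥ := differentIdeal_ne_bot

/-- An adelic generator of the different. -/
def diffGen (F : Type) [Field F] [NumberField F] : OH F :=
  (exists_idealOH_eq_span (differentIdeal_ne_bot' (F := F))).choose

theorem diffGen_spec : IsUnit (intHom F (diffGen F)) ∧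
    idealOH (differentIdeal ℤ (𝓞 F)) = Ideal.span {diffGen F} :=
  (exists_idealOH_eq_span (differentIdeal_ne_bot' (F := F))).choose_spec

/-- The same as an idele. -/
def diffUnit (F : Type) [Field F] [NumberField F] : (AF F)ˣ := (diffGen_spec (F := F)).1.unit

theorem coe_diffUnit : (diffUnit F : AF F) = intHom F (diffGen F) := rfl

theorem diffUnit_mem : (diffUnit F : AF F) ∈ intAF F := ⟨diffGen F, rfl⟩

/-- The inverse different is the dual of the integers. -/
theorem mem_dual_iff (f : F) :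
    (∀ o : 𝓞 F, ∃ k : ℤ, Algebra.trace ℚ F (f * (o : F)) = (k : ℚ)) ↔
      ∀ b ∈ differentIdeal ℤ (𝓞 F), ∃ a : 𝓞 F, (a : F) = f * (b : F) := by
  have h0 := coeIdeal_differentIdeal ℤ ℚ F (B := 𝓞 F)
  have hd : (differentIdeal ℤ (𝓞 F) : FractionalIdeal (𝓞 F)⁰ F) ≠ 0 :=
    FractionalIdeal.coeIdeal_ne_zero.mpr differentIdeal_ne_bot'
  have hdual : FractionalIdeal.dual ℤ ℚ (1 : FractionalIdeal (𝓞 F)⁰ F)
      = (differentIdeal ℤ (𝓞 F) : FractionalIdeal (𝓞 F)⁰ F)⁻¹ := by rw [h0, inv_inv]
  have hmem : f ∈ (differentIdeal ℤ (𝓞 F) : FractionalIdeal (𝓞 F)⁰ F)⁻¹ ↔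
      ∀ b ∈ differentIdeal ℤ (𝓞 F), ∃ a : 𝓞 F, (a : F) = f * (b : F) := by
    rw [FractionalIdeal.mem_inv_iff hd]
    simp only [FractionalIdeal.mem_coeIdeal, FractionalIdeal.mem_one_iff, forall_exists_index,
      and_imp, forall_apply_eq_imp_iff₂]
  rw [← hmem, ← hdual, FractionalIdeal.mem_dual (one_ne_zero (α := FractionalIdeal (𝓞 F)⁰ F))]
  simp only [FractionalIdeal.mem_one_iff, forall_exists_index, forall_apply_eq_imp_iff,
    Algebra.traceForm_apply, RingHom.mem_range, eq_intCast]
  exact forall_congr' fun o => ⟨fun ⟨k, hk⟩ => ⟨k, hk.symm⟩, fun ⟨k, hk⟩ => ⟨k, hk.symm⟩⟩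

/-- The elements that pair trivially with all integral adeles. -/
theorem psi_mul_int_iff {x : AF F} :
    (∀ z ∈ intAF F, psi (x * z) = 1) ↔ (diffUnit F : AF F) * x ∈ intAF F := by
  obtain ⟨f, hf⟩ := exists_sub_mem_int x
  have hfo : ∀ o : 𝓞 F, x * toAF F o - toAF F (f * (o : F)) ∈ intAF F := fun o => by
    rw [map_mul, ← sub_mul]
    exact mul_mem hf (toAF_mem_intAF o)
  obtain ⟨hu, hspan⟩ := diffGen_spec (F := F)
  have hdf : (diffUnit F : AF F) * x - (diffUnit F : AF F) * toAF F f ∈ intAF F := by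
    rw [← mul_sub]
    exact mul_mem diffUnit_mem hf
  constructor
  · intro h
    have hd : ∀ b ∈ differentIdeal ℤ (𝓞 F), ∃ a : 𝓞 F, (a : F) = f * (b : F) :=
      (mem_dual_iff f).mp fun o => by
        rw [← trExp_eq_one_iff, ← psi_eq (hfo o)]
        exact h _ (toAF_mem_intAF o)
    have hgen : ∀ z ∈ idealOH (differentIdeal ℤ (𝓞 F)), intHom F z * toAF F f ∈ intAF F := by
      intro z hz
      induction hz using Submodule.span_induction with
      | mem y hy =>
        obtain ⟨b, hb, rfl⟩ := hy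
        obtain ⟨a, ha⟩ := hd b hb
        show intHom F (b ⊗ₜ 1) * toAF F f ∈ intAF F
        rw [intHom_tmul_one, mul_comm, ← map_mul, ← ha]
        exact toAF_mem_intAF a
      | zero => rw [map_zero, zero_mul]; exact zero_mem _
      | add y z _ _ hy hz => rw [map_add, add_mul]; exact add_mem hy hz
      | smul c y _ hy =>
        rw [smul_eq_mul, map_mul, mul_assoc]
        exact mul_mem ⟨c, rfl⟩ hy
    have := hgen (diffGen F) (hspan ▸ Ideal.mem_span_singleton_self _)
    simpa [coe_diffUnit] using add_mem hdf this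
  · intro h z hz
    obtain ⟨N, hN, hNx⟩ := exists_natCast_mul_mem_intAF x
    obtain ⟨y, hy⟩ := hz
    replace hy : intHom F y = z := hy
    subst hy
    obtain ⟨o, w, rfl⟩ := oh_exists_add (F := F) hN y
    have hd : ∀ b ∈ differentIdeal ℤ (𝓞 F), ∃ a : 𝓞 F, (a : F) = f * (b : F) := by
      intro b hb
      have h1 : (diffUnit F : AF F) * toAF F f ∈ intAF F := by
        simpa using sub_mem h hdf
      obtain ⟨c, hc⟩ := Ideal.mem_span_singleton.mp (hspan ▸ tmul_one_mem_idealOH hb :
        b ⊗ₜ[ℤ] (1 : Zhat) ∈ Ideal.span {diffGen F})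
      refine exists_eq_of_toAF_mem_intAF ?_
      rw [map_mul, ← intHom_tmul_one, hc, map_mul, ← mul_assoc, mul_comm (toAF F f)]
      exact mul_mem h1 ⟨c, rfl⟩
    rw [map_add, map_mul, map_natCast, intHom_tmul_one, mul_add, psi_add, psi_eq (hfo o),
      (trExp_eq_one_iff _).mpr ((mem_dual_iff f).mpr hd o), one_mul]
    refine psi_of_mem ?_
    rw [← mul_assoc, mul_comm x]
    exact mul_mem hNx ⟨w, rfl⟩

/-! ### The trace in embeddings -/

variable {ι : Type} [Fintype ι]

theorem trace_eq_sum_re (Φ : PlaceChoice F ι) (f : F) :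
    ((Algebra.trace ℚ F f : ℚ) : ℂ) = ∑ i, ((2 * (Φ.emb i f).re : ℝ) : ℂ) := by
  classical
  have h := trace_eq_sum_embeddings (K := ℚ) (L := F) ℂ (x := f)
  rw [eq_ratCast] at h
  rw [h, ← (RingHom.equivRatAlgHom (R := F) (S := ℂ)).sum_comp,
    ← Finset.sum_fiberwise_of_maps_to (g := InfinitePlace.mk) (t := Finset.univ) (by simp),
    ← (placeEquiv Φ).sum_comp]
  refine Finset.sum_congr rfl fun i _ => ?_
  have hfib : (Finset.univ.filter fun φ : F →+* ℂ => InfinitePlace.mk φ = placeEquiv Φ i)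
      = {Φ.emb i, ComplexEmbedding.conjugate (Φ.emb i)} := by
    ext φ
    simp only [Finset.mem_filter, Finset.mem_univ, true_and, Finset.mem_insert,
      Finset.mem_singleton, placeEquiv_apply, InfinitePlace.mk_eq_iff]
    refine or_congr Iff.rfl ⟨fun h => ?_, fun h => ?_⟩
    · rw [← h]; exact (star_star φ).symm
    · rw [h]; exact star_star _
  have hne : Φ.emb i ≠ ComplexEmbedding.conjugate (Φ.emb i) := fun h =>
    (InfinitePlace.isComplex_iff.mp (Φ.isComplex i)) (by
      rcases InfinitePlace.mk_eq_iff.mp (InfinitePlace.mk_embedding (InfinitePlace.mk (Φ.emb i)))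
        with h' | h'
      · rw [h']; exact ComplexEmbedding.isReal_iff.mpr h.symm
      · rw [← ComplexEmbedding.isReal_conjugate_iff, h']
        exact ComplexEmbedding.isReal_iff.mpr h.symm)
  rw [hfib, Finset.sum_pair hne]
  simp only [RingHom.equivRatAlgHom_apply, RingHom.toRatAlgHom_apply,
    ComplexEmbedding.conjugate_coe_eq]
  rw [Complex.add_conj]

theorem trExp_eq_exp (Φ : PlaceChoice F ι) (f : F) :
    trExp f = Complex.exp (-((∑ i, ((4 * π * (Φ.emb i f).re : ℝ) : ℂ)) * Complex.I)) := by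
  rw [trExp, trace_eq_sum_re Φ, Finset.mul_sum, Finset.sum_mul, ← Finset.sum_neg_distrib]
  congr 1
  refine Finset.sum_congr rfl fun i _ => ?_
  push_cast
  ring

/-! ### The primes dividing `N` -/

/-- The idempotent of `Ẑ` of the primes dividing `N`. -/
def insideZhat (N : ℕ) : Zhat := fun p => if (p : ℕ) ∣ N then 1 else 0

/-- The idempotent of `AF F` of the primes dividing `N`. -/
def eN (F : Type) [Field F] (N : ℕ) : AF F := (1 : F) ⊗ₜ[ℤ] insideZhat N

variable {N : ℕ}

section

omit [NumberField F]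

theorem eN_eq_intHom : eN F N = intHom F ((1 : 𝓞 F) ⊗ₜ[ℤ] insideZhat N) := by
  simp [eN, intHom]

theorem eN_mem : eN F N ∈ intAF F := ⟨_, eN_eq_intHom.symm⟩

theorem eN_mul_self : eN F N * eN F N = eN F N := by
  rw [eN, Algebra.TensorProduct.tmul_mul_tmul, one_mul]
  congr 1
  funext p
  simp [insideZhat]

theorem eN_mul_one_sub : eN F N * (1 - eN F N) = 0 := by
  linear_combination -eN_mul_self (F := F) (N := N)

theorem one_sub_eN_mem : 1 - eN F N ∈ intAF F := sub_mem (one_mem _) eN_mem

end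

theorem exists_mul_eq_one_sub_insideZhat (_hN : N ≠ 0) :
    ∃ u : Zhat, (N : Zhat) * u = 1 - insideZhat N := by
  have h : ∀ p : Nat.Primes, (N : ℤ_[(p : ℕ)]) ∣ (1 - insideZhat N) p := by
    intro p
    by_cases hp : (p : ℕ) ∣ N
    · simp [insideZhat, hp]
    · refine IsUnit.dvd ?_
      rw [PadicInt.isUnit_iff, PadicInt.norm_natCast_eq_one_iff]
      exact p.2.coprime_iff_not_dvd.mpr hp
  choose u hu using h
  exact ⟨u, funext fun p => (hu p).symm⟩

theorem one_sub_eN_mem_idealAF (hN : N ≠ 0) :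
    1 - eN F N ∈ idealAF F (Ideal.span {(N : 𝓞 F)}) := by
  obtain ⟨u, hu⟩ := exists_mul_eq_one_sub_insideZhat hN
  have e : 1 - eN F N = intHom F ((1 : 𝓞 F) ⊗ₜ[ℤ] u) * (N : AF F) := by
    have h1 : ((1 : F) ⊗ₜ[ℤ] (1 - insideZhat N) : AF F) = 1 - eN F N := by
      rw [TensorProduct.tmul_sub, eN, ← Algebra.TensorProduct.one_def]
    rw [← h1, ← hu, mul_comm (intHom F _), ← map_natCast (intHom F) N, ← map_mul]
    simp [intHom, ← nsmul_eq_mul]
  rw [e]
  exact mul_mem_idealAF_left ⟨_, rfl⟩ (natCast_mem_idealAF (Ideal.mem_span_singleton_self _))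

theorem mul_one_sub_eN_mem (hN : N ≠ 0) {x : AF F} (hx : x ∈ intAF F) :
    x * (1 - eN F N) ∈ idealAF F (Ideal.span {(N : 𝓞 F)}) :=
  mul_mem_idealAF_left hx (one_sub_eN_mem_idealAF hN)

omit [NumberField F]

/-- The component at `p` of the idempotent. -/
theorem compAF_eN (p : Nat.Primes) (hp : ¬ (p : ℕ) ∣ N) : compAF p (eN F N) = 0 := by
  rw [eN, compAF, Algebra.TensorProduct.map_tmul]
  simp [insideZhat, hp]

/-- Trivial outside the primes dividing `N`. -/
def InsideN (N : ℕ) (g : GL (Fin 2) (AF F)) : Prop :=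
  ∀ i j, (1 - eN F N) * (g.val - 1) i j = 0

/-- An idele trivial at the primes dividing `N`. -/
def OutsideN (N : ℕ) (y : (AF F)ˣ) : Prop := eN F N * ((y : AF F) - 1) = 0

theorem InsideN.supportedAt {g : GL (Fin 2) (AF F)} (hg : InsideN N g) : SupportedAt N g := by
  intro p hp
  apply Units.ext
  ext i j
  have h : compAF p ((g.val - 1) i j) = 0 := by
    have := congrArg (compAF (F := F) p) (hg i j)
    rwa [map_mul, map_sub, map_one, compAF_eN p hp, sub_zero, one_mul, map_zero] at this
  have h2 : compAF p (g.val i j) = compAF p ((1 : Matrix (Fin 2) (Fin 2) (AF F)) i j) := by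
    rw [Matrix.sub_apply, map_sub, sub_eq_zero] at h
    exact h
  show compAF p (g.val i j) = (1 : Matrix (Fin 2) (Fin 2) _) i j
  rw [h2, Matrix.one_apply, Matrix.one_apply]
  split_ifs <;> simp

theorem InsideN.mul {g h : GL (Fin 2) (AF F)} (hg : InsideN N g) (hh : InsideN N h) :
    InsideN N (g * h) := fun i j => by
  have e : (g * h).val - 1 = (g.val - 1) * h.val + (h.val - 1) := by
    rw [Units.val_mul, Matrix.sub_mul, Matrix.one_mul]; abel
  rw [e, Matrix.add_apply, mul_add, hh i j, add_zero, Matrix.mul_apply, Finset.mul_sum]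
  refine Finset.sum_eq_zero fun l _ => ?_
  rw [← mul_assoc, hg i l, zero_mul]

theorem insideN_upperUnip {x : AF F} (hx : (1 - eN F N) * x = 0) :
    InsideN (F := F) N (upperUnip x) := by
  intro i j
  fin_cases i <;> fin_cases j <;> simp [upperUnip, hx]

theorem insideN_diagUnit {u : (AF F)ˣ} (hu : (1 - eN F N) * ((u : AF F) - 1) = 0) :
    InsideN (F := F) N (diagUnit u) := by
  intro i j
  fin_cases i <;> fin_cases j <;> simp [diagUnit, hu]

theorem OutsideN.mul {y z : (AF F)ˣ} (hy : OutsideN N y) (hz : OutsideN N z) :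
    OutsideN N (y * z) := by
  unfold OutsideN at *
  rw [Units.val_mul]
  linear_combination (z : AF F) * hy + hz

theorem OutsideN.inv {y : (AF F)ˣ} (hy : OutsideN N y) : OutsideN N y⁻¹ := by
  unfold OutsideN at *
  linear_combination (-((y⁻¹ : (AF F)ˣ) : AF F)) * hy + (eN F N) * y.inv_mul

/-- Matrices trivial outside `N` commute with ideles trivial inside `N`. -/
theorem InsideN.commute {g : GL (Fin 2) (AF F)} (hg : InsideN N g) {y : (AF F)ˣ}
    (hy : OutsideN N y) : diagUnit y * g = g * diagUnit y := by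
  have e : ∀ i j, (g.val i j) * ((y : AF F) - 1) = (1 : Matrix (Fin 2) (Fin 2) (AF F)) i j *
      ((y : AF F) - 1) := fun i j => by
    have h := hg i j
    rw [Matrix.sub_apply] at h
    unfold OutsideN at hy
    linear_combination ((y : AF F) - 1) * h
      + (g.val i j - (1 : Matrix (Fin 2) (Fin 2) (AF F)) i j) * hy
  have h01 := e 0 1
  have h10 := e 1 0
  simp only [Matrix.one_apply_ne (show (0 : Fin 2) ≠ 1 by decide), zero_mul] at h01
  simp only [Matrix.one_apply_ne (show (1 : Fin 2) ≠ 0 by decide), zero_mul] at h10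
  apply Units.ext
  rw [Units.val_mul, Units.val_mul, Matrix.eta_fin_two g.val]
  ext i j
  fin_cases i <;> fin_cases j <;> simp [diagUnit]
  · ring
  · linear_combination h01
  · linear_combination -h10

/-- The part of an idele at the primes dividing `N`. -/
def inPart (N : ℕ) (u : (AF F)ˣ) : (AF F)ˣ where
  val := eN F N * u + (1 - eN F N)
  inv := eN F N * ((u⁻¹ : (AF F)ˣ) : AF F) + (1 - eN F N)
  val_inv := by
    linear_combination (eN F N * eN F N) * u.mul_inv +
      (2 - (u : AF F) - ((u⁻¹ : (AF F)ˣ) : AF F)) * eN_mul_self (F := F) (N := N)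
  inv_val := by
    linear_combination (eN F N * eN F N) * u.mul_inv +
      (2 - (u : AF F) - ((u⁻¹ : (AF F)ˣ) : AF F)) * eN_mul_self (F := F) (N := N)

/-- The part of an idele at the primes not dividing `N`. -/
def outPart (N : ℕ) (u : (AF F)ˣ) : (AF F)ˣ where
  val := (1 - eN F N) * u + eN F N
  inv := (1 - eN F N) * ((u⁻¹ : (AF F)ˣ) : AF F) + eN F N
  val_inv := by
    linear_combination ((1 - eN F N) * (1 - eN F N)) * u.mul_inv +
      (2 - (u : AF F) - ((u⁻¹ : (AF F)ˣ) : AF F)) * eN_mul_self (F := F) (N := N)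
  inv_val := by
    linear_combination ((1 - eN F N) * (1 - eN F N)) * u.mul_inv +
      (2 - (u : AF F) - ((u⁻¹ : (AF F)ˣ) : AF F)) * eN_mul_self (F := F) (N := N)

theorem coe_inPart (u : (AF F)ˣ) : (inPart N u : AF F) = eN F N * u + (1 - eN F N) := rfl

theorem coe_outPart (u : (AF F)ˣ) : (outPart N u : AF F) = (1 - eN F N) * u + eN F N := rfl

theorem inPart_mul_outPart (u : (AF F)ˣ) : inPart N u * outPart N u = u := by
  apply Units.ext
  rw [Units.val_mul, coe_inPart, coe_outPart]
  linear_combination (2 * (u : AF F) - (u : AF F) ^ 2 - 1) * eN_mul_self (F := F) (N := N)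

theorem outsideN_outPart (u : (AF F)ˣ) : OutsideN N (outPart N u) := by
  show eN F N * (_ - 1) = 0
  rw [coe_outPart]
  linear_combination (1 - (u : AF F)) * eN_mul_self (F := F) (N := N)

theorem insideN_inPart (u : (AF F)ˣ) : InsideN (F := F) N (diagUnit (inPart N u)) :=
  insideN_diagUnit (by
    rw [coe_inPart]
    linear_combination (1 - (u : AF F)) * eN_mul_self (F := F) (N := N))

/-- The part of an idele prime to `N` is multiplicative. -/
theorem outPart_mul (u v : (AF F)ˣ) : outPart N (u * v) = outPart N u * outPart N v := by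
  apply Units.ext
  rw [Units.val_mul, coe_outPart, coe_outPart, coe_outPart, Units.val_mul]
  linear_combination ((u : AF F) + v - (u : AF F) * v - 1) * eN_mul_self (F := F) (N := N)

end FLTAgent.LanglandsTunnell.Expansion

end
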