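import Fermat.Agent.LanglandsTunnell.Seed.Poisson
import Mathlib.MeasureTheory.Measure.Haar.Unique

/-!
# Means of periodic functions over a period cube

`cubeMean` integrates over the cube `cube`; for periodic functions (`IsPer`) it is translation
invariant and gives the Fourier expansion `hasSum_charVec` and Bessel's inequality
`sum_norm_sq_le`.
-/

set_option autoImplicit false

open MeasureTheory Set Filter
open scoped Topology Real

noncomputable section

/-- In this file the circle carries its normalised Haar measure. -/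
local instance : MeasureSpace UnitAddCircle := ⟨AddCircle.haarAddCircle⟩

local instance : Measure.IsAddHaarMeasure (volume : Measure UnitAddCircle) :=
  inferInstanceAs (Measure.IsAddHaarMeasure AddCircle.haarAddCircle)

local instance : IsProbabilityMeasure (volume : Measure UnitAddCircle) :=
  inferInstanceAs (IsProbabilityMeasure AddCircle.haarAddCircle)

namespace FLTAgent.LanglandsTunnell.Expansion

open FLTAgent.LanglandsTunnell.Seed

variable {d : Type} [Fintype d]

/-- The period cube. -/
def cube : Set (d → ℝ) := Set.univ.pi fun _ => Set.Icc (0 : ℝ) 1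

/-- The mean over the period cube. -/
def cubeMean (G : (d → ℝ) → ℂ) : ℂ := ∫ s in cube, G s

/-- Invariance under integral translations. -/
def IsPer (G : (d → ℝ) → ℂ) : Prop := ∀ s (r : d → ℤ), G (s + intVec r) = G s

omit [Fintype d] in
theorem isCompact_cube : IsCompact (cube : Set (d → ℝ)) :=
  isCompact_univ_pi fun _ => isCompact_Icc

theorem volume_cube : volume (cube : Set (d → ℝ)) = 1 := by
  rw [cube, volume_pi_pi]
  simp

theorem cubeMean_const (c : ℂ) : cubeMean (fun _ : d → ℝ => c) = c := by
  rw [cubeMean, setIntegral_const, Measure.real, volume_cube]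
  simp

theorem integrableOn_cube {G : (d → ℝ) → ℂ} (hG : Continuous G) : IntegrableOn G cube :=
  hG.continuousOn.integrableOn_compact isCompact_cube

theorem norm_cubeMean_le {G : (d → ℝ) → ℂ} {C : ℝ} (h : ∀ s, ‖G s‖ ≤ C) : ‖cubeMean G‖ ≤ C := by
  refine (norm_setIntegral_le_of_norm_le_const (by rw [volume_cube]; exact ENNReal.one_lt_top)
    fun s _ => h s).trans ?_
  simp [Measure.real, volume_cube]

theorem cubeMean_sum {κ : Type} (t : Finset κ) (G : κ → (d → ℝ) → ℂ)
    (hG : ∀ j ∈ t, Continuous (G j)) :
    cubeMean (fun s => ∑ j ∈ t, G j s) = ∑ j ∈ t, cubeMean (G j) :=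
  integral_finsetSum t fun j hj => integrableOn_cube (hG j hj)

theorem cubeMean_const_mul (c : ℂ) (G : (d → ℝ) → ℂ) :
    cubeMean (fun s => c * G s) = c * cubeMean G := integral_const_mul c G

/-- Reduction modulo integral vectors. -/
def toTorus (s : d → ℝ) : UnitAddTorus d := fun i => ((s i : ℝ) : UnitAddCircle)

/-- Representatives in the half open cube. -/
def ofTorus (q : UnitAddTorus d) : d → ℝ := fun i => (AddCircle.equivIoc 1 0 (q i) : ℝ)

omit [Fintype d] in
theorem toTorus_ofTorus (q : UnitAddTorus d) : toTorus (ofTorus q) = q :=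
  funext fun _ => AddCircle.coe_equivIoc

omit [Fintype d] in
theorem IsPer.eq_of_toTorus_eq {G : (d → ℝ) → ℂ} (hG : IsPer G) {s t : d → ℝ}
    (h : toTorus s = toTorus t) : G s = G t := by
  have hn : ∀ i, ∃ k : ℤ, t i = s i + k := by
    intro i
    obtain ⟨k, hk⟩ := AddSubgroup.mem_zmultiples_iff.mp ((QuotientAddGroup.eq).mp (congrFun h i))
    exact ⟨k, by rw [zsmul_one] at hk; linarith⟩
  choose k hk using hn
  rw [show t = s + intVec k from funext hk, hG]

omit [Fintype d] in
theorem isOpenQuotientMap_toTorus : IsOpenQuotientMap (toTorus (d := d)) :=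
  IsOpenQuotientMap.piMap fun _ => QuotientAddGroup.isOpenQuotientMap_mk

/-- A periodic continuous function on the torus. -/
def torusFun {G : (d → ℝ) → ℂ} (hG : IsPer G) (hc : Continuous G) : C(UnitAddTorus d, ℂ) :=
  ⟨fun q => G (ofTorus q), isOpenQuotientMap_toTorus.isQuotientMap.continuous_iff.mpr
    (hc.congr fun _ => (hG.eq_of_toTorus_eq (toTorus_ofTorus _)).symm)⟩

omit [Fintype d] in
theorem torusFun_toTorus {G : (d → ℝ) → ℂ} (hG : IsPer G) (hc : Continuous G) (s : d → ℝ) :
    torusFun hG hc (toTorus s) = G s :=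
  hG.eq_of_toTorus_eq (toTorus_ofTorus _)

theorem integral_torus (g : UnitAddTorus d → ℂ) :
    ∫ q, g q = cubeMean fun s => g (toTorus s) := by
  rw [UnitAddTorus.integral_preimage g (0 : d → ℝ), cubeMean]
  refine setIntegral_congr_set ?_
  have e : {x : d → ℝ | ∀ i, x i ∈ Ioc ((0 : d → ℝ) i) ((0 : d → ℝ) i + 1)}
      = Set.univ.pi fun _ => Ioc (0 : ℝ) 1 := by ext x; simp [Set.mem_pi]
  rw [e, cube, Set.pi_univ_Icc]
  rw [MeasureTheory.volume_pi]
  exact Measure.univ_pi_Ioc_ae_eq_Icc (μ := fun _ : d => (volume : Measure ℝ))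
    (f := fun _ => (0 : ℝ))
    (g := fun _ => (1 : ℝ))

/-- Translation invariance of the mean. -/
theorem cubeMean_add_right {G : (d → ℝ) → ℂ} (hG : IsPer G) (hc : Continuous G) (s₀ : d → ℝ) :
    cubeMean (fun s => G (s + s₀)) = cubeMean G := by
  have h := integral_add_right_eq_self (μ := (volume : Measure (UnitAddTorus d)))
    (fun q => torusFun hG hc q) (toTorus s₀)
  rw [integral_torus, integral_torus] at h
  have e : ∀ s, toTorus s + toTorus s₀ = toTorus (s + s₀) := fun s => funext fun i => rfl
  simpa only [e, torusFun_toTorus] using h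

/-- A periodic function with vanishing coefficients vanishes. -/
theorem eq_zero_of_fourier {G : (d → ℝ) → ℂ} (hG : IsPer G) (hc : Continuous G)
    (h : ∀ j : d → ℤ, cubeMean (fun s => charVec (-j) s * G s) = 0) (s : d → ℝ) : G s = 0 := by
  have h0 : ∀ j, UnitAddTorus.mFourierCoeff (torusFun hG hc) j = 0 := by
    intro j
    show ∫ q, UnitAddTorus.mFourier (-j) q • torusFun hG hc q = 0
    rw [integral_torus, ← h j]
    refine congrArg cubeMean (funext fun t => ?_)
    rw [torusFun_toTorus, smul_eq_mul]
    exact congrArg (· * G t) (mFourier_coe_vec (-j) t)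
  have hs : Summable (UnitAddTorus.mFourierCoeff (torusFun hG hc)) := by
    rw [funext h0]; exact summable_zero
  have := UnitAddTorus.hasSum_mFourier_series_apply_of_summable hs (toTorus s)
  simp only [h0, zero_smul, torusFun_toTorus] at this
  exact this.unique hasSum_zero

theorem mFourierCoeff_torusFun {G : (d → ℝ) → ℂ} (hG : IsPer G) (hc : Continuous G) (j : d → ℤ) :
    UnitAddTorus.mFourierCoeff (torusFun hG hc) j = cubeMean fun s => charVec (-j) s * G s := by
  show ∫ q, UnitAddTorus.mFourier (-j) q • torusFun hG hc q = _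
  rw [integral_torus]
  refine congrArg cubeMean (funext fun t => ?_)
  rw [torusFun_toTorus, smul_eq_mul]
  exact congrArg (· * G t) (mFourier_coe_vec (-j) t)

/-- Pointwise Fourier expansion. -/
theorem hasSum_charVec {G : (d → ℝ) → ℂ} (hG : IsPer G) (hc : Continuous G)
    (h : Summable fun j : d → ℤ => cubeMean fun s => charVec (-j) s * G s) (s : d → ℝ) :
    HasSum (fun j : d → ℤ => (cubeMean fun t => charVec (-j) t * G t) * charVec j s) (G s) := by
  have hs : Summable (UnitAddTorus.mFourierCoeff (torusFun hG hc)) := by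
    rwa [funext (mFourierCoeff_torusFun hG hc)]
  have := UnitAddTorus.hasSum_mFourier_series_apply_of_summable hs (toTorus s)
  simp only [mFourierCoeff_torusFun, torusFun_toTorus, smul_eq_mul] at this
  exact this.congr_fun fun j => congrArg _ (mFourier_coe_vec j s).symm

/-- Bessel's inequality. -/
theorem sum_norm_sq_le {G : (d → ℝ) → ℂ} (hG : IsPer G) (hc : Continuous G) {C : ℝ}
    (hC : ∀ s, ‖G s‖ ≤ C) (S : Finset (d → ℤ)) :
    ∑ j ∈ S, ‖cubeMean fun s => charVec (-j) s * G s‖ ^ 2 ≤ C ^ 2 := by
  have h := UnitAddTorus.hasSum_sq_mFourierCoeff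
    (ContinuousMap.toLp (E := ℂ) 2 volume ℂ (torusFun hG hc))
  simp only [UnitAddTorus.mFourierCoeff_toLp, mFourierCoeff_torusFun] at h
  refine (sum_le_hasSum S (fun j _ => sq_nonneg _) h).trans ?_
  have h2 := norm_integral_le_of_norm_le_const (μ := (volume : Measure (UnitAddTorus d)))
    (f := fun q => ‖(ContinuousMap.toLp (E := ℂ) 2 volume ℂ (torusFun hG hc)) q‖ ^ 2)
    (C := C ^ 2) (by
      filter_upwards [ContinuousMap.coeFn_toLp (𝕜 := ℂ) (p := 2) volume (torusFun hG hc)] with q hq
      rw [hq, Real.norm_eq_abs, abs_pow, abs_norm]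
      exact pow_le_pow_left₀ (norm_nonneg _) (hC _) 2)
  rw [probReal_univ, mul_one] at h2
  exact (Real.le_norm_self _).trans h2

/-- The real linear map of an integral matrix. -/
def intLin (A : Matrix d d ℤ) (s : d → ℝ) : d → ℝ := fun i => ∑ k, (A i k : ℝ) * s k

/-- The endomorphism of the torus of an integral matrix. -/
def torusHom (A : Matrix d d ℤ) : UnitAddTorus d →+ UnitAddTorus d where
  toFun q := fun i => ∑ k, A i k • q k
  map_zero' := by funext i; simp
  map_add' q r := by funext i; simp [Finset.sum_add_distrib]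

theorem continuous_torusHom (A : Matrix d d ℤ) : Continuous (torusHom A) :=
  continuous_pi fun i => continuous_finsetSum _ fun k _ => (continuous_zsmul (A i k)).comp
    (continuous_apply k)

theorem torusHom_toTorus (A : Matrix d d ℤ) (s : d → ℝ) :
    torusHom A (toTorus s) = toTorus (intLin A s) := by
  funext i
  show ∑ k, A i k • ((s k : ℝ) : UnitAddCircle) = ((∑ k, (A i k : ℝ) * s k : ℝ) : UnitAddCircle)
  rw [show ((∑ k, (A i k : ℝ) * s k : ℝ) : UnitAddCircle)
    = ∑ k, (((A i k : ℝ) * s k : ℝ) : UnitAddCircle) from map_sum (QuotientAddGroup.mk' _) _ _]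
  refine Finset.sum_congr rfl fun k _ => ?_
  rw [← AddCircle.coe_zsmul, zsmul_eq_mul]

/-- A periodic function has the same mean on a finer period cube. -/
theorem cubeMean_intLin {G : (d → ℝ) → ℂ} (hG : IsPer G) (hc : Continuous G) (A : Matrix d d ℤ)
    (hA : Function.Surjective (intLin A)) :
    cubeMean (fun s => G (intLin A s)) = cubeMean G := by
  have hsurj : Function.Surjective (torusHom A) := fun q => by
    obtain ⟨s, hs⟩ := hA (ofTorus q)
    exact ⟨toTorus s, by rw [torusHom_toTorus, hs, toTorus_ofTorus]⟩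
  have hmp : MeasurePreserving (torusHom A) (volume : Measure (UnitAddTorus d)) volume :=
    (torusHom A).measurePreserving (continuous_torusHom A) hsurj rfl
  have h1 := integral_map hmp.measurable.aemeasurable
    (μ := (volume : Measure (UnitAddTorus d))) (f := fun q => torusFun hG hc q)
    (torusFun hG hc).continuous.aestronglyMeasurable
  rw [hmp.map_eq, integral_torus, integral_torus] at h1
  simp only [torusHom_toTorus, torusFun_toTorus] at h1
  exact h1.symm

end FLTAgent.LanglandsTunnell.Expansion

end
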