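import Fermat.Agent.LanglandsTunnell.Expansion.Unique
import Fermat.Agent.LanglandsTunnell.Expansion.Character
import Fermat.Agent.LanglandsTunnell.Expansion.Mean
import Fermat.Agent.LanglandsTunnell.Geom.Embedding
import Fermat.Agent.LanglandsTunnell.Geom.Orbits
import Fermat.Agent.LanglandsTunnell.AdelicGroup

/-!
# Fourier coefficients of a spherical eigenform

The coefficients at infinity `coef` are multiples `whit` of the spherical Whittaker function
(`coef_eq_whit`); `finsum_whit` carries the Hecke eigenvalues over to them.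
-/

set_option autoImplicit false
set_option linter.unusedSectionVars false

open NumberField Matrix MeasureTheory
open scoped Real

noncomputable section

namespace FLTAgent.LanglandsTunnell.Expansion

open FLTAgent.LanglandsTunnell FLTAgent.LanglandsTunnell.Seed
open FLTAgent.LanglandsTunnell.Geom (embLin embLin_injective embLin_intCast embLin_bijective BIdx
  exists_natCast_mul_eq_coe finite_nbrs)

variable {F : Type} [Field F] [NumberField F] {ι : Type} [Fintype ι] [DecidableEq ι]
  {n : Ideal (𝓞 F)}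

/-! ### Geometry of the translations -/

/-- Horizontal translation at every place. -/
def shiftVec (z : ι → ℂ) (P : ι → H3) : ι → H3 := fun i => H3.shift (z i) (P i)

theorem shiftVec_shiftVec (z w : ι → ℂ) (P : ι → H3) :
    shiftVec z (shiftVec w P) = shiftVec (z + w) P := by
  funext i
  exact H3.ext (by simp [shiftVec, H3.shift]; ring) rfl

theorem shiftVec_zero (P : ι → H3) : shiftVec 0 P = P := by
  funext i
  exact H3.ext (by simp [shiftVec, H3.shift]) rfl

theorem continuous_shiftVec :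
    Continuous fun p : (ι → ℂ) × (ι → H3) => shiftVec p.1 p.2 := by
  refine continuous_pi fun i => H3.continuous_mk_iff.mpr ⟨?_, ?_⟩
  · exact (H3.continuous_z.comp ((continuous_apply i).comp continuous_snd)).add
      ((continuous_apply i).comp continuous_fst)
  · show Continuous fun p : (ι → ℂ) × (ι → H3) => (p.2 i).t
    exact H3.continuous_t.comp ((continuous_apply i).comp continuous_snd)

theorem moebius_upperUnip (x : ℂ) (P : H3) : H3.moebius (upperUnip x) P = H3.shift x P := by
  ext <;> simp [H3.moebius, upperUnip, H3.shift, Matrix.det_fin_two]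

theorem moebius_diagUnit (e : ℂˣ) (P : H3) :
    (H3.moebius (diagUnit e) P).z = (e : ℂ) * P.z ∧
      (H3.moebius (diagUnit e) P).t = ‖(e : ℂ)‖ * P.t := by
  constructor <;> simp [H3.moebius, diagUnit, Matrix.det_fin_two]

theorem upperUnip_add {R : Type} [CommRing R] (x y : R) :
    upperUnip (x + y) = upperUnip x * upperUnip y := by
  apply Units.ext
  ext i j
  fin_cases i <;> fin_cases j <;> simp [upperUnip, add_comm]

theorem upperUnip_zero {R : Type} [CommRing R] : upperUnip (0 : R) = 1 := by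
  apply Units.ext
  ext i j
  fin_cases i <;> fin_cases j <;> simp [upperUnip]

variable (Φ : PlaceChoice F ι)

/-- The translation by a scaled basis vector combination. -/
def latPt (m : ℕ) (s : BIdx F → ℝ) : ι → ℂ := fun i => (m : ℂ) * embLin Φ s i

/-- The integer with given coordinates. -/
def ofCoord (r : BIdx F → ℤ) : 𝓞 F := ∑ k, r k • RingOfIntegers.basis F k

theorem latPt_add (m : ℕ) (s t : BIdx F → ℝ) : latPt Φ m (s + t) = latPt Φ m s + latPt Φ m t := by
  funext i
  simp [latPt, mul_add]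

theorem latPt_intVec (m : ℕ) (r : BIdx F → ℤ) (i : ι) :
    latPt Φ m (intVec r) i = Φ.emb i ((m : F) * (ofCoord r : F)) := by
  rw [map_mul, map_natCast]
  exact congrArg ((m : ℂ) * ·) (embLin_intCast Φ r i)

theorem continuous_latPt (m : ℕ) : Continuous (latPt Φ m) :=
  continuous_pi fun i => continuous_const.mul
    ((continuous_apply i).comp (embLin Φ).continuous_of_finiteDimensional)

/-- The character at infinity attached to `ξ`. -/
def chiInf (ξ : F) (z : ι → ℂ) : ℂ :=
  Complex.exp (-((∑ i, ((4 * π * (Φ.emb i ξ * z i).re : ℝ) : ℂ)) * Complex.I))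

theorem chiInf_add (ξ : F) (z w : ι → ℂ) : chiInf Φ ξ (z + w) = chiInf Φ ξ z * chiInf Φ ξ w := by
  rw [chiInf, chiInf, chiInf, ← Complex.exp_add]
  congr 1
  rw [← neg_add, ← add_mul, ← Finset.sum_add_distrib]
  congr 2
  refine Finset.sum_congr rfl fun i _ => ?_
  rw [Pi.add_apply, mul_add, Complex.add_re, mul_add, Complex.ofReal_add]

theorem chiInf_zero (ξ : F) : chiInf Φ ξ (0 : ι → ℂ) = 1 := by simp [chiInf]

theorem chiInf_emb (ξ a : F) : chiInf Φ ξ (fun i => Φ.emb i a) = trExp (ξ * a) := by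
  rw [trExp_eq_exp Φ, chiInf]
  congr 4
  funext i
  rw [map_mul]

theorem norm_chiInf (ξ : F) (z : ι → ℂ) : ‖chiInf Φ ξ z‖ = 1 := by
  rw [chiInf, ← neg_mul, ← Complex.ofReal_sum, ← Complex.ofReal_neg,
    Complex.norm_exp_ofReal_mul_I]

theorem continuous_chiInf (ξ : F) : Continuous (chiInf Φ ξ) := by
  unfold chiInf
  fun_prop

/-! ### Admissible periods -/

/-- The translations by `m` times the integral adeles fix `v`. -/
def Admissible (m : ℕ) (v : FinPt F n) : Prop :=
  m ≠ 0 ∧ ∀ z ∈ intAF F, upperUnip ((m : AF F) * z) • v = v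

theorem Admissible.mul_left {m : ℕ} {v : FinPt F n} (h : Admissible m v) {k : ℕ} (hk : k ≠ 0) :
    Admissible (k * m) v := ⟨mul_ne_zero hk h.1, fun z hz => by
  rw [Nat.cast_mul, mul_comm (k : AF F), mul_assoc]
  exact h.2 _ (mul_mem (natCast_mem _ k) hz)⟩

theorem exists_admissible (hn : n ≠ ⊥) (v : FinPt F n) : ∃ m, Admissible m v := by
  obtain ⟨g, rfl⟩ := QuotientGroup.mk_surjective v
  obtain ⟨J, hJ, hconj⟩ := exists_conj_mem g hn
  refine ⟨Ideal.absNorm J, absNorm_ne_zero hJ, fun z hz => ?_⟩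
  have hx : ((Ideal.absNorm J : ℕ) : AF F) * z ∈ idealAF F J := by
    rw [mul_comm]
    exact mul_mem_idealAF_left hz (LanglandsTunnell.natCast_mem_idealAF (Ideal.absNorm_mem J))
  have hk : upperUnip (((Ideal.absNorm J : ℕ) : AF F) * z) ∈ principalSubgroup J := by
    refine ⟨fun i j => ?_, fun i j => ?_⟩ <;> fin_cases i <;> fin_cases j <;>
      simp [upperUnip, hx, neg_mem hx]
  show ((_ * g : GL (Fin 2) (AF F)) : FinPt F n) = g
  rw [eq_comm, QuotientGroup.eq]
  exact Subgroup.mem_sup_left (by rw [← mul_assoc]; exact hconj _ hk)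

/-- `ξ` pairs integrally with `m • 𝓞 F`. -/
def DualOK (m : ℕ) (ξ : F) : Prop := ∀ a : 𝓞 F, trExp (ξ * ((m : F) * (a : F))) = 1

theorem DualOK.mul_left {m : ℕ} {ξ : F} (h : DualOK m ξ) (k : ℕ) : DualOK (k * m) ξ := fun a => by
  have := h ((k : 𝓞 F) * a)
  rwa [show ξ * ((m : F) * (((k : 𝓞 F) * a : 𝓞 F) : F))
    = ξ * (((k * m : ℕ) : F) * (a : F)) by push_cast; ring] at this

theorem dualOK_of_mul_eq {m : ℕ} {ξ : F} {b : 𝓞 F} (h : (m : F) * ξ = (b : F)) : DualOK m ξ :=
  fun a => by
    rw [← mul_assoc, mul_comm ξ, h, ← map_mul (algebraMap (𝓞 F) F)]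
    exact trExp_coe _

theorem exists_valid (hn : n ≠ ⊥) (v : FinPt F n) (ξ : F) :
    ∃ m, Admissible m v ∧ DualOK m ξ := by
  obtain ⟨m, hm⟩ := exists_admissible hn v
  obtain ⟨k, hk, b, hb⟩ := exists_natCast_mul_eq_coe ξ
  exact ⟨k * m, hm.mul_left hk, mul_comm m k ▸ (dualOK_of_mul_eq hb).mul_left m⟩

variable {φ : Pt F ι n → ℂ}

theorem act_upperUnip (f : F) (v : FinPt F n) (P : ι → H3) :
    act Φ (upperUnip f) (v, P) = (upperUnip (toAF F f) • v, shiftVec (fun i => Φ.emb i f) P) := by
  refine Prod.ext ?_ (funext fun i => ?_)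
  · show GeneralLinearGroup.map (toAF F) (upperUnip f) • v = _
    rw [map_upperUnip]
  · show H3.moebius (GeneralLinearGroup.map (Φ.emb i) (upperUnip f)) (P i) = _
    rw [map_upperUnip, moebius_upperUnip]
    rfl

variable {Φ} in
theorem apply_shift_of_admissible (hA : IsAutomorphic Φ φ) {m : ℕ} {v : FinPt F n}
    (hm : Admissible m v) (a : 𝓞 F) (P : ι → H3) :
    φ (v, shiftVec (fun i => Φ.emb i ((m : F) * (a : F))) P) = φ (v, P) := by
  have h := hA.invariant (upperUnip ((m : F) * (a : F))) (v, P)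
  rwa [act_upperUnip, map_mul, map_natCast, hm.2 _ (toAF_mem_intAF a)] at h

variable (φ)

/-- The integrand of a coefficient. -/
def coefInt (v : FinPt F n) (ξ : F) (m : ℕ) (P : ι → H3) (s : BIdx F → ℝ) : ℂ :=
  φ (v, shiftVec (latPt Φ m s) P) * chiInf Φ ξ (latPt Φ m s)

/-- A coefficient computed with the period `m`. -/
def coefAt (v : FinPt F n) (ξ : F) (m : ℕ) (P : ι → H3) : ℂ := cubeMean (coefInt Φ φ v ξ m P)

variable {φ} {Φ}

theorem continuous_apply_shift (hA : IsAutomorphic Φ φ) (v : FinPt F n) (P : ι → H3) :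
    Continuous fun z : ι → ℂ => φ (v, shiftVec z P) :=
  (hA.continuous v).comp (continuous_shiftVec.comp (continuous_id.prodMk continuous_const))

theorem continuous_coefInt (hA : IsAutomorphic Φ φ) (v : FinPt F n) (ξ : F) (m : ℕ)
    (P : ι → H3) : Continuous (coefInt Φ φ v ξ m P) :=
  ((continuous_apply_shift hA v P).comp (continuous_latPt Φ m)).mul
    ((continuous_chiInf Φ ξ).comp (continuous_latPt Φ m))

theorem isPer_coefInt (hA : IsAutomorphic Φ φ) {v : FinPt F n} {ξ : F} {m : ℕ}
    (hm : Admissible m v) (hd : DualOK m ξ) (P : ι → H3) : IsPer (coefInt Φ φ v ξ m P) := by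
  intro s r
  have e : latPt Φ m (intVec r) = fun i => Φ.emb i ((m : F) * (ofCoord r : F)) :=
    funext (latPt_intVec Φ m r)
  rw [coefInt, coefInt, latPt_add, chiInf_add, e, chiInf_emb, hd, mul_one, add_comm,
    ← shiftVec_shiftVec, apply_shift_of_admissible hA hm]

/-- Change of lattice in a mean. -/
theorem cubeMean_transport {G : (ι → ℂ) → ℂ} (hc : Continuous G) {m m' : ℕ} (hm : m ≠ 0)
    {x : F} (hx : x ≠ 0) (hG : IsPer fun s => G (latPt Φ m' s))
    (h : ∀ a : 𝓞 F, ∃ b : 𝓞 F, x * ((m : F) * (a : F)) = (m' : F) * (b : F)) :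
    cubeMean (fun s => G fun i => Φ.emb i x * latPt Φ m s i) =
      cubeMean fun s => G (latPt Φ m' s) := by
  choose b hb using fun k => h (RingOfIntegers.basis F k)
  set A : Matrix (BIdx F) (BIdx F) ℤ := fun l k => (RingOfIntegers.basis F).repr (b k) l with hA
  have hA' : ∀ k, ofCoord (fun l => A l k) = b k := fun k => (RingOfIntegers.basis F).sum_repr _
  have key : ∀ s, latPt Φ m' (intLin A s) = fun i => Φ.emb i x * latPt Φ m s i := by
    intro s
    funext i
    have h1 : ∀ k, Φ.emb i x * ((m : ℂ) * Φ.emb i (RingOfIntegers.basis F k : F))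
        = (m' : ℂ) * embLin Φ (fun l => (A l k : ℝ)) i := by
      intro k
      rw [embLin_intCast, show (∑ l, A l k • RingOfIntegers.basis F l : 𝓞 F) = b k from hA' k,
        ← map_natCast (Φ.emb i) m, ← map_natCast (Φ.emb i) m', ← map_mul, ← map_mul, hb k,
        map_mul]
    show (m' : ℂ) * ∑ l, ((intLin A s l : ℝ) : ℂ) * _ = Φ.emb i x * ((m : ℂ) * ∑ k, _)
    calc (m' : ℂ) * ∑ l, ((intLin A s l : ℝ) : ℂ) * Φ.emb i (RingOfIntegers.basis F l : F)
        = ∑ k, (s k : ℂ) * ((m' : ℂ) * embLin Φ (fun l => (A l k : ℝ)) i) := by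
          simp only [intLin, embLin, LinearMap.coe_mk, AddHom.coe_mk, Finset.mul_sum,
            Finset.sum_mul, Complex.ofReal_sum, Complex.ofReal_mul]
          rw [Finset.sum_comm]
          refine Finset.sum_congr rfl fun k _ => Finset.sum_congr rfl fun l _ => ?_
          ring
      _ = _ := by
          simp only [← h1, Finset.mul_sum]
          refine Finset.sum_congr rfl fun k _ => ?_
          ring
  have hinj : Function.Injective (Matrix.toLin' (fun l k => (A l k : ℝ) :
      Matrix (BIdx F) (BIdx F) ℝ)) := by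
    rw [← LinearMap.ker_eq_bot, LinearMap.ker_eq_bot']
    intro s hs
    have h0 : intLin A s = 0 := by
      funext l
      exact (congrFun hs l : _)
    refine embLin_injective Φ ?_
    rw [map_zero]
    funext i
    have h2 : latPt Φ m' (intLin A s) i = 0 := by simp [latPt, h0]
    rw [key] at h2
    rcases mul_eq_zero.mp h2 with h3 | h3
    · exact absurd h3 (by simpa using hx)
    · rcases mul_eq_zero.mp h3 with h4 | h4
      · exact absurd h4 (Nat.cast_ne_zero.mpr hm)
      · exact h4
  have hsurj : Function.Surjective (intLin A) := fun t => by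
    obtain ⟨s, hs⟩ := LinearMap.injective_iff_surjective.mp hinj t
    exact ⟨s, hs⟩
  have := cubeMean_intLin hG (hc.comp (continuous_latPt Φ m')) A hsurj
  simpa only [key] using this

theorem coefAt_eq_mul (hA : IsAutomorphic Φ φ) {v : FinPt F n} {ξ : F} {m : ℕ}
    (hm : Admissible m v) (hd : DualOK m ξ) {k : ℕ} (hk : k ≠ 0) (P : ι → H3) :
    coefAt Φ φ v ξ (k * m) P = coefAt Φ φ v ξ m P := by
  have h := cubeMean_transport (Φ := Φ) (m := k * m) (m' := m) (x := 1)
    (G := fun z => φ (v, shiftVec z P) * chiInf Φ ξ z)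
    ((continuous_apply_shift hA v P).mul (continuous_chiInf Φ ξ)) (mul_ne_zero hk hm.1)
    one_ne_zero (isPer_coefInt hA hm hd P)
    fun a => ⟨(k : 𝓞 F) * a, by push_cast; ring⟩
  simp only [map_one, one_mul] at h
  exact h

variable (Φ φ)

open scoped Classical in
/-- The coefficient at `ξ`. -/
def coef (v : FinPt F n) (ξ : F) (P : ι → H3) : ℂ :=
  if h : ∃ m, Admissible m v ∧ DualOK m ξ then coefAt Φ φ v ξ h.choose P else 0

variable {Φ φ}

theorem coef_eq (hA : IsAutomorphic Φ φ) {v : FinPt F n} {ξ : F} {m : ℕ} (hm : Admissible m v)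
    (hd : DualOK m ξ) (P : ι → H3) : coef Φ φ v ξ P = coefAt Φ φ v ξ m P := by
  have h : ∃ m, Admissible m v ∧ DualOK m ξ := ⟨m, hm, hd⟩
  rw [coef, dif_pos h, ← coefAt_eq_mul hA h.choose_spec.1 h.choose_spec.2 hm.1,
    mul_comm m, coefAt_eq_mul hA hm hd h.choose_spec.1.1]

theorem coef_zero (hA : IsAutomorphic Φ φ) (hC : IsCuspidal Φ φ) (hn : n ≠ ⊥) (v : FinPt F n)
    (P : ι → H3) : coef Φ φ v 0 P = 0 := by
  obtain ⟨m, hm, hd⟩ := exists_valid hn v (0 : F)
  rw [coef_eq hA hm hd]
  have h := hC v P m hm.1 fun a => by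
    rw [map_mul, map_natCast]
    exact hm.2 _ (toAF_mem_intAF a)
  refine Eq.trans ?_ h
  refine setIntegral_congr_fun (isCompact_cube.measurableSet) fun s _ => ?_
  have e : latPt Φ m s = fun i =>
      ∑ j, (s j : ℂ) * ((m : ℂ) * Φ.emb i (RingOfIntegers.basis F j : 𝓞 F)) := by
    funext i
    simp only [latPt, embLin, LinearMap.coe_mk, AddHom.coe_mk, Finset.mul_sum, mul_left_comm]
  rw [coefInt, e]
  simp [chiInf]
  rfl

/-- A translation of the point multiplies a coefficient by a character. -/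
theorem coef_shiftVec (hA : IsAutomorphic Φ φ) (hn : n ≠ ⊥) (v : FinPt F n) (ξ : F) (c : ι → ℂ)
    (P : ι → H3) : coef Φ φ v ξ (shiftVec c P) = chiInf Φ ξ (-c) * coef Φ φ v ξ P := by
  obtain ⟨m, hm, hd⟩ := exists_valid hn v ξ
  rw [coef_eq hA hm hd, coef_eq hA hm hd]
  obtain ⟨s₀, hs₀⟩ := (embLin_bijective Φ).surjective fun i => c i / (m : ℂ)
  have hc : latPt Φ m s₀ = c := funext fun i => by
    rw [latPt, hs₀]
    exact mul_div_cancel₀ _ (Nat.cast_ne_zero.mpr hm.1)
  have e : coefInt Φ φ v ξ m (shiftVec c P)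
      = fun s => chiInf Φ ξ (-c) * coefInt Φ φ v ξ m P (s + s₀) := by
    funext s
    rw [coefInt, coefInt, latPt_add, hc, shiftVec_shiftVec, chiInf_add, mul_comm (chiInf Φ ξ (-c)),
      mul_assoc, mul_assoc, ← chiInf_add, add_neg_cancel, chiInf_zero, mul_one]
  rw [coefAt, e, cubeMean_const_mul,
    cubeMean_add_right (isPer_coefInt hA hm hd P) (continuous_coefInt hA v ξ m P)]
  rfl

theorem norm_coef_le (hA : IsAutomorphic Φ φ) (hn : n ≠ ⊥) {C : ℝ} (hC : ∀ x, ‖φ x‖ ≤ C)
    (v : FinPt F n) (ξ : F) (P : ι → H3) : ‖coef Φ φ v ξ P‖ ≤ C := by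
  obtain ⟨m, hm, hd⟩ := exists_valid hn v ξ
  rw [coef_eq hA hm hd]
  refine norm_cubeMean_le fun s => ?_
  rw [coefInt, norm_mul, norm_chiInf, mul_one]
  exact hC _

theorem continuous_coef_update (hA : IsAutomorphic Φ φ) (hn : n ≠ ⊥) (v : FinPt F n) (ξ : F)
    (P : ι → H3) (i : ι) : Continuous fun Q : H3 => coef Φ φ v ξ (Function.update P i Q) := by
  obtain ⟨m, hm, hd⟩ := exists_valid hn v ξ
  obtain ⟨C, hC⟩ := hA.bounded
  simp only [coef_eq hA hm hd, coefAt, cubeMean]
  refine continuous_of_dominated (bound := fun _ => C)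
    (fun Q => (continuous_coefInt hA v ξ m _).aestronglyMeasurable)
    (fun Q => Filter.Eventually.of_forall fun s => ?_)
    (integrableOn_const (hs := (isCompact_cube.measure_lt_top).ne))
    (Filter.Eventually.of_forall fun s => ?_)
  · rw [coefInt, norm_mul, norm_chiInf, mul_one]
    exact hC _
  · exact ((hA.continuous v).comp (continuous_shiftVec.comp (continuous_const.prodMk
      (continuous_const.update i continuous_id)))).mul continuous_const

theorem smul_shift_eq (x : ℂ) (P : H3) : upperUnip x • P = H3.shift x P := by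
  rw [← H3.moebius_eq_smul, moebius_upperUnip]

theorem spherical_coef_update (hA : IsAutomorphic Φ φ) (hS : SphericalZero φ) (hn : n ≠ ⊥)
    (v : FinPt F n) (ξ : F) (P₀ : ι → H3) (i : ι) {k : ℝ → ℝ} (hk : Continuous k)
    (hs : HasCompactSupport k) (Q₀ : H3) :
    ∫ Q, (k (H3.coshDist Q₀ Q) : ℂ) * coef Φ φ v ξ (Function.update P₀ i Q) ∂H3.volH3 =
      (sphValue k : ℂ) * coef Φ φ v ξ (Function.update P₀ i Q₀) := by
  obtain ⟨m, hm, hd⟩ := exists_valid hn v ξ
  obtain ⟨C, hC⟩ := hA.bounded
  have : SigmaFinite H3.volH3 := H3.sigmaFinite_volH3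
  simp only [coef_eq hA hm hd, coefAt, cubeMean, ← integral_const_mul]
  have hsh : ∀ (z : ι → ℂ) (Q : H3), shiftVec z (Function.update P₀ i Q)
      = Function.update (shiftVec z P₀) i (H3.shift (z i) Q) := by
    intro z Q
    funext l
    rcases eq_or_ne l i with rfl | hl
    · simp [shiftVec]
    · simp [shiftVec, hl]
  have hcube : (volume.restrict (cube : Set (BIdx F → ℝ))) Set.univ < ⊤ := by
    rw [Measure.restrict_apply_univ]; exact isCompact_cube.measure_lt_top
  have : IsFiniteMeasure (volume.restrict (cube : Set (BIdx F → ℝ))) := ⟨hcube⟩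
  have hswap : Integrable (Function.uncurry fun (Q : H3) (s : BIdx F → ℝ) =>
      (k (H3.coshDist Q₀ Q) : ℂ) * coefInt Φ φ v ξ m (Function.update P₀ i Q) s)
      (H3.volH3.prod (volume.restrict cube)) := by
    refine ((integrable_kernel_mul hk hs Q₀ (continuous_const (y := (1 : ℂ)))).norm.mul_prod
      (integrable_const C)).mono' ?_ (Filter.Eventually.of_forall fun p => ?_)
    · refine Continuous.aestronglyMeasurable ?_
      refine (Complex.continuous_ofReal.comp (hk.comp ((continuous_coshDist_right Q₀).comp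
        continuous_fst))).mul (((hA.continuous v).comp (continuous_shiftVec.comp
          (((continuous_latPt Φ m).comp continuous_snd).prodMk
            (continuous_const.update i continuous_fst)))).mul
          ((continuous_chiInf Φ ξ).comp ((continuous_latPt Φ m).comp continuous_snd)))
    · simp only [Function.uncurry, coefInt, norm_mul, norm_chiInf, mul_one]
      exact mul_le_mul_of_nonneg_left (hC _) (norm_nonneg _)
  rw [integral_integral_swap hswap]
  refine integral_congr_ae (Filter.Eventually.of_forall fun s => ?_)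
  set z := latPt Φ m s
  set P' := Function.update (shiftVec z P₀) i (H3.shift (z i) Q₀)
  have h1 := hS i k hk hs v P'
  simp only [P', Function.update_self, Function.update_idem] at h1
  have h2 := (H3.measurePreserving_smul (upperUnip (z i))).integral_comp
    (Homeomorph.smul (upperUnip (z i) : GL (Fin 2) ℂ)).measurableEmbedding
    fun Q => (k (H3.coshDist (H3.shift (z i) Q₀) Q) : ℂ) *
      φ (v, Function.update (shiftVec z P₀) i Q)
  simp only [smul_shift_eq] at h2
  have h3 : ∀ Q, H3.coshDist (H3.shift (z i) Q₀) (H3.shift (z i) Q) = H3.coshDist Q₀ Q :=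
    fun Q => by rw [← smul_shift_eq, ← smul_shift_eq, H3.coshDist_smul]
  simp only [h3, ← hsh] at h2
  show ∫ Q, (k (H3.coshDist Q₀ Q) : ℂ) *
      (φ (v, shiftVec z (Function.update P₀ i Q)) * chiInf Φ ξ z) ∂H3.volH3 =
    (sphValue k : ℂ) * (φ (v, shiftVec z (Function.update P₀ i Q₀)) * chiInf Φ ξ z)
  simp only [← mul_assoc]
  rw [integral_mul_const, h2, h1, hsh]

/-! ### The Whittaker coefficient -/

variable (Φ φ) in
/-- The first coefficient divided by the Whittaker function. -/
def whit (v : FinPt F n) : ℂ :=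
  coef Φ φ v 1 (fun _ => H3.base) / ∏ _i : ι, wfun 1 H3.base

theorem wfun_base_ne_zero : wfun 1 H3.base ≠ 0 := wfun_ne_zero one_ne_zero rfl

theorem prod_wfun_base_ne_zero : (∏ _i : ι, wfun 1 H3.base) ≠ 0 :=
  Finset.prod_ne_zero_iff.mpr fun _ _ => wfun_base_ne_zero

theorem coef_one_eq (hA : IsAutomorphic Φ φ) (hS : SphericalZero φ) (hn : n ≠ ⊥) (v : FinPt F n)
    (P : ι → H3) : coef Φ φ v 1 P = whit Φ φ v * ∏ i, wfun 1 (P i) := by
  classical
  obtain ⟨C, hC⟩ := hA.bounded
  have step : ∀ (i : ι) (P : ι → H3), coef Φ φ v 1 P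
      = coef Φ φ v 1 (Function.update P i H3.base) / wfun 1 H3.base * wfun 1 (P i) := by
    intro i P
    have h := eq_mul_wfun (b := 1) one_ne_zero (continuous_coef_update hA hn v 1 P i)
      (M := C) (fun Q => norm_coef_le hA hn hC v 1 _) ?_
      (fun k hk hs Q => spherical_coef_update hA hS hn v 1 P i hk hs Q) (P i)
    · rwa [Function.update_eq_self] at h
    intro κ Q
    have e : Function.update P i (H3.shift κ Q)
        = shiftVec (Pi.single i κ) (Function.update P i Q) := by
      funext l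
      rcases eq_or_ne l i with rfl | hl
      · simp [shiftVec]
      · simp only [shiftVec, Function.update_of_ne hl, Pi.single_eq_of_ne hl]
        exact H3.ext (by simp [H3.shift]) rfl
    simp only [e, coef_shiftVec hA hn]
    congr 1
    rw [chiInf]
    congr 1
    rw [Finset.sum_eq_single i (fun l _ hl => by simp [Pi.single_eq_of_ne hl]) (by simp)]
    simp
  have main : ∀ S : Finset ι, coef Φ φ v 1 P
      = coef Φ φ v 1 (fun l => if l ∈ S then H3.base else P l)
        * ∏ l ∈ S, (wfun 1 (P l) / wfun 1 H3.base) := by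
    intro S
    induction S using Finset.induction_on with
    | empty => simp
    | insert a S ha ih =>
      rw [ih, step a, Finset.prod_insert ha, if_neg ha]
      have e : Function.update (fun l => if l ∈ S then H3.base else P l) a H3.base
          = fun l => if l ∈ insert a S then H3.base else P l := by
        funext l
        rcases eq_or_ne l a with rfl | hl
        · simp
        · simp [hl]
      rw [e]
      ring
  have h := main Finset.univ
  simp only [Finset.mem_univ, if_true] at h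
  rw [h, whit, Finset.prod_div_distrib, mul_div_assoc']
  ring

theorem whit_congr_val {v : FinPt F n} {c : ℂ} (P : ι → H3) (hA : IsAutomorphic Φ φ)
    (hS : SphericalZero φ) (hn : n ≠ ⊥) (hP : ∀ i, wfun 1 (P i) ≠ 0)
    (h : coef Φ φ v 1 P = c * ∏ i, wfun 1 (P i)) : whit Φ φ v = c := by
  rw [coef_one_eq hA hS hn] at h
  exact mul_right_cancel₀ (Finset.prod_ne_zero_iff.mpr fun i _ => hP i) h

/-- Equivariance under the unipotent group of the finite adeles. -/
theorem whit_upperUnip (hA : IsAutomorphic Φ φ) (hS : SphericalZero φ) (hn : n ≠ ⊥)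
    (x : AF F) (v : FinPt F n) : whit Φ φ (upperUnip x • v) = psi x * whit Φ φ v := by
  obtain ⟨m, hm⟩ := exists_admissible hn v
  obtain ⟨f, hf⟩ := exists_sub_mem_idealAF (n := Ideal.span {(m : 𝓞 F)}) (by simpa using hm.1) x
  obtain ⟨y, hy, hyx⟩ := idealAF_span_natCast_mul (n := (⊤ : Ideal (𝓞 F))) (N := m)
    (x := x - toAF F f) (by rwa [Ideal.mul_top])
  have hyint : y ∈ intAF F := by rwa [idealAF_top] at hy
  have hv : upperUnip x • v = upperUnip (toAF F f) • v := by
    rw [show x = toAF F f + (m : AF F) * y by rw [← hyx]; ring, upperUnip_add, mul_smul,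
      hm.2 y hyint]
  rw [hv, psi_eq (f := f) (by rw [hyx]; exact mul_mem (natCast_mem _ m) hyint)]
  have hm' : Admissible m (upperUnip (toAF F f) • v) := ⟨hm.1, fun z hz => by
    rw [← mul_smul, ← upperUnip_add, add_comm, upperUnip_add, mul_smul, hm.2 z hz]⟩
  have hd : DualOK m (1 : F) := fun a => by
    rw [one_mul, ← map_natCast (algebraMap (𝓞 F) F), ← map_mul]
    exact trExp_coe _
  refine whit_congr_val (fun _ => H3.base) hA hS hn (fun _ => wfun_base_ne_zero) ?_
  rw [mul_assoc, ← coef_one_eq hA hS hn v]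
  have h1 : coef Φ φ (upperUnip (toAF F f) • v) 1 (fun _ => H3.base)
      = coef Φ φ v 1 (shiftVec (fun i => Φ.emb i (-f)) fun _ => H3.base) := by
    rw [coef_eq hA hm' hd, coef_eq hA hm hd]
    refine congrArg cubeMean (funext fun s => ?_)
    rw [coefInt, coefInt]
    congr 1
    have h := hA.invariant (upperUnip (-f)) (upperUnip (toAF F f) • v,
      shiftVec (latPt Φ m s) fun _ => H3.base)
    rw [act_upperUnip, ← mul_smul, ← upperUnip_add, map_neg, neg_add_cancel, upperUnip_zero,
      one_smul, shiftVec_shiftVec] at h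
    rw [← h, shiftVec_shiftVec, add_comm]
  rw [h1, coef_shiftVec hA hn]
  congr 1
  have e : (-(fun i => Φ.emb i (-f)) : ι → ℂ) = fun i => Φ.emb i f := funext fun i => by simp
  rw [e, chiInf_emb, one_mul]

/-- The coefficient at `ξ` is the first coefficient of the translate by `diag (ξ, 1)`. -/
theorem coef_eq_whit (hA : IsAutomorphic Φ φ) (hS : SphericalZero φ) (hn : n ≠ ⊥)
    (v : FinPt F n) (ξ : Fˣ) (P : ι → H3) :
    coef Φ φ v (ξ : F) P = whit Φ φ (GeneralLinearGroup.map (toAF F) (diagUnit ξ) • v) *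
      ∏ i, wfun 1 (H3.moebius (GeneralLinearGroup.map (Φ.emb i) (diagUnit ξ)) (P i)) := by
  set v' := GeneralLinearGroup.map (toAF F) (diagUnit ξ) • v with hv'
  set P' : ι → H3 :=
    fun i => H3.moebius (GeneralLinearGroup.map (Φ.emb i) (diagUnit ξ)) (P i) with hP'
  rw [← coef_one_eq hA hS hn]
  obtain ⟨m₀, hm₀, hd₀⟩ := exists_valid hn v (ξ : F)
  obtain ⟨m', hm', hd'⟩ := exists_valid hn v' (1 : F)
  obtain ⟨k, hk, b, hb⟩ := exists_natCast_mul_eq_coe (ξ : F)
  rw [coef_eq hA (hm₀.mul_left (mul_ne_zero hk hm'.1)) (hd₀.mul_left (k * m')),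
    coef_eq hA hm' hd']
  have key : ∀ z : ι → ℂ, φ (v, shiftVec z P) * chiInf Φ (ξ : F) z
      = φ (v', shiftVec (fun i => Φ.emb i (ξ : F) * z i) P')
        * chiInf Φ 1 (fun i => Φ.emb i (ξ : F) * z i) := by
    intro z
    rw [← hA.invariant (diagUnit ξ) (v, shiftVec z P)]
    congr 1
    · refine congrArg φ (Prod.ext rfl (funext fun i => ?_))
      simp only [act, shiftVec, hP', map_diagUnit]
      obtain ⟨a1, a2⟩ := moebius_diagUnit
        (Units.map (Φ.emb i : F →* ℂ) ξ) (H3.shift (z i) (P i))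
      obtain ⟨b1, b2⟩ := moebius_diagUnit (Units.map (Φ.emb i : F →* ℂ) ξ) (P i)
      refine H3.ext (a1.trans ?_) (a2.trans ?_)
      · simp [H3.shift, b1, mul_add]
      · simp [H3.shift, b2]
    · rw [chiInf, chiInf]
      simp
  have h := cubeMean_transport (Φ := Φ) (m := k * m' * m₀) (m' := m') (x := (ξ : F))
    (G := fun z => φ (v', shiftVec z P') * chiInf Φ 1 z)
    ((continuous_apply_shift hA v' P').mul (continuous_chiInf Φ 1))
    (mul_ne_zero (mul_ne_zero hk hm'.1) hm₀.1) ξ.ne_zero (isPer_coefInt hA hm' hd' P')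
    fun a => ⟨(m₀ : 𝓞 F) * b * a, by
      push_cast; linear_combination ((m' : F) * (m₀ : F) * (a : F)) * hb⟩
  refine Eq.trans (congrArg cubeMean (funext fun s => ?_)) h
  exact key _

/-- The traces of `ξ` against the scaled integral basis. -/
def traceMap (M : ℕ) : F →ₗ[ℚ] BIdx F → ℚ :=
  LinearMap.pi fun k => (Algebra.trace ℚ F).comp
    (LinearMap.mulRight ℚ ((M : F) * (RingOfIntegers.basis F k : F)))

theorem traceMap_apply (M : ℕ) (ξ : F) (k : BIdx F) :
    traceMap M ξ k = Algebra.trace ℚ F (ξ * ((M : F) * (RingOfIntegers.basis F k : F))) := rfl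

theorem traceMap_injective {M : ℕ} (hM0 : M ≠ 0) : Function.Injective (traceMap (F := F) M) := by
  rw [← LinearMap.ker_eq_bot, LinearMap.ker_eq_bot']
  intro x hx
  refine (traceForm_nondegenerate ℚ F).1 x fun y => ?_
  have h2 : (Algebra.traceForm ℚ F x).comp LinearMap.id = 0 := by
    refine (integralBasis F).ext fun k => ?_
    have h3 : Algebra.trace ℚ F (x * ((M : F) * (RingOfIntegers.basis F k : F))) = 0 :=
      congrFun hx k
    rw [mul_left_comm, ← nsmul_eq_mul, map_nsmul, smul_eq_zero] at h3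
    simpa [integralBasis_apply] using h3.resolve_left hM0
  exact LinearMap.congr_fun h2 y

theorem exists_traceMap_eq {M : ℕ} (hM0 : M ≠ 0) (q : BIdx F → ℤ) :
    ∃ ξ : F, ∀ k, traceMap M ξ k = (q k : ℚ) := by
  have hdim : Module.finrank ℚ F = Module.finrank ℚ (BIdx F → ℚ) := by
    rw [Module.finrank_pi, ← Module.finrank_eq_card_chooseBasisIndex, RingOfIntegers.rank]
  obtain ⟨ξ, hξ⟩ := (LinearMap.injective_iff_surjective_of_finrank_eq_finrank hdim).mp
    (traceMap_injective hM0) fun k => (q k : ℚ)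
  exact ⟨ξ, fun k => congrFun hξ k⟩

theorem dualOK_of_traceMap {M : ℕ} {ξ : F} {q : BIdx F → ℤ}
    (hξ : ∀ k, traceMap M ξ k = (q k : ℚ)) : DualOK M ξ := fun a => by
  refine (trExp_eq_one_iff _).mpr ⟨∑ k, (RingOfIntegers.basis F).repr a k * q k, ?_⟩
  conv_lhs => rw [← (RingOfIntegers.basis F).sum_repr a]
  simp only [map_sum, Finset.mul_sum, Int.cast_sum, Int.cast_mul, ← hξ, traceMap_apply]
  refine Finset.sum_congr rfl fun k _ => ?_
  rw [map_zsmul, zsmul_eq_mul, show ξ * ((M : F) * (((RingOfIntegers.basis F).repr a k : F) *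
    (RingOfIntegers.basis F k : F))) = ((RingOfIntegers.basis F).repr a k) •
      (ξ * ((M : F) * (RingOfIntegers.basis F k : F))) by rw [zsmul_eq_mul]; ring, map_zsmul,
    zsmul_eq_mul]

theorem charVec_eq_chiInf {M : ℕ} {ξ : F} {q : BIdx F → ℤ}
    (hξ : ∀ k, traceMap M ξ k = (q k : ℚ)) (s : BIdx F → ℝ) :
    charVec (-q) s = chiInf Φ ξ (latPt Φ M s) := by
  have e2 : ∀ k, ((q k : ℤ) : ℂ)
      = ∑ i, ((2 * (Φ.emb i ξ * ((M : ℂ) * Φ.emb i (RingOfIntegers.basis F k : F))).re : ℝ) :
        ℂ) := by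
    intro k
    have := trace_eq_sum_re Φ (ξ * ((M : F) * (RingOfIntegers.basis F k : F)))
    rw [← traceMap_apply, hξ k] at this
    simpa [map_mul, map_natCast] using this
  rw [charVec, chiInf]
  congr 1
  simp only [Pi.neg_apply, Int.cast_neg, neg_mul, Finset.sum_neg_distrib, Complex.ofReal_neg,
    mul_neg, Complex.ofReal_sum, Complex.ofReal_mul, Complex.ofReal_intCast]
  simp only [e2, latPt, embLin, LinearMap.coe_mk, AddHom.coe_mk, Finset.mul_sum, Finset.sum_mul,
    Complex.re_sum, Complex.ofReal_sum]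
  rw [Finset.sum_comm]
  refine congrArg _ (Finset.sum_congr rfl fun i _ => Finset.sum_congr rfl fun k _ => ?_)
  rw [show Φ.emb i ξ * ((M : ℂ) * ((s k : ℂ) * Φ.emb i (RingOfIntegers.basis F k : F)))
    = (s k : ℂ) * (Φ.emb i ξ * ((M : ℂ) * Φ.emb i (RingOfIntegers.basis F k : F))) by ring,
    Complex.re_ofReal_mul]
  push_cast
  ring

/-- The coefficients determine the form. -/
theorem sum_apply_eq_zero (hn : n ≠ ⊥) {κ : Type} (t : Finset κ) (c : κ → ℂ)
    (ψ : κ → Pt F ι n → ℂ) (hA : ∀ j ∈ t, IsAutomorphic Φ (ψ j)) (v : κ → FinPt F n) (P : ι → H3)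
    (h : ∀ ξ : F, ∑ j ∈ t, c j * coef Φ (ψ j) (v j) ξ P = 0) :
    ∑ j ∈ t, c j * ψ j (v j, P) = 0 := by
  classical
  choose m hm using fun j => exists_admissible hn (v j)
  set M : ℕ := ∏ j ∈ t, m j with hM
  have hM0 : M ≠ 0 := Finset.prod_ne_zero_iff.mpr fun j _ => (hm j).1
  have hMv : ∀ j ∈ t, Admissible M (v j) := fun j hj => by
    rw [hM, ← Finset.prod_erase_mul t m hj]
    exact (hm j).mul_left (Finset.prod_ne_zero_iff.mpr fun l _ => (hm l).1)
  set G : (BIdx F → ℝ) → ℂ := fun s =>
    ∑ j ∈ t, c j * ψ j (v j, shiftVec (latPt Φ M s) P) with hG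
  have hGp : IsPer G := fun s r => Finset.sum_congr rfl fun j hj => by
    rw [latPt_add, add_comm, ← shiftVec_shiftVec,
      show latPt Φ M (intVec r) = _ from funext (latPt_intVec Φ M r),
      apply_shift_of_admissible (hA j hj) (hMv j hj)]
  have hGc : Continuous G := continuous_finsetSum _ fun j hj =>
    continuous_const.mul ((continuous_apply_shift (hA j hj) (v j) P).comp (continuous_latPt Φ M))
  suffices h0 : G 0 = 0 by
    have e : latPt Φ M (0 : BIdx F → ℝ) = 0 := funext fun i => by simp [latPt]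
    simpa [hG, e, shiftVec_zero] using h0
  refine eq_zero_of_fourier hGp hGc (fun q => ?_) 0
  obtain ⟨ξ, hξ⟩ := exists_traceMap_eq hM0 q
  have hd : DualOK M ξ := dualOK_of_traceMap hξ
  have echar := charVec_eq_chiInf (Φ := Φ) hξ
  have e : (fun s => charVec (-q) s * G s)
      = fun s => ∑ j ∈ t, c j * coefInt Φ (ψ j) (v j) ξ M P s := by
    funext s
    rw [echar, hG, Finset.mul_sum]
    refine Finset.sum_congr rfl fun j _ => ?_
    rw [coefInt]
    ring
  rw [e, cubeMean_sum t (fun j s => c j * coefInt Φ (ψ j) (v j) ξ M P s) fun j hj =>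
    continuous_const.mul (continuous_coefInt (hA j hj) (v j) ξ M P), ← h ξ]
  refine Finset.sum_congr rfl fun j hj => ?_
  rw [cubeMean_const_mul, coef_eq (hA j hj) (hMv j hj) hd]
  rfl

/-- The Hecke relation on coefficients. -/
theorem finsum_whit (hA : IsAutomorphic Φ φ) (hn : n ≠ ⊥) {w : Ideal (𝓞 F)} (hw : w ≠ ⊥)
    {a : ℂ} (hH : HeckeEigen φ w a) (v : FinPt F n) :
    ∑ᶠ u ∈ nbrs n w v, whit Φ φ u =
      (Real.sqrt (Ideal.absNorm w) : ℂ) * a * whit Φ φ v := by
  classical
  set S := (finite_nbrs hn hw v).toFinset with hS'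
  have hfin : ∀ g : FinPt F n → ℂ, ∑ᶠ u ∈ nbrs n w v, g u = ∑ u ∈ S, g u := fun g =>
    finsum_mem_eq_finite_toFinset_sum g (finite_nbrs hn hw v)
  choose m hm using fun u : FinPt F n => exists_admissible hn u
  set M := m v * ∏ u ∈ S, m u with hM
  have hMv : Admissible M v := by
    rw [hM, mul_comm]
    exact (hm v).mul_left (Finset.prod_ne_zero_iff.mpr fun l _ => (hm l).1)
  have hMu : ∀ u ∈ S, Admissible M u := fun u hu => by
    rw [hM, ← Finset.prod_erase_mul S m hu, ← mul_assoc]
    exact (hm u).mul_left (mul_ne_zero (hm v).1 (Finset.prod_ne_zero_iff.mpr fun l _ => (hm l).1))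
  have hd : DualOK M (1 : F) := fun b => by
    rw [one_mul, ← map_natCast (algebraMap (𝓞 F) F), ← map_mul]
    exact trExp_coe _
  set P₀ : ι → H3 := fun _ => H3.base
  have key : ∑ u ∈ S, coef Φ φ u 1 P₀ =
      (Real.sqrt (Ideal.absNorm w) : ℂ) * a * coef Φ φ v 1 P₀ := by
    rw [coef_eq hA hMv hd, coefAt, ← cubeMean_const_mul, Finset.sum_congr rfl fun u hu =>
      coef_eq hA (hMu u hu) hd P₀]
    simp only [coefAt]
    rw [← cubeMean_sum S _ fun u _ => continuous_coefInt hA u 1 M P₀]
    refine congrArg cubeMean (funext fun s => ?_)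
    simp only [coefInt]
    rw [← Finset.sum_mul, ← hfin fun u => φ (u, shiftVec (latPt Φ M s) P₀), hH v, mul_assoc]
  rw [hfin]
  simp only [whit, ← Finset.sum_div]
  rw [key, mul_div_assoc]

end FLTAgent.LanglandsTunnell.Expansion

end
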