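import Fermat.Agent.LanglandsTunnell.Expansion.Character
import Fermat.Agent.LanglandsTunnell.Killing.Hecke
import Fermat.Agent.LanglandsTunnell.AdelicGroup

/-!
# The Hecke recursion for Whittaker coefficients

For `IsWhitFn` (Whittaker equivariant eigenfunctions away from `N`) the recursion
`IsWhitFn.recursion` holds, so a linear relation at one point propagates to all ideles which are
`1` at the primes dividing `N` (`sum_whit_eq_zero`).
-/

set_option autoImplicit false

open NumberField Matrix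

noncomputable section

namespace FLTAgent.LanglandsTunnell.Expansion

open FLTAgent.LanglandsTunnell FLTAgent.LanglandsTunnell.Killing

variable {F : Type} [Field F] [NumberField F] {N : ℕ}

/-- A function on cosets with the character of the unipotent group and Hecke eigenvalues `a`. -/
structure IsWhitFn (c : FinPt F (Ideal.span {(N : 𝓞 F)}) → ℂ) (a : Ideal (𝓞 F) → ℂ) : Prop where
  unip : ∀ (x : AF F) (v : FinPt F (Ideal.span {(N : 𝓞 F)})), c (upperUnip x • v) = psi x * c v
  hecke : ∀ w : Ideal (𝓞 F), w.IsPrime → w ≠ ⊥ → ¬ w ∣ (Ideal.span {(N : 𝓞 F)}) → ∀ v,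
    ∑ᶠ u ∈ nbrs (Ideal.span {(N : 𝓞 F)}) w v, c u = (Real.sqrt (Ideal.absNorm w) : ℂ) * a w * c v

/-- The generator of the different away from `N`. -/
def diffOut (F : Type) [Field F] [NumberField F] (N : ℕ) : (AF F)ˣ := outPart N (diffUnit F)

omit [NumberField F] in
theorem OutsideN.eN_mul {y : (AF F)ˣ} (hy : OutsideN N y) : eN F N * (y : AF F) = eN F N := by
  unfold OutsideN at hy
  linear_combination hy

omit [NumberField F] in
theorem insideN_eN_unip (x : AF F) : InsideN (F := F) N (upperUnip (eN F N * x)) :=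
  insideN_upperUnip (by rw [← mul_assoc, mul_comm (1 - eN F N), eN_mul_one_sub, zero_mul])

omit [NumberField F] in
theorem diagUnit_mul_upperUnip_comm (u : (AF F)ˣ) (x : AF F) :
    diagUnit u * upperUnip x = upperUnip ((u : AF F) * x) * diagUnit u := by
  refine Units.ext ?_
  show !![(u : AF F), 0; 0, 1] * !![1, x; 0, 1]
    = !![1, (u : AF F) * x; 0, 1] * !![(u : AF F), 0; 0, 1]
  rw [Matrix.mul_fin_two, Matrix.mul_fin_two]
  refine finTwo_congr ?_ ?_ ?_ ?_ <;>
    simp only [mul_one, one_mul, mul_zero, zero_mul, add_zero, zero_add]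

omit [NumberField F] in
/-- The unipotent matrices outside `N` commute with the matrices inside `N`. -/
theorem InsideN.commute_unip {g : GL (Fin 2) (AF F)} (hg : InsideN N g) (x : AF F) :
    g * upperUnip ((1 - eN F N) * x) = upperUnip ((1 - eN F N) * x) * g := by
  have h : ∀ i j, ((1 - eN F N) * x) * g.val i j =
      ((1 - eN F N) * x) * (1 : Matrix (Fin 2) (Fin 2) (AF F)) i j := fun i j => by
    have := hg i j
    rw [Matrix.sub_apply] at this
    linear_combination x * this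
  have h00 := h 0 0
  have h10 := h 1 0
  have h11 := h 1 1
  simp only [Matrix.one_apply_eq, mul_one] at h00 h11
  simp only [Matrix.one_apply_ne (show (1 : Fin 2) ≠ 0 by decide), mul_zero] at h10
  apply Units.ext
  rw [Units.val_mul, Units.val_mul, Matrix.eta_fin_two g.val]
  show _ * !![1, (1 - eN F N) * x; 0, 1] = !![1, (1 - eN F N) * x; 0, 1] * _
  rw [Matrix.mul_fin_two, Matrix.mul_fin_two]
  refine finTwo_congr ?_ ?_ ?_ ?_
  · linear_combination -h10
  · linear_combination h00 - h11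
  · ring
  · linear_combination h10

theorem mk_mul_unip_outside (hN : N ≠ 0) (g : GL (Fin 2) (AF F)) {z : AF F} (hz : z ∈ intAF F) :
    ((g * upperUnip ((1 - eN F N) * z) : GL (Fin 2) (AF F)) :
      FinPt F (Ideal.span {(N : 𝓞 F)})) = g :=
  mk_mul_congr (by
    have h : (1 - eN F N) * z ∈ idealAF F (Ideal.span {(N : 𝓞 F)}) := by
      rw [mul_comm]; exact mul_one_sub_eN_mem hN hz
    exact upperUnip_mem_principal h) g

theorem mk_diag_unit (hN : N ≠ 0) {h : GL (Fin 2) (AF F)} (hh : InsideN N h) (y : (AF F)ˣ)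
    {u : (AF F)ˣ} (hu : OutsideN N u) (hui : (u : AF F) ∈ intAF F)
    (hui' : ((u⁻¹ : (AF F)ˣ) : AF F) ∈ intAF F) :
    ((diagUnit (y * u) * h : GL (Fin 2) (AF F)) : FinPt F (Ideal.span {(N : 𝓞 F)}))
      = ((diagUnit y * h : GL (Fin 2) (AF F)) : FinPt F (Ideal.span {(N : 𝓞 F)})) := by
  have e : ∀ {v : (AF F)ˣ}, OutsideN N v → (v : AF F) - 1 = ((v : AF F) - 1) * (1 - eN F N) := by
    intro v hv
    unfold OutsideN at hv
    linear_combination hv
  rw [diagUnit_mul, mul_assoc, hh.commute hu, ← mul_assoc]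
  refine mk_mul_congr (diagUnit_mem_principalSubgroup ?_ ?_) _
  · rw [e hu]; exact mul_one_sub_eN_mem hN (sub_mem hui (one_mem _))
  · rw [e hu.inv]; exact mul_one_sub_eN_mem hN (sub_mem hui' (one_mem _))

variable {c : FinPt F (Ideal.span {(N : 𝓞 F)}) → ℂ} {a : Ideal (𝓞 F) → ℂ}

/-- The support condition at the primes not dividing `N`. -/
theorem IsWhitFn.integral_of_ne_zero (hc : IsWhitFn c a) (hN : N ≠ 0) {h : GL (Fin 2) (AF F)}
    (hh : InsideN N h) {y : (AF F)ˣ}
    (hne : c ((diagUnit y * h : GL (Fin 2) (AF F)) : FinPt F (Ideal.span {(N : 𝓞 F)})) ≠ 0) :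
    (diffUnit F : AF F) * ((1 - eN F N) * y) ∈ intAF F := by
  refine psi_mul_int_iff.mp fun z hz => ?_
  have e := mk_mul_unip_outside hN (diagUnit y * h) hz
  rw [mul_assoc, hh.commute_unip, ← mul_assoc] at e
  have e2 : diagUnit y * upperUnip ((1 - eN F N) * z) * h
      = upperUnip ((y : AF F) * ((1 - eN F N) * z)) * (diagUnit y * h) := by
    rw [← mul_assoc, diagUnit_mul_upperUnip_comm]
  rw [e2] at e
  have h1 : c ((diagUnit y * h : GL (Fin 2) (AF F)) : FinPt F (Ideal.span {(N : 𝓞 F)}))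
      = psi ((y : AF F) * ((1 - eN F N) * z)) *
        c ((diagUnit y * h : GL (Fin 2) (AF F)) : FinPt F (Ideal.span {(N : 𝓞 F)})) := by
    rw [← hc.unip]
    exact congrArg c e.symm
  rw [show (1 - eN F N) * (y : AF F) * z = (y : AF F) * ((1 - eN F N) * z) by ring]
  exact mul_right_cancel₀ hne (h1.symm.trans (one_mul _).symm)

/-- The recursion at a prime not dividing `N`. -/
theorem IsWhitFn.recursion (hc : IsWhitFn c a) {h : GL (Fin 2) (AF F)} (hh : InsideN N h)
    {y : (AF F)ˣ} (hy : (diffUnit F : AF F) * ((1 - eN F N) * y) ∈ intAF F)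
    {w : Ideal (𝓞 F)} (hw : w.IsPrime) (hw0 : w ≠ ⊥) (hwn : ¬ w ∣ (Ideal.span {(N : 𝓞 F)}))
    {π : (AF F)ˣ}
    (hπ : IsUniformizerAt (Ideal.span {(N : 𝓞 F)}) w π) (hπo : OutsideN N π) :
    (Ideal.absNorm w : ℂ) * c ((diagUnit (y * π) * h : GL (Fin 2) (AF F)) :
      FinPt F (Ideal.span {(N : 𝓞 F)})) +
        c ((diagUnit (y * π⁻¹) * h : GL (Fin 2) (AF F)) : FinPt F (Ideal.span {(N : 𝓞 F)})) =
      (Real.sqrt (Ideal.absNorm w) : ℂ) * a w *
        c ((diagUnit y * h : GL (Fin 2) (AF F)) : FinPt F (Ideal.span {(N : 𝓞 F)})) := by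
  classical
  have : Finite (𝓞 F ⧸ w) := Ideal.finiteQuotientOfFreeOfNeBot w hw0
  have : Fintype (𝓞 F ⧸ w) := Fintype.ofFinite _
  rw [← hc.hecke w hw hw0 hwn, nbrs_mk hw hw0 hwn hπ,
    finsum_mem_range (heckeRep_injective hw hw0 hwn hπ _), finsum_eq_sum_of_fintype,
    Fintype.sum_option, add_comm]
  have hlow : c ((diagUnit y * h * heckeRep (Ideal.span {(N : 𝓞 F)}) π (none : Option (𝓞 F ⧸ w)) :
      GL (Fin 2) (AF F)) : FinPt F (Ideal.span {(N : 𝓞 F)}))
      = c ((diagUnit (y * π⁻¹) * h : GL (Fin 2) (AF F)) : FinPt F (Ideal.span {(N : 𝓞 F)})) := by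
    show c ((diagUnit y * h * lowUnit π : GL (Fin 2) (AF F)) : FinPt F (Ideal.span {(N : 𝓞 F)})) = _
    rw [lowUnit_eq, ← mul_assoc, mk_mul_scalar, mul_assoc, ← hh.commute hπo.inv, ← mul_assoc,
      ← diagUnit_mul]
  have hup : ∀ r : 𝓞 F ⧸ w, c ((diagUnit y * h * heckeRep (Ideal.span {(N : 𝓞 F)}) π (some r) :
      GL (Fin 2) (AF F)) : FinPt F (Ideal.span {(N : 𝓞 F)}))
      = c ((diagUnit (y * π) * h : GL (Fin 2) (AF F)) : FinPt F (Ideal.span {(N : 𝓞 F)})) := by
    intro r
    set r' : AF F := toAF F (resRep (Ideal.span {(N : 𝓞 F)}) w r : F) with hr'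
    have hrn : r' ∈ idealAF F (Ideal.span {(N : 𝓞 F)}) := toAF_mem_idealAF (resRep_mem hw hw0 hwn r)
    have hin : upperUnip (eN F N * r') ∈ principalSubgroup (Ideal.span {(N : 𝓞 F)}) := by
      have h1 : eN F N * r' ∈ idealAF F (Ideal.span {(N : 𝓞 F)}) := mul_mem_idealAF_left eN_mem hrn
      exact upperUnip_mem_principal h1
    have hsplit : upperUnip r' = upperUnip ((1 - eN F N) * r') * upperUnip (eN F N * r') := by
      refine Units.ext ?_
      show !![1, r'; 0, 1] = !![1, (1 - eN F N) * r'; 0, 1] * !![1, eN F N * r'; 0, 1]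
      rw [Matrix.mul_fin_two]
      refine finTwo_congr ?_ ?_ ?_ ?_ <;> ring
    have e : diagUnit y * h * heckeRep (Ideal.span {(N : 𝓞 F)}) π (some r)
        = upperUnip ((y : AF F) * ((1 - eN F N) * r')) * (diagUnit (y * π) * h) *
          upperUnip (eN F N * r') := by
      show diagUnit y * h * (upperUnip r' * diagUnit π) = _
      rw [hsplit, mul_assoc (upperUnip ((1 - eN F N) * r')),
        ← (insideN_eN_unip r').commute hπo]
      calc diagUnit y * h * (upperUnip ((1 - eN F N) * r') *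
            (diagUnit π * upperUnip (eN F N * r')))
          = diagUnit y * (h * upperUnip ((1 - eN F N) * r')) * diagUnit π *
            upperUnip (eN F N * r') := by simp only [mul_assoc]
        _ = _ := by
          rw [hh.commute_unip]
          have e2 : diagUnit y * upperUnip ((1 - eN F N) * r')
              = upperUnip ((y : AF F) * ((1 - eN F N) * r')) * diagUnit y :=
            diagUnit_mul_upperUnip_comm _ _
          rw [← mul_assoc (diagUnit y), e2, mul_assoc _ h (diagUnit π), ← hh.commute hπo,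
            diagUnit_mul]
          simp only [mul_assoc]
    rw [e, mk_mul_congr hin]
    have hpsi : psi ((y : AF F) * ((1 - eN F N) * r')) = 1 := by
      have := psi_mul_int_iff.mpr hy r' (toAF_mem_intAF _)
      rwa [show (1 - eN F N) * (y : AF F) * r' = (y : AF F) * ((1 - eN F N) * r') by ring] at this
    have h2 := hc.unip ((y : AF F) * ((1 - eN F N) * r'))
      ((diagUnit (y * π) * h : GL (Fin 2) (AF F)) : FinPt F (Ideal.span {(N : 𝓞 F)}))
    rw [hpsi, one_mul] at h2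
    exact h2
  rw [hlow, Finset.sum_congr rfl fun r _ => hup r, Finset.sum_const, nsmul_eq_mul,
    Finset.card_univ, ← Nat.card_eq_fintype_card,
    show Nat.card (𝓞 F ⧸ w) = Ideal.absNorm w from rfl]

/-- A uniformizer which is `1` at the primes dividing `N`. -/
theorem exists_outside_uniformizer (hN : N ≠ 0) {w : Ideal (𝓞 F)} (hw : w.IsPrime) (hw0 : w ≠ ⊥)
    (hwn : ¬ w ∣ (Ideal.span {(N : 𝓞 F)})) :
    ∃ π : (AF F)ˣ, IsUniformizerAt (Ideal.span {(N : 𝓞 F)}) w π ∧ OutsideN N π := by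
  obtain ⟨π, hπ⟩ := exists_isUniformizerAt_prime hw hw0 hwn
  obtain ⟨π₀, hπ₀, hπ1, hspan⟩ := isUniformizerAt_iff.mp hπ
  set q := Ideal.absNorm w with hq
  have hqN : Nat.Coprime q N := by
    rw [Nat.coprime_comm, Nat.coprime_iff_gcd_eq_one]
    by_contra hne
    obtain ⟨p, hp, hpd⟩ := Nat.exists_prime_and_dvd hne
    obtain ⟨p₀, hp₀⟩ := exists_prime_natCast_mem hw hw0
    have hpN : p ∣ N := hpd.trans (Nat.gcd_dvd_left _ _)
    have hpq : p ∣ q := hpd.trans (Nat.gcd_dvd_right _ _)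
    have hmem : ((p : ℕ) : 𝓞 F) ∈ w := by
      have hdvd : q ∣ (p₀ : ℕ) ^ Module.finrank ℤ (𝓞 F) := by
        rw [hq, ← Ideal.absNorm_span_natCast (S := 𝓞 F)]
        exact Ideal.absNorm_dvd_absNorm_of_le ((Ideal.span_singleton_le_iff_mem _).mpr hp₀)
      rwa [(Nat.prime_dvd_prime_iff_eq hp p₀.2).mp (hp.dvd_of_dvd_pow (hpq.trans hdvd))]
    refine hwn (Ideal.dvd_iff_le.mpr ?_)
    rw [Ideal.span_singleton_le_iff_mem]
    obtain ⟨k, hk⟩ := hpN
    rw [hk, Nat.cast_mul]
    exact Ideal.mul_mem_right _ _ hmem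
  obtain ⟨c', hc'⟩ := Ideal.mem_span_singleton.mp
    (hspan ▸ natCast_mem_idealOH (Ideal.absNorm_mem w) : ((q : ℕ) : OH F) ∈ Ideal.span {π₀})
  have hu : ∃ u : Zhat, (q : Zhat) * u = insideZhat N := by
    have h : ∀ p : Nat.Primes, (q : ℤ_[(p : ℕ)]) ∣ insideZhat N p := by
      intro p
      by_cases hp : (p : ℕ) ∣ N
      · refine IsUnit.dvd ?_
        rw [PadicInt.isUnit_iff, PadicInt.norm_natCast_eq_one_iff]
        exact (Nat.Coprime.coprime_dvd_right hp hqN).symm
      · simp [insideZhat, hp]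
    choose u hu using h
    exact ⟨u, funext fun p => (hu p).symm⟩
  obtain ⟨u, hu⟩ := hu
  set t : AF F := intHom F (c' * ((1 : 𝓞 F) ⊗ₜ[ℤ] u)) with ht
  have hπt : (π : AF F) * t = eN F N := by
    rw [← hπ₀, ht, ← map_mul, ← mul_assoc, ← hc', eN_eq_intHom, ← hu, ← nsmul_eq_mul,
      ← TensorProduct.tmul_smul, nsmul_eq_mul]
  have hinv : eN F N * ((π⁻¹ : (AF F)ˣ) : AF F) + (1 - eN F N) ∈ intAF F := by
    have : eN F N * ((π⁻¹ : (AF F)ˣ) : AF F) = t := by
      linear_combination (-((π⁻¹ : (AF F)ˣ) : AF F)) * hπt + t * π.inv_mul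
    rw [this]
    exact add_mem ⟨_, rfl⟩ one_sub_eN_mem
  refine ⟨outPart N π, ?_, outsideN_outPart π⟩
  have hπint : (π : AF F) ∈ intAF F := hπ₀ ▸ ⟨π₀, rfl⟩
  obtain ⟨π₁, hπ₁⟩ : (outPart N π : AF F) ∈ intAF F := by
    rw [coe_outPart]
    exact add_mem (mul_mem one_sub_eN_mem hπint) eN_mem
  obtain ⟨ri, hri⟩ := hinv
  obtain ⟨re, hre⟩ : (inPart N π : AF F) ∈ intAF F := by
    rw [coe_inPart]
    exact add_mem (mul_mem eN_mem hπint) one_sub_eN_mem
  refine isUniformizerAt_iff.mpr ⟨π₁, hπ₁, ?_, ?_⟩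
  · refine intHom_mem_idealAF_iff.mp ?_
    rw [map_sub, map_one, show intHom F π₁ = _ from hπ₁, coe_outPart,
      show (1 - eN F N) * (π : AF F) + eN F N - 1 = ((π : AF F) - 1) * (1 - eN F N) by ring]
    exact mul_one_sub_eN_mem hN (sub_mem hπint (one_mem _))
  · rw [hspan]
    have hre' : intHom F re = (inPart N π : AF F) := hre
    have hri' : intHom F ri = (((inPart N π)⁻¹ : (AF F)ˣ) : AF F) := hri
    have hu1 : IsUnit re := IsUnit.of_mul_eq_one ri (intHom_injective (by
      rw [map_mul, hre', hri', Units.mul_inv, map_one]))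
    have e : π₀ = π₁ * re := intHom_injective (by
      rw [map_mul, hπ₀, hre', show intHom F π₁ = _ from hπ₁]
      refine Eq.trans ?_ (Units.val_mul _ _)
      rw [mul_comm (outPart N π), inPart_mul_outPart])
    rw [e, Ideal.span_singleton_mul_right_unit hu1]

theorem idealOH_inj {J K : Ideal (𝓞 F)} (hJ : J ≠ ⊥) (hK : K ≠ ⊥) (h : idealOH J = idealOH K) :
    J = K := by
  ext x
  rw [← tmul_one_mem_idealOH_iff hJ, h, tmul_one_mem_idealOH_iff hK]

/-- Vanishing of a combination at the generator of the different propagates to all ideles which are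
`1` at the primes dividing `N`. -/
theorem sum_whit_eq_zero (hN : N ≠ 0) {κ : Type} (S : Finset κ) (q : κ → ℂ)
    (c : κ → FinPt F (Ideal.span {(N : 𝓞 F)}) → ℂ) (hc : ∀ j ∈ S, IsWhitFn (c j) a)
    (h : κ → GL (Fin 2) (AF F))
    (hh : ∀ j ∈ S, InsideN N (h j))
    (h0 : ∑ j ∈ S, q j *
      c j ((diagUnit (diffOut F N)⁻¹ * h j : GL (Fin 2) (AF F)) :
        FinPt F (Ideal.span {(N : 𝓞 F)})) = 0)
    {y : (AF F)ˣ} (hy : OutsideN N y) :
    ∑ j ∈ S, q j * c j ((diagUnit y * h j : GL (Fin 2) (AF F)) :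
      FinPt F (Ideal.span {(N : 𝓞 F)})) = 0 := by
  classical
  set E : (AF F)ˣ → ℂ := fun y =>
    ∑ j ∈ S, q j *
      c j ((diagUnit y * h j : GL (Fin 2) (AF F)) : FinPt F (Ideal.span {(N : 𝓞 F)})) with hE
  show E y = 0
  set δ := diffOut F N with hδ
  have hδo : OutsideN N δ := outsideN_outPart _
  have hδe : (1 - eN F N) * (δ : AF F) = (1 - eN F N) * diffUnit F := by
    rw [hδ, diffOut, coe_outPart]
    linear_combination ((diffUnit F : AF F) - 1) * eN_mul_self (F := F) (N := N)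
  have hcond : ∀ {z : (AF F)ˣ}, (z : AF F) ∈ intAF F →
      (diffUnit F : AF F) * ((1 - eN F N) * ((δ⁻¹ * z : (AF F)ˣ) : AF F)) ∈ intAF F := by
    intro z hz
    have e : (diffUnit F : AF F) * ((1 - eN F N) * ((δ⁻¹ * z : (AF F)ˣ) : AF F))
        = (1 - eN F N) * z := by
      rw [Units.val_mul]
      linear_combination (-(((δ⁻¹ : (AF F)ˣ) : AF F) * (z : AF F))) * hδe +
        ((1 - eN F N) * (z : AF F)) * δ.mul_inv
    rw [e]
    exact mul_mem one_sub_eN_mem hz
  have main : ∀ (d : ℕ) (z₀ : OH F) (z : (AF F)ˣ), intHom F z₀ = z → OutsideN N z →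
      Ideal.absNorm ((Ideal.span {z₀}).comap
        (Algebra.TensorProduct.includeLeftRingHom : 𝓞 F →+* OH F)) = d → E (δ⁻¹ * z) = 0 := by
    intro d
    induction d using Nat.strong_induction_on with
    | _ d ih =>
    intro z₀ z hz hzo hd
    obtain ⟨M, hM, hMz⟩ := exists_natCast_mem_span z₀ (hz ▸ z.isUnit)
    set J := (Ideal.span {z₀}).comap (Algebra.TensorProduct.includeLeftRingHom : 𝓞 F →+* OH F)
      with hJ
    have hJz : idealOH J = Ideal.span {z₀} := idealOH_comap hM hMz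
    have hJ0 : J ≠ ⊥ := by
      intro hb
      have h1 : (M : 𝓞 F) ∈ J := by
        rw [hJ, Ideal.mem_comap, map_natCast]; exact hMz
      rw [hb, Ideal.mem_bot, Nat.cast_eq_zero] at h1
      exact hM h1
    by_cases hJt : J = ⊤
    · have hu : IsUnit z₀ := by
        rw [← Ideal.span_singleton_eq_top, ← hJz, hJt, idealOH, Ideal.map_top]
      have hzi : ((z⁻¹ : (AF F)ˣ) : AF F) ∈ intAF F := ⟨((hu.unit⁻¹ : (OH F)ˣ) : OH F), by
        refine z.isUnit.mul_left_cancel ?_
        rw [Units.mul_inv, ← hz]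
        show intHom F z₀ * intHom F _ = 1
        rw [← map_mul, IsUnit.mul_val_inv, map_one]⟩
      rw [hE]
      refine Eq.trans (Finset.sum_congr rfl fun j hj => ?_) h0
      rw [mk_diag_unit hN (hh j hj) δ⁻¹ hzo ⟨z₀, hz⟩ hzi]
    obtain ⟨w, hwmax, hJw⟩ := Ideal.exists_le_maximal J hJt
    have hw := hwmax.isPrime
    have hw0 : w ≠ ⊥ := fun hb => hJ0 (le_bot_iff.mp (hb ▸ hJw))
    have hz₀w : z₀ ∈ idealOH w := Ideal.map_mono hJw
      (show z₀ ∈ idealOH J from hJz.symm ▸ Ideal.mem_span_singleton_self z₀)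
    have hwn : ¬ w ∣ (Ideal.span {(N : 𝓞 F)}) := by
      intro hdvd
      have h1 : z₀ - 1 ∈ idealOH (Ideal.span {(N : 𝓞 F)}) := by
        refine intHom_mem_idealAF_iff.mp ?_
        rw [map_sub, map_one, hz, show (z : AF F) - 1 = ((z : AF F) - 1) * (1 - eN F N) by
          unfold OutsideN at hzo; linear_combination hzo]
        exact mul_one_sub_eN_mem hN (sub_mem ⟨z₀, hz⟩ (one_mem _))
      have h2 : (1 : OH F) ∈ idealOH w := by
        rw [show (1 : OH F) = z₀ - (z₀ - 1) by ring]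
        exact sub_mem hz₀w (Ideal.map_mono (Ideal.le_of_dvd hdvd) h1)
      rw [Algebra.TensorProduct.one_def] at h2
      exact hw.ne_top ((Ideal.eq_top_iff_one _).mpr ((tmul_one_mem_idealOH_iff hw0).mp h2))
    obtain ⟨π, hπ, hπo⟩ := exists_outside_uniformizer hN hw hw0 hwn
    obtain ⟨π₀, hπ₀, -, hspan⟩ := isUniformizerAt_iff.mp hπ
    obtain ⟨z₁, hz₁⟩ := Ideal.mem_span_singleton.mp (hspan ▸ hz₀w)
    set z' : (AF F)ˣ := π⁻¹ * z with hz'
    have hz'1 : intHom F z₁ = z' := by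
      refine π.isUnit.mul_left_cancel ?_
      rw [hz', Units.val_mul, ← mul_assoc, Units.mul_inv, one_mul, ← hπ₀, ← map_mul, ← hz₁, hz]
    have hsmaller : ∀ (x₀ : OH F) (x : (AF F)ˣ), intHom F x₀ = x →
        z₀ = π₀ * x₀ → Ideal.absNorm ((Ideal.span {x₀}).comap
          (Algebra.TensorProduct.includeLeftRingHom : 𝓞 F →+* OH F)) < d := by
      intro x₀ x hx hx0
      obtain ⟨M', hM', hMx⟩ := exists_natCast_mem_span x₀ (hx ▸ x.isUnit)
      set K := (Ideal.span {x₀}).comap (Algebra.TensorProduct.includeLeftRingHom : 𝓞 F →+* OH F)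
        with hK
      have hKx : idealOH K = Ideal.span {x₀} := idealOH_comap hM' hMx
      have hK0 : K ≠ ⊥ := by
        intro hb
        have h1 : (M' : 𝓞 F) ∈ K := by
          rw [hK, Ideal.mem_comap, map_natCast]; exact hMx
        rw [hb, Ideal.mem_bot, Nat.cast_eq_zero] at h1
        exact hM' h1
      have e : J = w * K := idealOH_inj hJ0 (mul_ne_zero hw0 hK0) (by
        rw [hJz]
        show _ = Ideal.map _ (w * K)
        rw [Ideal.map_mul, show Ideal.map _ w = Ideal.span {π₀} from hspan,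
          show Ideal.map _ K = Ideal.span {x₀} from hKx, Ideal.span_singleton_mul_span_singleton,
          ← hx0])
      rw [← hd, e, map_mul]
      refine lt_mul_of_one_lt_left (Nat.pos_of_ne_zero (absNorm_ne_zero hK0)) ?_
      have h1 : Ideal.absNorm w ≠ 1 := fun h => hw.ne_top (Ideal.absNorm_eq_one_iff.mp h)
      have h2 := absNorm_ne_zero hw0
      omega
    have hz'o : OutsideN N z' := hπo.inv.mul hzo
    have hE1 : E (δ⁻¹ * z') = 0 := ih _ (hsmaller z₁ z' hz'1 hz₁) z₁ z' hz'1 hz'o rfl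
    have hE2 : E (δ⁻¹ * z' * π⁻¹) = 0 := by
      by_cases hdiv : π₀ ∣ z₁
      · obtain ⟨z₂, hz₂⟩ := hdiv
        have hz'2 : intHom F z₂ = (π⁻¹ * z' : (AF F)ˣ) := by
          refine π.isUnit.mul_left_cancel ?_
          rw [Units.val_mul, ← mul_assoc, Units.mul_inv, one_mul, ← hπ₀, ← map_mul, ← hz₂, hz'1]
        rw [mul_assoc, mul_comm z']
        have h1 : intHom F (π₀ * z₂) = (π * (π⁻¹ * z') : (AF F)ˣ) := by
          rw [mul_inv_cancel_left, ← hz₂, hz'1]
        have hlt : Ideal.absNorm ((Ideal.span {z₂}).comap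
            (Algebra.TensorProduct.includeLeftRingHom : 𝓞 F →+* OH F)) < d := by
          refine lt_of_le_of_lt ?_ (hsmaller z₁ z' hz'1 hz₁)
          refine Nat.le_of_dvd (Nat.pos_of_ne_zero ?_) (Ideal.absNorm_dvd_absNorm_of_le
            (Ideal.comap_mono (Ideal.span_singleton_le_span_singleton.mpr
              ⟨π₀, by rw [hz₂, mul_comm]⟩)))
          obtain ⟨M', hM', hMx⟩ := exists_natCast_mem_span z₁ (hz'1 ▸ z'.isUnit)
          refine absNorm_ne_zero fun hb => hM' ?_
          have h2 : (M' : 𝓞 F) ∈ (Ideal.span {z₁}).comap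
              (Algebra.TensorProduct.includeLeftRingHom : 𝓞 F →+* OH F) := by
            rw [Ideal.mem_comap, map_natCast]; exact hMx
          rwa [hb, Ideal.mem_bot, Nat.cast_eq_zero] at h2
        exact ih _ hlt z₂ _ hz'2 (hπo.inv.mul hz'o) rfl
      · refine Finset.sum_eq_zero fun j hj => mul_eq_zero_of_right _ (by_contra fun hne => hdiv ?_)
        have h1 := (hc j hj).integral_of_ne_zero hN (hh j hj) hne
        have h2 : (diffUnit F : AF F) * ((1 - eN F N) * ((δ⁻¹ * z' * π⁻¹ : (AF F)ˣ) : AF F))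
            = (1 - eN F N) * ((π⁻¹ * z' : (AF F)ˣ) : AF F) := by
          simp only [Units.val_mul]
          linear_combination
            (-(((δ⁻¹ : (AF F)ˣ) : AF F) * ((π⁻¹ : (AF F)ˣ) : AF F) * (z' : AF F))) * hδe +
            ((1 - eN F N) * ((π⁻¹ : (AF F)ˣ) : AF F) * (z' : AF F)) * δ.mul_inv
        rw [h2] at h1
        obtain ⟨t, ht⟩ := h1
        replace ht : intHom F t = (1 - eN F N) * ((π⁻¹ * z' : (AF F)ˣ) : AF F) := ht
        refine ⟨t + (1 : 𝓞 F) ⊗ₜ[ℤ] insideZhat N, intHom_injective ?_⟩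
        have hez := (hπo.inv.mul hz'o).eN_mul
        rw [map_mul, map_add, ← eN_eq_intHom, hπ₀, ht, hz'1]
        simp only [hz', Units.val_mul] at hez ⊢
        linear_combination (π : AF F) * hez -
          (((π⁻¹ : (AF F)ˣ) : AF F) * (z : AF F)) * π.mul_inv
    have hrec : (Ideal.absNorm w : ℂ) * E (δ⁻¹ * z' * π) + E (δ⁻¹ * z' * π⁻¹)
        = (Real.sqrt (Ideal.absNorm w) : ℂ) * a w * E (δ⁻¹ * z') := by
      simp only [hE, Finset.mul_sum]
      rw [← Finset.sum_add_distrib]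
      refine Finset.sum_congr rfl fun j hj => ?_
      have := (hc j hj).recursion (hh j hj) (hcond (z := z') ⟨z₁, hz'1⟩) hw hw0 hwn hπ hπo
      linear_combination (q j) * this
    rw [hE1, hE2, add_zero, mul_zero, mul_eq_zero] at hrec
    have e : δ⁻¹ * z' * π = δ⁻¹ * z := by
      rw [hz', mul_assoc, mul_comm (π⁻¹ * z) π, mul_inv_cancel_left]
    rw [← e]
    exact hrec.resolve_left (Nat.cast_ne_zero.mpr (absNorm_ne_zero hw0))
  by_contra hne
  obtain ⟨j, hj, hj'⟩ := Finset.exists_ne_zero_of_sum_ne_zero hne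
  have h1 := (hc j hj).integral_of_ne_zero hN (hh j hj) (right_ne_zero_of_mul hj')
  obtain ⟨t, ht⟩ := h1
  replace ht : intHom F t = (diffUnit F : AF F) * ((1 - eN F N) * (y : AF F)) := ht
  refine hne ?_
  have hz : intHom F (t + (1 : 𝓞 F) ⊗ₜ[ℤ] insideZhat N) = ((δ * y : (AF F)ˣ) : AF F) := by
    have he := (hδo.mul hy).eN_mul
    rw [Units.val_mul] at he
    rw [map_add, ← eN_eq_intHom, ht, Units.val_mul]
    linear_combination (-(y : AF F)) * hδe - he
  have := main _ _ (δ * y) hz (hδo.mul hy) rfl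
  rwa [inv_mul_cancel_left] at this

end FLTAgent.LanglandsTunnell.Expansion

end
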