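import Fermat.Agent.LanglandsTunnell.Expansion.Coefficient
import Fermat.Agent.LanglandsTunnell.Expansion.Recursion
import Fermat.Agent.LanglandsTunnell.Geom.Action

/-!
# Common translates of eigenforms

`commonTranslateSpec` proves `CommonTranslateSpec`: two eigenforms with the same eigenvalues away
from `N` have a common nonzero combination of translates at the primes dividing `N`.
-/

set_option autoImplicit false

open NumberField Matrix MeasureTheory

noncomputable section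

namespace FLTAgent.LanglandsTunnell.Expansion

open FLTAgent.LanglandsTunnell FLTAgent.LanglandsTunnell.Isolation FLTAgent.LanglandsTunnell.Seed
open FLTAgent.LanglandsTunnell.Geom (act_one act_mul)
open FLTAgent.LanglandsTunnell.Killing (mk_mul_congr)

variable {F : Type} [Field F] [NumberField F] {ι : Type} [Fintype ι] [DecidableEq ι]
  {Φ : PlaceChoice F ι} {n : Ideal (𝓞 F)}

/-- Vanishing combinations have vanishing coefficients. -/
theorem sum_coef_eq_zero (hn : n ≠ ⊥) {κ : Type} (t : Finset κ) (c : κ → ℂ)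
    (ψ : κ → Pt F ι n → ℂ) (hA : ∀ j ∈ t, IsAutomorphic Φ (ψ j)) (v : κ → FinPt F n) (ξ : F)
    (h : ∀ P, ∑ j ∈ t, c j * ψ j (v j, P) = 0) (P : ι → H3) :
    ∑ j ∈ t, c j * coef Φ (ψ j) (v j) ξ P = 0 := by
  classical
  choose m hm hd using fun j => exists_valid hn (v j) ξ
  have hM : ∀ j ∈ t, Admissible (∏ l ∈ t, m l) (v j) ∧ DualOK (∏ l ∈ t, m l) ξ := fun j hj => by
    rw [← Finset.prod_erase_mul t m hj]
    exact ⟨(hm j).mul_left (Finset.prod_ne_zero_iff.mpr fun l _ => (hm l).1), (hd j).mul_left _⟩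
  rw [Finset.sum_congr rfl fun j hj => by
    rw [coef_eq (hA j hj) (hM j hj).1 (hM j hj).2, coefAt, ← cubeMean_const_mul],
    ← cubeMean_sum t (fun j s => c j * coefInt Φ (ψ j) (v j) ξ (∏ l ∈ t, m l) P s) fun j hj =>
      continuous_const.mul (continuous_coefInt (hA j hj) (v j) ξ _ P)]
  rw [← cubeMean_const (d := LanglandsTunnell.Geom.BIdx F) 0]
  refine congrArg cubeMean (funext fun s => ?_)
  simp only [coefInt, ← mul_assoc, ← Finset.sum_mul, h, zero_mul]

theorem isWhitFn_whit {N : ℕ} (hN : N ≠ 0) {f : Pt F ι (Ideal.span {(N : 𝓞 F)}) → ℂ}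
    {a : Ideal (𝓞 F) → ℂ} (hf : IsEigenform Φ f a) :
    IsWhitFn (whit Φ f) a where
  unip x v := whit_upperUnip hf.automorphic hf.spherical (lv_ne_bot hN) x v
  hecke w hw hw0 hwn v :=
    finsum_whit hf.automorphic (lv_ne_bot hN) hw0 (hf.eigen w hw hw0 hwn) v

theorem coef_diag_eq {φ : Pt F ι n → ℂ} (hA : IsAutomorphic Φ φ) (hS : SphericalZero φ) (hn : n ≠ ⊥)
    (ξ : Fˣ) (t : (AF F)ˣ) (h : GL (Fin 2) (AF F)) (P : ι → H3) :
    coef Φ φ ((diagUnit t * h : GL (Fin 2) (AF F)) : FinPt F n) (ξ : F) P =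
      whit Φ φ ((diagUnit (Units.map (toAF F : F →* AF F) ξ * t) * h : GL (Fin 2) (AF F)) :
          FinPt F n) *
        ∏ i, wfun 1 (H3.moebius (GeneralLinearGroup.map (Φ.emb i) (diagUnit ξ)) (P i)) := by
  rw [coef_eq_whit hA hS hn, diagUnit_mul, mul_assoc, ← map_diagUnit]
  rfl

omit [NumberField F] in
theorem diagUnit_comm (u v : (AF F)ˣ) : diagUnit u * diagUnit v = diagUnit v * diagUnit u :=
  (diagUnit_mul u v).symm.trans ((congrArg diagUnit (mul_comm u v)).trans (diagUnit_mul v u))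

theorem psi_eq_one_of_mul_mem {x : AF F} (h : (diffUnit F : AF F) * x ∈ intAF F) : psi x = 1 := by
  simpa using psi_mul_int_iff.mpr h 1 (one_mem _)

variable {N : ℕ}

/-- Some diagonal coefficient at the generator of the different is nonzero. -/
theorem exists_whit_ne_zero (hN : N ≠ 0) {f : Pt F ι (Ideal.span {(N : 𝓞 F)}) → ℂ}
    {a : Ideal (𝓞 F) → ℂ} (hf : IsEigenform Φ f a) :
    ∃ u : (AF F)ˣ, (1 - eN F N) * ((u : AF F) - 1) = 0 ∧
      whit Φ f ((diagUnit (diffOut F N)⁻¹ * diagUnit u : GL (Fin 2) (AF F)) : FinPt F _) ≠ 0 := by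
  classical
  have hn := lv_ne_bot (F := F) hN
  by_contra! hc
  have hall : ∀ u : (AF F)ˣ,
      whit Φ f ((diagUnit u * 1 : GL (Fin 2) (AF F)) : FinPt F _) = 0 := by
    intro u
    have h := sum_whit_eq_zero (a := a) hN ({()} : Finset Unit) (fun _ => 1) (fun _ => whit Φ f)
      (fun _ _ => isWhitFn_whit hN hf) (fun _ => diagUnit (inPart N u))
      (fun _ _ => insideN_inPart u) (by
        rw [Finset.sum_singleton, one_mul]
        refine hc _ ?_
        rw [coe_inPart]
        linear_combination (1 - (u : AF F)) * eN_mul_self (F := F) (N := N))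
      (outsideN_outPart (N := N) u)
    rw [Finset.sum_singleton, one_mul, diagUnit_comm, ← diagUnit_mul, inPart_mul_outPart] at h
    rwa [mul_one]
  obtain ⟨⟨v, P⟩, hne⟩ := hf.ne_zero
  obtain ⟨γ, J, t, -, -, -, rfl⟩ := exists_smul_diagUnit hn v
  refine hne ?_
  have hzero : ∀ Q, f (((diagUnit t * 1 : GL (Fin 2) (AF F)) : FinPt F _), Q) = 0 := by
    intro Q
    have h := sum_apply_eq_zero (Φ := Φ) hn ({()} : Finset Unit) (fun _ => 1) (fun _ => f)
      (fun _ _ => hf.automorphic) (fun _ => ((diagUnit t * 1 : GL (Fin 2) (AF F)) : FinPt F _)) Q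
      fun ξ => by
        rw [Finset.sum_singleton, one_mul]
        by_cases hξ : ξ = 0
        · rw [hξ, coef_zero hf.automorphic hf.cuspidal hn]
        · rw [show ξ = ((Units.mk0 ξ hξ : Fˣ) : F) from rfl,
            coef_diag_eq hf.automorphic hf.spherical hn, hall, zero_mul]
    simpa using h
  have h := hf.automorphic.invariant γ⁻¹
    (GeneralLinearGroup.map (toAF F) γ • ((diagUnit t : GL (Fin 2) (AF F)) : FinPt F _), P)
  rw [← h]
  simp only [act, map_inv, inv_smul_smul]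
  have e : ((diagUnit t : GL (Fin 2) (AF F)) : FinPt F (Ideal.span {(N : 𝓞 F)}))
      = ((diagUnit t * 1 : GL (Fin 2) (AF F)) : FinPt F _) := by rw [mul_one]
  rw [e]
  exact hzero _

theorem exists_natCast_mul_eq_insideZhat {p : ℕ} (hp : p.Prime) (hpN : ¬ p ∣ N) :
    ∃ u : Zhat, (p : Zhat) * u = insideZhat N := by
  have h : ∀ q : Nat.Primes, (p : ℤ_[(q : ℕ)]) ∣ insideZhat N q := by
    intro q
    by_cases hq : (q : ℕ) ∣ N
    · refine IsUnit.dvd ?_
      rw [PadicInt.isUnit_iff, PadicInt.norm_natCast_eq_one_iff]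
      exact (Nat.coprime_primes q.2 hp).mpr fun h => hpN (h ▸ hq)
    · simp [insideZhat, hq]
  choose u hu using h
  exact ⟨u, funext fun q => (hu q).symm⟩

/-- An idele congruent to `1` modulo `N` and trivial outside `N` is a unit at every prime. -/
theorem inv_mem_of_congr (_hN : N ≠ 0) {y : (AF F)ˣ}
    (hy : (1 - eN F N) * ((y : AF F) - 1) = 0)
    (hy1 : (y : AF F) - 1 ∈ idealAF F (Ideal.span {(N : 𝓞 F)})) :
    ((y⁻¹ : (AF F)ˣ) : AF F) - 1 ∈ idealAF F (Ideal.span {(N : 𝓞 F)}) := by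
  obtain ⟨d, hd, hdy⟩ := mem_idealAF.mp hy1
  set z₀ : OH F := d + 1 with hz₀
  have hz : intHom F z₀ = (y : AF F) := by rw [hz₀, map_add, map_one, hdy, sub_add_cancel]
  obtain ⟨M, hM, hMz⟩ := exists_natCast_mem_span z₀ (hz ▸ y.isUnit)
  set J := (Ideal.span {z₀}).comap (Algebra.TensorProduct.includeLeftRingHom : 𝓞 F →+* OH F)
    with hJ
  have hJz : idealOH J = Ideal.span {z₀} := idealOH_comap hM hMz
  have hu : IsUnit z₀ := by
    rw [← Ideal.span_singleton_eq_top, ← hJz]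
    by_contra hne
    have hJt : J ≠ ⊤ := fun h => hne (by rw [h]; exact Ideal.map_top _)
    obtain ⟨w, hwmax, hJw⟩ := Ideal.exists_le_maximal J hJt
    have hw0 : w ≠ ⊥ := by
      intro hb
      have h1 : (M : 𝓞 F) ∈ J := by rw [hJ, Ideal.mem_comap, map_natCast]; exact hMz
      exact hM (Nat.cast_eq_zero.mp (Ideal.mem_bot.mp (hb ▸ hJw h1)))
    obtain ⟨p, hp⟩ := exists_prime_natCast_mem hwmax.isPrime hw0
    have hz₀w : z₀ ∈ idealOH w :=
      Ideal.map_mono hJw (show z₀ ∈ idealOH J from hJz.symm ▸ Ideal.mem_span_singleton_self z₀)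
    have hone : (1 : OH F) ∈ idealOH w → False := fun h2 => by
      rw [Algebra.TensorProduct.one_def] at h2
      exact hwmax.ne_top
        ((Ideal.eq_top_iff_one _).mpr ((tmul_one_mem_idealOH_iff hw0).mp h2))
    by_cases hpN : (p : ℕ) ∣ N
    · refine hone ?_
      have h1 : d ∈ idealOH w := by
        refine Ideal.map_mono ?_ hd
        rw [Ideal.span_singleton_le_iff_mem]
        obtain ⟨k, hk⟩ := hpN
        rw [hk, Nat.cast_mul]
        exact Ideal.mul_mem_right _ _ hp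
      rw [show (1 : OH F) = z₀ - d by rw [hz₀]; ring]
      exact sub_mem hz₀w h1
    · obtain ⟨u, hu⟩ := exists_natCast_mul_eq_insideZhat p.2 hpN
      refine hone ?_
      have e : (1 : OH F) = (1 - (1 : 𝓞 F) ⊗ₜ[ℤ] insideZhat N) * z₀
          + ((p : ℕ) : OH F) * ((1 : 𝓞 F) ⊗ₜ[ℤ] u) := by
        refine intHom_injective ?_
        rw [← nsmul_eq_mul, ← TensorProduct.tmul_smul, nsmul_eq_mul, hu, map_add, map_mul,
          map_sub, map_one, hz, ← eN_eq_intHom]
        linear_combination -hy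
      rw [e]
      exact add_mem (Ideal.mul_mem_left _ _ hz₀w)
        (Ideal.mul_mem_right _ _ (natCast_mem_idealOH hp))
  have hi : ((y⁻¹ : (AF F)ˣ) : AF F) ∈ intAF F := ⟨((hu.unit⁻¹ : (OH F)ˣ) : OH F), by
    refine y.isUnit.mul_left_cancel ?_
    rw [Units.mul_inv, ← hz]
    show intHom F z₀ * intHom F _ = 1
    rw [← map_mul, IsUnit.mul_val_inv, map_one]⟩
  rw [show ((y⁻¹ : (AF F)ˣ) : AF F) - 1 = -((y⁻¹ : (AF F)ˣ) : AF F) * ((y : AF F) - 1) by
    linear_combination y.inv_mul]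
  exact mul_mem_idealAF_left (neg_mem hi) hy1

variable (F N) in
open scoped Classical in
/-- The indicator of `1 + N` at the primes dividing `N`. -/
def bump (y : (AF F)ˣ) : ℂ :=
  if eN F N * ((y : AF F) - 1) ∈ idealAF F (Ideal.span {(N : 𝓞 F)}) then 1 else 0

omit [NumberField F] in
theorem bump_one : bump F N (1 : (AF F)ˣ) = 1 := by
  rw [bump, if_pos]
  simp

/-- The diagonal coefficient of a unipotent translate picks up an additive character. -/
private theorem whit_diag_upperUnip (hN : N ≠ 0) {f : Pt F ι (Ideal.span {(N : 𝓞 F)}) → ℂ}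
    {a : Ideal (𝓞 F) → ℂ} (hf : IsEigenform Φ f a) {x : AF F} (hx : eN F N * x = x)
    (y u : (AF F)ˣ) :
    whit Φ f ((diagUnit (diffOut F N)⁻¹ * diagUnit y * (upperUnip x * diagUnit u) :
        GL (Fin 2) (AF F)) : FinPt F _) = psi ((y : AF F) * x) *
      whit Φ f ((diagUnit (diffOut F N)⁻¹ * diagUnit y * diagUnit u : GL (Fin 2) (AF F)) :
        FinPt F _) := by
  have e : diagUnit (diffOut F N)⁻¹ * diagUnit y * (upperUnip x * diagUnit u)
      = upperUnip ((y : AF F) * x) * (diagUnit (diffOut F N)⁻¹ * diagUnit y * diagUnit u) := by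
    have heδ : eN F N * (((diffOut F N)⁻¹ : (AF F)ˣ) : AF F) = eN F N :=
      (outsideN_outPart (N := N) (diffUnit F)).inv.eN_mul
    have hx' : (((diffOut F N)⁻¹ : (AF F)ˣ) : AF F) * x = x := by
      rw [← hx, ← mul_assoc, mul_comm _ (eN F N), heδ]
    rw [← mul_assoc, ← diagUnit_mul, diagUnit_mul_upperUnip, Units.val_mul, mul_assoc,
      show (((diffOut F N)⁻¹ : (AF F)ˣ) : AF F) * (y : AF F) * x = (y : AF F) * x by
        rw [mul_assoc, mul_left_comm, hx']]
  rw [e, ← (isWhitFn_whit hN hf).unip]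
  rfl

/-- The diagonal coefficients are supported where `M₀ (y - 1)` is integral at the primes
dividing `N`. -/
private theorem natCast_mul_eN_mul_mem (hN : N ≠ 0) {f : Pt F ι (Ideal.span {(N : 𝓞 F)}) → ℂ}
    {a : Ideal (𝓞 F) → ℂ} (hf : IsEigenform Φ f a) {u y : (AF F)ˣ} {M₀ : ℕ}
    (hMint : (M₀ : AF F) *
      (((diffUnit F * u * (isUnit_natCast_AF (F := F) hN).unit)⁻¹ : (AF F)ˣ) : AF F) ∈ intAF F)
    (hy : whit Φ f ((diagUnit (diffOut F N)⁻¹ * diagUnit y * diagUnit u : GL (Fin 2) (AF F)) :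
      FinPt F _) ≠ 0) :
    (M₀ : AF F) * (eN F N * ((y : AF F) - 1)) ∈ intAF F := by
  suffices h : (M₀ : AF F) * (eN F N * (y : AF F)) ∈ intAF F by
    rw [mul_sub, mul_sub, mul_one]
    exact sub_mem h (mul_mem (natCast_mem _ _) eN_mem)
  have h1 : ∀ z ∈ intAF F,
      psi (eN F N * (y : AF F) * (u : AF F) * (N : AF F) * z) = 1 := by
    intro z hz
    have hmem : (eN F N * ((N : AF F) * z)) ∈ idealAF F (Ideal.span {(N : 𝓞 F)}) :=
      mul_mem_idealAF_left eN_mem (by
        rw [mul_comm]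
        exact mul_mem_idealAF_left hz
          (LanglandsTunnell.natCast_mem_idealAF (Ideal.mem_span_singleton_self _)))
    have hk : upperUnip (eN F N * ((N : AF F) * z)) ∈
        principalSubgroup (Ideal.span {(N : 𝓞 F)}) := upperUnip_mem_principal hmem
    have h2 := mk_mul_congr (n := Ideal.span {(N : 𝓞 F)}) hk
      (diagUnit (diffOut F N)⁻¹ * diagUnit y * diagUnit u)
    have h3 := whit_diag_upperUnip hN hf
      (x := (u : AF F) * (eN F N * ((N : AF F) * z))) (by
        rw [mul_left_comm (u : AF F), ← mul_assoc, eN_mul_self]) y u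
    rw [← diagUnit_mul_upperUnip, ← mul_assoc, h2] at h3
    rw [show eN F N * (y : AF F) * (u : AF F) * (N : AF F) * z
      = (y : AF F) * ((u : AF F) * (eN F N * ((N : AF F) * z))) by ring]
    exact mul_right_cancel₀ hy (h3.symm.trans (one_mul _).symm)
  have h4 := mul_mem (psi_mul_int_iff.mp h1) hMint
  have hu1 := (diffUnit F * u * (isUnit_natCast_AF (F := F) hN).unit).mul_inv
  simp only [Units.val_mul, IsUnit.unit_spec] at hu1
  convert h4 using 1
  linear_combination (-((M₀ : AF F) * (eN F N * (y : AF F)))) * hu1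

omit [DecidableEq ι] in
/-- The diagonal coefficients are constant on `1 + N` at the primes dividing `N`. -/
private theorem whit_diag_eq_of_congr (hN : N ≠ 0) {f : Pt F ι (Ideal.span {(N : 𝓞 F)}) → ℂ}
    {u y : (AF F)ˣ} (hy : (1 - eN F N) * ((y : AF F) - 1) = 0)
    (hmem : eN F N * ((y : AF F) - 1) ∈ idealAF F (Ideal.span {(N : 𝓞 F)})) :
    whit Φ f ((diagUnit (diffOut F N)⁻¹ * diagUnit y * diagUnit u : GL (Fin 2) (AF F)) :
      FinPt F _) = whit Φ f
      ((diagUnit (diffOut F N)⁻¹ * diagUnit 1 * diagUnit u : GL (Fin 2) (AF F)) : FinPt F _) := by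
  have hy1 : (y : AF F) - 1 ∈ idealAF F (Ideal.span {(N : 𝓞 F)}) := by
    rwa [show (y : AF F) - 1 = eN F N * ((y : AF F) - 1) by linear_combination hy]
  have hk := diagUnit_mem_principalSubgroup hy1 (inv_mem_of_congr hN hy hy1)
  have e1 : diagUnit (1 : (AF F)ˣ) = 1 := Units.ext (by simp [diagUnit, Matrix.one_fin_two])
  simp only [e1, mul_one]
  rw [mul_assoc, diagUnit_comm y u, ← mul_assoc, mk_mul_congr hk]

/-- The character `o ↦ ψ ((y - 1) c o)` only depends on `o` modulo `M₀ N`. -/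
private theorem psi_congr_mod {cst : AF F} (hcN : cst * ((N : AF F) * diffUnit F) = eN F N)
    {M₀ : ℕ} {y : (AF F)ˣ} (hs : (M₀ : AF F) * (eN F N * ((y : AF F) - 1)) ∈ intAF F)
    {o o' : 𝓞 F} (hoo : o - o' ∈ Ideal.span {((M₀ * N : ℕ) : 𝓞 F)}) :
    psi (((y : AF F) - 1) * (cst * toAF F (o : F))) =
      psi (((y : AF F) - 1) * (cst * toAF F (o' : F))) := by
  obtain ⟨b, hb⟩ := Ideal.mem_span_singleton'.mp hoo
  rw [show o = o' + (o - o') by ring, ← hb]
  push_cast
  simp only [map_add, map_mul, map_natCast, mul_add, psi_add]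
  refine mul_eq_left₀ (psi_ne_zero _) |>.mpr ?_
  refine psi_eq_one_of_mul_mem ?_
  rw [show (diffUnit F : AF F) * (((y : AF F) - 1) * (cst * (toAF F (b : F) *
        ((M₀ : AF F) * (N : AF F))))) = (M₀ : AF F) * (eN F N * ((y : AF F) - 1)) *
          toAF F (b : F) by
      linear_combination ((y : AF F) - 1) * toAF F (b : F) * (M₀ : AF F) * hcN]
  exact mul_mem hs (toAF_mem_intAF b)

/-- If the character is trivial then `y ≡ 1` modulo `N` at the primes dividing `N`. -/
private theorem eN_mul_mem_of_psi_eq_one {cst : AF F} {M₀ : ℕ} (hK : M₀ * N ≠ 0)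
    (hcN : cst * ((N : AF F) * diffUnit F) = eN F N) {y : (AF F)ˣ}
    (hs : (M₀ : AF F) * (eN F N * ((y : AF F) - 1)) ∈ intAF F)
    (hpsi : ∀ o : 𝓞 F, psi (((y : AF F) - 1) * (cst * toAF F (o : F))) = 1) :
    eN F N * ((y : AF F) - 1) ∈ idealAF F (Ideal.span {(N : 𝓞 F)}) := by
  have hint : (diffUnit F : AF F) * (((y : AF F) - 1) * cst) ∈ intAF F := by
    refine psi_mul_int_iff.mp fun z hz => ?_
    obtain ⟨z₁, hz₁⟩ := hz
    replace hz₁ : intHom F z₁ = z := hz₁
    subst hz₁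
    obtain ⟨o, r, rfl⟩ := oh_exists_add (F := F) hK z₁
    rw [map_add, map_mul, map_natCast, intHom_tmul_one, mul_add, psi_add, mul_assoc, hpsi,
      one_mul]
    refine psi_eq_one_of_mul_mem ?_
    rw [show (diffUnit F : AF F) * (((y : AF F) - 1) * cst *
          (((M₀ * N : ℕ) : AF F) * intHom F r)) = (M₀ : AF F) * (eN F N * ((y : AF F) - 1)) *
            intHom F r by
        push_cast
        linear_combination ((y : AF F) - 1) * intHom F r * (M₀ : AF F) * hcN]
    exact mul_mem hs ⟨r, rfl⟩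
  rw [show eN F N * ((y : AF F) - 1)
    = (diffUnit F : AF F) * (((y : AF F) - 1) * cst) * (N : AF F) by
      linear_combination -((y : AF F) - 1) * hcN]
  exact mul_mem_idealAF_left hint
    (LanglandsTunnell.natCast_mem_idealAF (Ideal.mem_span_singleton_self _))

/-- If `y ≡ 1` modulo `N` at the primes dividing `N` then the character is trivial. -/
private theorem psi_eq_one_of_eN_mul_mem (hN : N ≠ 0) {cst : AF F}
    (hcN : cst * ((N : AF F) * diffUnit F) = eN F N) {y : (AF F)ˣ}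
    (hmem : eN F N * ((y : AF F) - 1) ∈ idealAF F (Ideal.span {(N : 𝓞 F)})) (o : 𝓞 F) :
    psi (((y : AF F) - 1) * (cst * toAF F (o : F))) = 1 := by
  obtain ⟨r, hr, hry⟩ := idealAF_span_natCast_mul (n := (⊤ : Ideal (𝓞 F))) (N := N)
    (x := eN F N * ((y : AF F) - 1)) (by rwa [Ideal.mul_top])
  rw [idealAF_top] at hr
  refine psi_eq_one_of_mul_mem ?_
  rw [show (diffUnit F : AF F) * (((y : AF F) - 1) * (cst * toAF F (o : F))) =
        r * toAF F (o : F) by
      refine (isUnit_natCast_AF (F := F) hN).mul_left_cancel ?_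
      linear_combination ((y : AF F) - 1) * toAF F (o : F) * hcN + toAF F (o : F) * hry]
  exact mul_mem hr (toAF_mem_intAF _)

/-- Summed over `o` modulo `M₀ N` the character detects `y ≡ 1` modulo `N`. -/
private theorem sum_psi_eq_ite (hN : N ≠ 0) {cst : AF F} {M₀ : ℕ} (hK : M₀ * N ≠ 0)
    [Fintype (𝓞 F ⧸ Ideal.span {((M₀ * N : ℕ) : 𝓞 F)})]
    (hcN : cst * ((N : AF F) * diffUnit F) = eN F N) {y : (AF F)ˣ}
    [Decidable (eN F N * ((y : AF F) - 1) ∈ idealAF F (Ideal.span {(N : 𝓞 F)}))]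
    (hs : (M₀ : AF F) * (eN F N * ((y : AF F) - 1)) ∈ intAF F) :
    ∑ o : 𝓞 F ⧸ Ideal.span {((M₀ * N : ℕ) : 𝓞 F)},
        psi (((y : AF F) - 1) * (cst * toAF F ((Quotient.out o : 𝓞 F) : F))) =
      if eN F N * ((y : AF F) - 1) ∈ idealAF F (Ideal.span {(N : 𝓞 F)})
        then (Fintype.card (𝓞 F ⧸ Ideal.span {((M₀ * N : ℕ) : 𝓞 F)}) : ℂ) else 0 := by
  classical
  have hwd : ∀ o o' : 𝓞 F, o - o' ∈ Ideal.span {((M₀ * N : ℕ) : 𝓞 F)} →
      psi (((y : AF F) - 1) * (cst * toAF F (o : F))) =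
        psi (((y : AF F) - 1) * (cst * toAF F (o' : F))) :=
    fun o o' => psi_congr_mod hcN hs
  let χ : AddChar (𝓞 F ⧸ Ideal.span {((M₀ * N : ℕ) : 𝓞 F)}) ℂ :=
    { toFun := fun o =>
        psi (((y : AF F) - 1) * (cst * toAF F ((Quotient.out o : 𝓞 F) : F)))
      map_zero_eq_one' := by
        have h := hwd (Quotient.out (0 : 𝓞 F ⧸ Ideal.span {((M₀ * N : ℕ) : 𝓞 F)})) 0
          (Ideal.Quotient.eq.mp (by rw [Ideal.Quotient.mk_out, map_zero]))
        simp only [map_zero, mul_zero, psi_zero] at h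
        exact h
      map_add_eq_mul' := fun o o' => by
        rw [← psi_add, ← mul_add]
        simp only [← mul_add, ← map_add]
        exact hwd _ _ (Ideal.Quotient.eq.mp (by rw [map_add]; simp)) }
  refine (AddChar.sum_eq_ite χ).trans ?_
  by_cases h0 : χ = 0
  · rw [if_pos h0, if_pos (eN_mul_mem_of_psi_eq_one hK hcN hs fun o => ?_)]
    rw [hwd o (Quotient.out (Ideal.Quotient.mk (Ideal.span {((M₀ * N : ℕ) : 𝓞 F)}) o))
      (Ideal.Quotient.eq.mp (Ideal.Quotient.mk_out _).symm)]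
    exact DFunLike.congr_fun h0 (Ideal.Quotient.mk _ o)
  · rw [if_neg h0, if_neg fun hmem => h0 (DFunLike.ext _ _ fun o =>
      psi_eq_one_of_eN_mul_mem hN hcN hmem (Quotient.out o))]

/-- Translates of a form cutting its diagonal coefficients down to a neighbourhood of `1`. -/
theorem exists_bump (hN : N ≠ 0) {f : Pt F ι (Ideal.span {(N : 𝓞 F)}) → ℂ}
    {a : Ideal (𝓞 F) → ℂ} (hf : IsEigenform Φ f a) :
    ∃ (κ : Type) (S : Finset κ) (q : κ → ℂ) (h : κ → GL (Fin 2) (AF F)),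
      (∀ j ∈ S, InsideN N (h j)) ∧
      ∀ y : (AF F)ˣ, (1 - eN F N) * ((y : AF F) - 1) = 0 →
        ∑ j ∈ S, q j * whit Φ f
          ((diagUnit (diffOut F N)⁻¹ * diagUnit y * h j : GL (Fin 2) (AF F)) : FinPt F _) =
            bump F N y := by
  classical
  obtain ⟨u, hu, hA₀⟩ := exists_whit_ne_zero hN hf
  set δo := diffOut F N with hδo
  set A : (AF F)ˣ → ℂ := fun y => whit Φ f
    ((diagUnit δo⁻¹ * diagUnit y * diagUnit u : GL (Fin 2) (AF F)) : FinPt F _) with hA
  have hA1 : A 1 ≠ 0 := by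
    have e : diagUnit (1 : (AF F)ˣ) = 1 := Units.ext (by simp [diagUnit, Matrix.one_fin_two])
    rw [hA]
    simpa [e] using hA₀
  -- the bound on the support
  obtain ⟨M₀, hM₀, hMint⟩ := exists_natCast_mul_mem_intAF
    (((diffUnit F * u * (isUnit_natCast_AF (F := F) hN).unit)⁻¹ : (AF F)ˣ) : AF F)
  have hsupp : ∀ y : (AF F)ˣ, A y ≠ 0 →
      (M₀ : AF F) * (eN F N * ((y : AF F) - 1)) ∈ intAF F :=
    fun y => natCast_mul_eN_mul_mem hN hf hMint
  -- the characters
  have hK : M₀ * N ≠ 0 := mul_ne_zero hM₀ hN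
  have : Finite (𝓞 F ⧸ Ideal.span {((M₀ * N : ℕ) : 𝓞 F)}) :=
    Ideal.finiteQuotientOfFreeOfNeBot _ (lv_ne_bot hK)
  have : Fintype (𝓞 F ⧸ Ideal.span {((M₀ * N : ℕ) : 𝓞 F)}) := Fintype.ofFinite _
  set cst : AF F := eN F N *
    ((((isUnit_natCast_AF (F := F) hN).unit * diffUnit F)⁻¹ : (AF F)ˣ) : AF F) with hcst
  have hcN : cst * ((N : AF F) * diffUnit F) = eN F N := by
    have h := ((isUnit_natCast_AF (F := F) hN).unit * diffUnit F).inv_mul
    simp only [Units.val_mul, IsUnit.unit_spec] at h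
    rw [hcst]
    linear_combination (eN F N) * h
  have hce : eN F N * cst = cst := by rw [hcst, ← mul_assoc, eN_mul_self]
  set ξ : 𝓞 F ⧸ Ideal.span {((M₀ * N : ℕ) : 𝓞 F)} → AF F :=
    fun o => cst * toAF F ((Quotient.out o : 𝓞 F) : F) with hξ
  refine ⟨_, Finset.univ,
    fun o => psi (-ξ o) / ((Fintype.card (𝓞 F ⧸ Ideal.span {((M₀ * N : ℕ) : 𝓞 F)}) : ℂ) * A 1),
    fun o => upperUnip (ξ o) * diagUnit u, fun o _ => ?_, fun y hy => ?_⟩
  · refine InsideN.mul (insideN_upperUnip ?_) (insideN_diagUnit hu)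
    rw [hξ, hcst]
    simp only [← mul_assoc]
    rw [mul_comm (1 - eN F N), eN_mul_one_sub, zero_mul, zero_mul]
  have hterm : ∀ o, psi (-ξ o) * whit Φ f
      ((diagUnit δo⁻¹ * diagUnit y * (upperUnip (ξ o) * diagUnit u) : GL (Fin 2) (AF F)) :
        FinPt F _) = psi (((y : AF F) - 1) * ξ o) * A y := by
    intro o
    rw [whit_diag_upperUnip hN hf (x := ξ o) (by rw [hξ, ← mul_assoc, hce]) y u, ← mul_assoc,
      ← psi_add,
      show -ξ o + (y : AF F) * ξ o = ((y : AF F) - 1) * ξ o by ring]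
  simp only [div_mul_eq_mul_div, hterm, ← Finset.sum_div]
  rw [← Finset.sum_mul]
  by_cases hy0 : A y = 0
  · rw [hy0, mul_zero, zero_div, bump, if_neg]
    intro hmem
    exact hA1 ((whit_diag_eq_of_congr hN hy hmem).symm.trans hy0)
  rw [sum_psi_eq_ite hN hK hcN (hsupp y hy0), bump]
  split_ifs with hmem
  · have hAy : A y = A 1 := whit_diag_eq_of_congr hN hy hmem
    rw [hAy, div_self (mul_ne_zero (Nat.cast_ne_zero.mpr Fintype.card_ne_zero) hA1)]
  · rw [zero_mul, zero_div]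

/-- A combination of translates vanishes as soon as its diagonal Whittaker coefficients do. -/
theorem sum_translates_eq_zero {n : Ideal (𝓞 F)} (hn : n ≠ ⊥) {κ : Type} (T : Finset κ)
    (q : κ → ℂ) (h : κ → GL (Fin 2) (AF F)) (f : κ → Pt F ι n → ℂ)
    (hA : ∀ j ∈ T, IsAutomorphic Φ (f j)) (hC : ∀ j ∈ T, IsCuspidal Φ (f j))
    (hS : ∀ j ∈ T, SphericalZero (f j))
    (hE : ∀ u : (AF F)ˣ, ∑ j ∈ T, q j * whit Φ (f j)
      ((diagUnit u * h j : GL (Fin 2) (AF F)) : FinPt F n) = 0)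
    (g : GL (Fin 2) (AF F)) (P : ι → H3) :
    ∑ j ∈ T, q j * f j (((g * h j : GL (Fin 2) (AF F)) : FinPt F n), P) = 0 := by
  classical
  choose m hm hconj using fun j => exists_conj_mem (h j) hn
  have hm0 : (∏ j ∈ T, m j) ≠ ⊥ := Finset.prod_ne_zero_iff.mpr fun j _ => hm j
  obtain ⟨γ, J, t, k, -, -, -, hk', rfl⟩ := exists_map_mul_diagUnit hm0 g
  have hmove : ∀ j ∈ T, f j (((GeneralLinearGroup.map (toAF F) γ * diagUnit t * k * h j :
      GL (Fin 2) (AF F)) : FinPt F _), P)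
      = f j (((diagUnit t * h j : GL (Fin 2) (AF F)) : FinPt F _),
          fun i => H3.moebius (GeneralLinearGroup.map (Φ.emb i) γ⁻¹) (P i)) := by
    intro j hj
    have hle : ∏ l ∈ T, m l ≤ m j := Ideal.le_of_dvd (Finset.dvd_prod_of_mem m hj)
    have hkj : (h j)⁻¹ * k * h j ∈ principalSubgroup n :=
      hconj j k ⟨fun a b => idealAF_mono hle (hk'.1 a b),
        fun a b => idealAF_mono hle (hk'.2 a b)⟩
    have e : ((GeneralLinearGroup.map (toAF F) γ * diagUnit t * k * h j :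
        GL (Fin 2) (AF F)) : FinPt F n)
        = GeneralLinearGroup.map (toAF F) γ •
          ((diagUnit t * h j : GL (Fin 2) (AF F)) : FinPt F _) := by
      rw [show GeneralLinearGroup.map (toAF F) γ * diagUnit t * k * h j
        = GeneralLinearGroup.map (toAF F) γ * (diagUnit t * h j) *
          ((h j)⁻¹ * k * h j) by group, mk_mul_congr hkj]
      rfl
    rw [e, ← (hA j hj).invariant γ⁻¹]
    simp only [act, map_inv, inv_smul_smul]
  rw [Finset.sum_congr rfl fun j hj => by rw [hmove j hj]]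
  refine sum_apply_eq_zero (Φ := Φ) hn T q f hA _ _ fun ξ => ?_
  by_cases hξ : ξ = 0
  · subst hξ
    exact Finset.sum_eq_zero fun j hj => by rw [coef_zero (hA j hj) (hC j hj) hn, mul_zero]
  · have h1 := hE (Units.map (toAF F : F →* AF F) (Units.mk0 ξ hξ) * t)
    rw [show ξ = ((Units.mk0 ξ hξ : Fˣ) : F) from rfl,
      Finset.sum_congr rfl fun j hj => by
        rw [coef_diag_eq (hA j hj) (hS j hj) hn, ← mul_assoc],
      ← Finset.sum_mul, h1, zero_mul]

omit [NumberField F] [Fintype ι] [DecidableEq ι] in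
theorem combo_apply {n : Ideal (𝓞 F)} {κ : Type} (S : Finset κ) (q : κ → ℂ)
    (h : κ → GL (Fin 2) (AF F)) (f : Pt F ι n → ℂ) (g : GL (Fin 2) (AF F)) (P : ι → H3) :
    combo (S.toList.map fun j => (q j, h j)) (liftForm f) g P =
      ∑ j ∈ S, q j * f (((g * h j : GL (Fin 2) (AF F)) : FinPt F n), P) := by
  rw [combo, List.map_map, Finset.sum_map_toList]
  rfl

/-- Translates of two eigenforms whose diagonal coefficients agree at the primes dividing `N`
give equal combinations. -/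
theorem combo_eq_of_whit_eq {N : ℕ} (hN : N ≠ 0) {f f' : Pt F ι (Ideal.span {(N : 𝓞 F)}) → ℂ}
    {a : Ideal (𝓞 F) → ℂ} (hf : IsEigenform Φ f a) (hf' : IsEigenform Φ f' a) {κ κ' : Type}
    {S : Finset κ} {q : κ → ℂ} {h : κ → GL (Fin 2) (AF F)}
    {S' : Finset κ'} {q' : κ' → ℂ} {h' : κ' → GL (Fin 2) (AF F)}
    (hh : ∀ j ∈ S, InsideN N (h j)) (hh' : ∀ j ∈ S', InsideN N (h' j)) {B : (AF F)ˣ → ℂ}
    (hW : ∀ y : (AF F)ˣ, (1 - eN F N) * ((y : AF F) - 1) = 0 → ∑ j ∈ S, q j * whit Φ f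
      ((diagUnit (diffOut F N)⁻¹ * diagUnit y * h j : GL (Fin 2) (AF F)) : FinPt F _) = B y)
    (hW' : ∀ y : (AF F)ˣ, (1 - eN F N) * ((y : AF F) - 1) = 0 → ∑ j ∈ S', q' j * whit Φ f'
      ((diagUnit (diffOut F N)⁻¹ * diagUnit y * h' j : GL (Fin 2) (AF F)) : FinPt F _) = B y) :
    combo (S.toList.map fun j => (q j, h j)) (liftForm f) =
      combo (S'.toList.map fun j => (q' j, h' j)) (liftForm f') := by
  classical
  have hn := lv_ne_bot (F := F) hN
  set T := S.disjSum S' with hT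
  set qq : κ ⊕ κ' → ℂ := Sum.elim q fun j => -q' j with hqq
  set hk : κ ⊕ κ' → GL (Fin 2) (AF F) := Sum.elim h h' with hhk
  set ff : κ ⊕ κ' → Pt F ι (Ideal.span {(N : 𝓞 F)}) → ℂ :=
    Sum.elim (fun _ => f) (fun _ => f') with hff
  have hform : ∀ j, IsEigenform Φ (ff j) a := fun j => by cases j <;> assumption
  have hins : ∀ j ∈ T, InsideN N (hk j) := by
    intro j hj
    rcases Finset.mem_disjSum.mp hj with ⟨i, hi, rfl⟩ | ⟨i, hi, rfl⟩
    · exact hh i hi
    · exact hh' i hi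
  have hE : ∀ u : (AF F)ˣ, ∑ j ∈ T, qq j * whit Φ (ff j)
      ((diagUnit u * hk j : GL (Fin 2) (AF F)) : FinPt F _) = 0 := by
    intro u
    have hin : (1 - eN F N) * ((inPart N u : AF F) - 1) = 0 := by
      rw [coe_inPart]
      linear_combination (1 - (u : AF F)) * eN_mul_self (F := F) (N := N)
    have h1 := sum_whit_eq_zero (a := a) hN T qq (fun j => whit Φ (ff j))
      (fun j _ => isWhitFn_whit hN (hform j)) (fun j => diagUnit (inPart N u) * hk j)
      (fun j hj => (insideN_inPart u).mul (hins j hj)) (by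
        rw [hT, Finset.sum_disjSum]
        simp only [hqq, hff, hhk, Sum.elim_inl, Sum.elim_inr, ← mul_assoc, neg_mul,
          Finset.sum_neg_distrib, hW _ hin, hW' _ hin, add_neg_cancel])
      (outsideN_outPart (N := N) u)
    simp only [← mul_assoc, ← diagUnit_mul, mul_comm (outPart N u), inPart_mul_outPart] at h1
    exact h1
  funext g P
  rw [combo_apply, combo_apply, ← sub_eq_zero, sub_eq_add_neg, ← Finset.sum_neg_distrib]
  simp only [← neg_mul]
  have hsum := sum_translates_eq_zero hn T qq hk ff (fun j _ => (hform j).automorphic)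
    (fun j _ => (hform j).cuspidal) (fun j _ => (hform j).spherical) hE g P
  rw [hT, Finset.sum_disjSum] at hsum
  simpa only [hqq, hff, hhk, Sum.elim_inl, Sum.elim_inr] using hsum

/-- A combination of translates with diagonal coefficient `1` at `1` does not vanish. -/
theorem combo_ne_zero_of_whit {N : ℕ} (hN : N ≠ 0) {f : Pt F ι (Ideal.span {(N : 𝓞 F)}) → ℂ}
    {a : Ideal (𝓞 F) → ℂ} (hf : IsEigenform Φ f a) {κ : Type} {S : Finset κ} {q : κ → ℂ}
    {h : κ → GL (Fin 2) (AF F)}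
    (hW : ∑ j ∈ S, q j * whit Φ f ((diagUnit (diffOut F N)⁻¹ * diagUnit 1 * h j :
      GL (Fin 2) (AF F)) : FinPt F _) = 1) :
    combo (S.toList.map fun j => (q j, h j)) (liftForm f) ≠ 0 := by
  intro hzero
  have hn := lv_ne_bot (F := F) hN
  have h1 : ∀ P, ∑ j ∈ S, q j * f (((diagUnit (diffOut F N)⁻¹ * diagUnit 1 * h j :
      GL (Fin 2) (AF F)) : FinPt F _), P) = 0 := fun P => by
    have := congrFun (congrFun hzero (diagUnit (diffOut F N)⁻¹ * diagUnit 1)) P
    rwa [combo_apply] at this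
  have h2 := sum_coef_eq_zero (Φ := Φ) hn S q (fun _ => f) (fun _ _ => hf.automorphic) _ (1 : F)
    h1 fun _ => H3.base
  rw [Finset.sum_congr rfl fun j _ => by
      rw [coef_one_eq hf.automorphic hf.spherical hn, ← mul_assoc],
    ← Finset.sum_mul, hW, one_mul] at h2
  exact prod_wfun_base_ne_zero h2

/-- Strong multiplicity one in translation form. -/
theorem commonTranslateSpec : CommonTranslateSpec := by
  classical
  intro F _ _ ι _ _ Φ N hN f f' a hf hf'
  obtain ⟨κ, S, q, h, hh, hW⟩ := exists_bump hN hf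
  obtain ⟨κ', S', q', h', hh', hW'⟩ := exists_bump hN hf'
  refine ⟨S.toList.map fun j => (q j, h j), S'.toList.map fun j => (q' j, h' j), ?_, ?_, ?_, ?_⟩
  · intro x hx
    obtain ⟨j, hj, rfl⟩ := List.mem_map.mp hx
    exact (hh j (Finset.mem_toList.mp hj)).supportedAt
  · intro x hx
    obtain ⟨j, hj, rfl⟩ := List.mem_map.mp hx
    exact (hh' j (Finset.mem_toList.mp hj)).supportedAt
  · exact combo_eq_of_whit_eq hN hf hf' hh hh' hW hW'
  · exact combo_ne_zero_of_whit hN hf (by rw [hW 1 (by simp), bump_one])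

end FLTAgent.LanglandsTunnell.Expansion

end
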