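import Fermat.Agent.LanglandsTunnell.Seed.Spherical

/-!
# Uniqueness of the spherical Whittaker function

A bounded spherical function of parameter zero with a given unipotent character on hyperbolic
three-space is a multiple of `wfun` (`eq_mul_wfun`); the proof compares with the height
(`nonpos_above`).
-/

set_option autoImplicit false

open MeasureTheory Complex Filter Set
open scoped Real Topology

noncomputable section

namespace FLTAgent.LanglandsTunnell.Expansion

open FLTAgent.LanglandsTunnell FLTAgent.LanglandsTunnell.Killing FLTAgent.LanglandsTunnell.Seed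

/-- The point of height `t` over `0`. -/
def axisPt (t : ℝ) : H3 := H3.mkPt (0, t)

theorem axisPt_eq {t : ℝ} (ht : 0 < t) : axisPt t = ⟨0, t, ht⟩ := dif_pos ht

theorem continuousOn_axisPt : ContinuousOn axisPt (Ioi 0) := by
  rw [continuousOn_iff_continuous_domRestrict, H3.continuous_mk_iff]
  refine ⟨?_, ?_⟩
  · refine continuous_const (y := (0 : ℂ)).congr fun t => ?_
    simp [axisPt_eq t.2]
  · refine continuous_subtype_val.congr fun t => ?_
    simp [axisPt_eq t.2]

theorem continuous_comp_axisPt {E : Type*} [TopologicalSpace E] {F : H3 → E} (hF : Continuous F) :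
    Continuous fun Q : H3 => F (axisPt Q.t) :=
  (hF.comp_continuousOn continuousOn_axisPt).comp_continuous H3.continuous_t fun Q => Q.t_pos

/-- The cosine of the phase. -/
def cosPhase (b : ℂ) (Q : H3) : ℝ := Real.cos (4 * π * (b * Q.z).re)

theorem continuous_cosPhase (b : ℂ) : Continuous (cosPhase b) :=
  Real.continuous_cos.comp (continuous_const.mul
    (Complex.continuous_re.comp (continuous_const.mul H3.continuous_z)))

/-- The real functions of the height which are eigenfunctions against the cosine of the phase. -/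
def RadialEigen (b : ℂ) (u : ℝ → ℝ) : Prop :=
  ∀ k : ℝ → ℝ, Continuous k → HasCompactSupport k → ∀ P : H3, P.z = 0 →
    ∫ Q, k (H3.coshDist P Q) * (cosPhase b Q * u Q.t) ∂H3.volH3 = sphValue k * u P.t

theorem integrable_kernel_mul_real {k : ℝ → ℝ} (hk : Continuous k) (hs : HasCompactSupport k)
    (P : H3) {f : H3 → ℝ} (hf : Continuous f) :
    Integrable (fun Q => k (H3.coshDist P Q) * f Q) H3.volH3 := by
  have h := (integrable_kernel_mul hk hs P (Complex.continuous_ofReal.comp hf)).re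
  simpa [Function.comp_def] using h

/-- The height is an eigenfunction. -/
theorem integral_kernel_mul_id {k : ℝ → ℝ} (hk : Continuous k) (hs : HasCompactSupport k) (P : H3) :
    ∫ Q, k (H3.coshDist P Q) * Q.t ∂H3.volH3 = sphValue k * P.t := by
  have h := integral_kernel_mul_height hk hs P (f := fun t => (t : ℂ))
    (Complex.continuous_ofReal.comp H3.continuous_t)
  simp only [← Complex.ofReal_mul] at h
  rw [integral_complex_ofReal, integral_complex_ofReal, Complex.ofReal_inj] at h
  rw [h, ← integral_abel hk hs, ← integral_mul_const]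
  refine integral_congr_ae (Eventually.of_forall fun r => ?_)
  simp only [Real.exp_neg]
  field_simp

/-- A hat function on a small ball. -/
def hat (η c : ℝ) : ℝ := max 0 (1 + η - |c|)

theorem continuous_hat (η : ℝ) : Continuous (hat η) := by unfold hat; fun_prop

theorem hasCompactSupport_hat (η : ℝ) : HasCompactSupport (hat η) := by
  refine HasCompactSupport.intro (isCompact_closedBall (0 : ℝ) (1 + η)) fun c hc => ?_
  rw [Metric.mem_closedBall, dist_zero_right, Real.norm_eq_abs, not_le] at hc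
  exact max_eq_left (by linarith)

theorem bounds_of_hat_ne_zero {η : ℝ} (hη1 : η ≤ 1) {P Q : H3}
    (h : hat η (H3.coshDist P Q) ≠ 0) :
    (Q.t - P.t) ^ 2 + ‖P.z - Q.z‖ ^ 2 ≤ 8 * η * P.t ^ 2 := by
  have hlt : H3.coshDist P Q < 1 + η := by
    by_contra! hc
    exact h (max_eq_left (by linarith [le_abs_self (H3.coshDist P Q)]))
  have h1 := H3.one_le_coshDist P Q
  have hη0 : 0 ≤ η := by linarith
  obtain ⟨-, hB, -⟩ := bounds_of_coshDist_le hlt.le
  have hP := P.t_pos
  have hQ := Q.t_pos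
  rw [H3.coshDist, div_lt_iff₀ (by positivity)] at hlt
  have hQ4 : Q.t ≤ 4 * P.t := hB.trans (by nlinarith)
  nlinarith [mul_le_mul_of_nonneg_left hQ4 (by positivity : 0 ≤ 2 * η * P.t)]

/-- The strict inequality coming from the phase. -/
theorem integral_cos_height_lt {b : ℂ} (hb : b ≠ 0) {η : ℝ} (hη : 0 < η) {t : ℝ} (ht : 0 < t) :
    ∫ Q, hat η (H3.coshDist (axisPt t) Q) * (cosPhase b Q * Q.t) ∂H3.volH3 <
      sphValue (hat η) * t := by
  have e : (axisPt t).t = t := by rw [axisPt_eq ht]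
  set f : H3 → ℝ := fun Q => hat η (H3.coshDist (axisPt t) Q) * ((1 - cosPhase b Q) * Q.t) with hf
  have hI1 := integrable_kernel_mul_real (continuous_hat η) (hasCompactSupport_hat η) (axisPt t)
    H3.continuous_t
  have hI2 : Integrable (fun Q => hat η (H3.coshDist (axisPt t) Q) * (cosPhase b Q * Q.t))
      H3.volH3 := integrable_kernel_mul_real (continuous_hat η) (hasCompactSupport_hat η) (axisPt t)
    (f := fun Q => cosPhase b Q * Q.t) ((continuous_cosPhase b).mul H3.continuous_t)
  suffices hpos : 0 < ∫ Q, f Q ∂H3.volH3 by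
    have he : f = fun Q => hat η (H3.coshDist (axisPt t) Q) * Q.t -
        hat η (H3.coshDist (axisPt t) Q) * (cosPhase b Q * Q.t) := funext fun Q => by rw [hf]; ring
    rw [he, integral_sub hI1 hI2, integral_kernel_mul_id (continuous_hat η)
      (hasCompactSupport_hat η),
      e] at hpos
    linarith
  have hfc : Continuous f :=
    ((continuous_hat η).comp (continuous_coshDist_right _)).mul
      ((continuous_const.sub (continuous_cosPhase b)).mul H3.continuous_t)
  have hf0 : ∀ Q, 0 ≤ f Q := fun Q => mul_nonneg (le_max_left _ _)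
    (mul_nonneg (sub_nonneg.mpr (Real.cos_le_one _)) Q.t_pos.le)
  have hIf : Integrable f H3.volH3 := by
    refine (hI1.sub hI2).congr (Eventually.of_forall fun Q => ?_)
    simp only [hf, Pi.sub_apply]; ring
  obtain ⟨c, hc, hc'⟩ : ∃ c > 0, c * ‖b‖ ^ 2 < 1 / 8 ∧ (c * ‖b‖) ^ 2 < η * (2 * t * t) := by
    have h1 : Tendsto (fun c : ℝ => c * ‖b‖ ^ 2) (𝓝[>] 0) (𝓝 0) :=
      ((continuous_id.mul continuous_const).tendsto' 0 0 (by simp)).mono_left nhdsWithin_le_nhds
    have h2 : Tendsto (fun c : ℝ => (c * ‖b‖) ^ 2) (𝓝[>] 0) (𝓝 0) :=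
      (((continuous_id.mul continuous_const).pow 2).tendsto' 0 0 (by simp)).mono_left
        nhdsWithin_le_nhds
    obtain ⟨c, ⟨hc1, hc2⟩, hc0⟩ := (((h1.eventually_lt_const (by norm_num : (0 : ℝ) < 1 / 8)).and
      (h2.eventually_lt_const (show (0 : ℝ) < η * (2 * t * t) by positivity))).and
        self_mem_nhdsWithin).exists
    exact ⟨c, hc0, hc1, hc2⟩
  set Q₀ : H3 := ⟨(c : ℂ) * (starRingEnd ℂ) b, t, ht⟩ with hQ₀
  have hne : f Q₀ ≠ 0 := by
    refine mul_ne_zero ?_ (mul_ne_zero ?_ Q₀.t_pos.ne')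
    · refine ne_of_gt (lt_max_of_lt_right ?_)
      have hle : H3.coshDist (axisPt t) Q₀ < 1 + η := by
        rw [H3.coshDist, axisPt_eq ht, div_lt_iff₀ (by positivity)]
        simp only [hQ₀, zero_sub, norm_neg, norm_mul, Complex.norm_real, RCLike.norm_conj,
          Real.norm_eq_abs, abs_of_pos hc]
        nlinarith [hc'.2]
      rw [abs_of_nonneg (zero_le_one.trans (H3.one_le_coshDist _ _))]
      linarith
    · have hre : (b * Q₀.z).re = c * ‖b‖ ^ 2 := by
        rw [hQ₀, mul_left_comm, Complex.mul_conj, Complex.normSq_eq_norm_sq, ← Complex.ofReal_mul,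
          Complex.ofReal_re]
      have hb' : 0 < ‖b‖ := norm_pos_iff.mpr hb
      rw [sub_ne_zero, ne_comm, cosPhase, hre]
      have hpi := Real.pi_pos
      refine fun h => (show (4 * π * (c * ‖b‖ ^ 2)) ≠ 0 by positivity) ?_
      have h0 : 0 < c * ‖b‖ ^ 2 := by positivity
      exact (Real.cos_eq_one_iff_of_lt_of_lt (by nlinarith) (by nlinarith)).mp h
  set g : ℂ × ℝ → ℝ := fun x => (1 / x.2 ^ 3) * f (H3.mkPt x) with hg
  have e2 : ∫ Q, f Q ∂H3.volH3 = ∫ x in H3.halfSpace, g x := by
    apply Complex.ofReal_injective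
    rw [← integral_complex_ofReal, integral_volH3, ← integral_complex_ofReal]
    refine integral_congr_ae (Eventually.of_forall fun x => ?_)
    simp [hg, Complex.real_smul]
  have hIg : IntegrableOn g H3.halfSpace := by
    have h : IntegrableOn (fun x : ℂ × ℝ =>
        ((ENNReal.ofReal (1 / x.2 ^ 3)).toReal • ((f (H3.mkPt x) : ℝ) : ℂ)).re) H3.halfSpace := by
      have := ((integrable_volH3_iff _).mp hIf.ofReal).re
      simpa [IntegrableOn] using this
    refine h.congr_fun (fun x hx => ?_) H3.isOpen_halfSpace.measurableSet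
    have hx' : 0 < x.2 := hx
    show ((ENNReal.ofReal (1 / x.2 ^ 3)).toReal • ((f (H3.mkPt x) : ℝ) : ℂ)).re
      = 1 / x.2 ^ 3 * f (H3.mkPt x)
    rw [Complex.real_smul, ← Complex.ofReal_mul, Complex.ofReal_re,
      ENNReal.toReal_ofReal (by positivity)]
  rw [e2, setIntegral_pos_iff_support_of_nonneg_ae _ hIg]
  · have hcm : ContinuousOn H3.mkPt H3.halfSpace := by
      rw [continuousOn_iff_continuous_domRestrict, H3.continuous_mk_iff]
      refine ⟨(continuous_fst.comp continuous_subtype_val).congr fun x => ?_,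
        (continuous_snd.comp continuous_subtype_val).congr fun x => ?_⟩ <;>
      · have hx : 0 < (x : ℂ × ℝ).2 := x.2
        simp [H3.mkPt, hx]
    have hopen : IsOpen (H3.halfSpace ∩ (fun x => f (H3.mkPt x)) ⁻¹' {0}ᶜ) :=
      (hfc.comp_continuousOn hcm).isOpen_inter_preimage H3.isOpen_halfSpace isOpen_compl_singleton
    refine lt_of_lt_of_le (hopen.measure_pos volume ⟨Q₀.coords, Q₀.t_pos, ?_⟩) (measure_mono ?_)
    · simp only [Set.mem_preimage, Set.mem_compl_iff, Set.mem_singleton_iff]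
      rwa [H3.mkPt_coords]
    · rintro x ⟨hx, hx'⟩
      have hx'' : 0 < x.2 := hx
      exact ⟨mul_ne_zero (by positivity) hx', hx⟩
  · filter_upwards [ae_restrict_mem H3.isOpen_halfSpace.measurableSet] with x hx
    have hx' : 0 < x.2 := hx
    exact mul_nonneg (by positivity) (hf0 _)

/-- The real part of the Whittaker function on the axis. -/
def wAxis (b : ℂ) (t : ℝ) : ℝ := (wfun b (axisPt t)).re

theorem ofReal_wAxis (b : ℂ) (t : ℝ) : ((wAxis b t : ℝ) : ℂ) = wfun b (axisPt t) := by
  have e1 : ∀ s, kern b (1, 1) s (axisPt t)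
      = (((axisPt t).t * Real.exp (kernDecay b (1, 1) s (axisPt t)) : ℝ) : ℂ) := by
    intro s
    have hz : (axisPt t).z = 0 := by unfold axisPt H3.mkPt; split_ifs <;> rfl
    simp [kern, kernPhase, hz]
  rw [wAxis, wfun]
  simp only [e1, integral_complex_ofReal, Complex.ofReal_re]

theorem wAxis_pos {b : ℂ} (hb : b ≠ 0) {t : ℝ} (ht : 0 < t) : 0 < wAxis b t := by
  have hne : wfun b (axisPt t) ≠ 0 := wfun_ne_zero hb (by rw [axisPt_eq ht])
  refine lt_of_le_of_ne ?_ fun h => hne (by rw [← ofReal_wAxis, ← h, Complex.ofReal_zero])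
  have e1 : ∀ s, kern b (1, 1) s (axisPt t)
      = (((axisPt t).t * Real.exp (kernDecay b (1, 1) s (axisPt t)) : ℝ) : ℂ) := by
    intro s
    simp [kern, kernPhase, axisPt_eq ht]
  rw [wAxis, wfun]
  simp only [e1, integral_complex_ofReal, Complex.ofReal_re]
  exact integral_nonneg fun s => mul_nonneg (axisPt t).t_pos.le (Real.exp_pos _).le

/-- Comparison: an eigenfunction which is bounded and nonpositive at one height is nonpositive
above it. -/
theorem nonpos_above {b : ℂ} (hb : b ≠ 0) {u : ℝ → ℝ} (huc : Continuous fun Q : H3 => u Q.t)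
    (hu : RadialEigen b u) (hw : RadialEigen b (wAxis b)) {M : ℝ} (hM : ∀ t, 0 < t → |u t| ≤ M)
    {T₀ : ℝ} (hT : 0 < T₀) (h0 : u T₀ ≤ 0) {t : ℝ} (ht : T₀ ≤ t) : u t ≤ 0 := by
  suffices key : ∀ ε : ℝ, 0 < ε → u t ≤ ε * t by
    refine le_of_forall_pos_le_add fun δ hδ => ?_
    have htp : 0 < t := hT.trans_le ht
    have := key (δ / t) (div_pos hδ htp)
    rwa [div_mul_cancel₀ _ htp.ne', ← zero_add δ] at this
  intro ε hε
  obtain ⟨R, hRt, hRM⟩ : ∃ R, t < R ∧ M < ε * R :=
    ⟨max (M / ε) t + 1, (le_max_right _ _).trans_lt (lt_add_one _), by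
      have : M / ε < max (M / ε) t + 1 := (le_max_left _ _).trans_lt (lt_add_one _)
      rwa [div_lt_iff₀' hε] at this⟩
  have hcont : ∀ {v : ℝ → ℝ}, (Continuous fun Q : H3 => v Q.t) → ContinuousOn v (Icc T₀ R) := by
    intro v hv
    refine (hv.comp_continuousOn (continuousOn_axisPt.mono fun x hx => hT.trans_le hx.1)).congr
      fun x hx => ?_
    simp [Function.comp, axisPt_eq (hT.trans_le hx.1)]
  have hwc : Continuous fun Q : H3 => wAxis b Q.t :=
    Complex.continuous_re.comp (continuous_comp_axisPt (continuous_wfun hb))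
  set ψ : ℝ → ℝ := fun s => (u s - ε * s) / wAxis b s with hψ
  have hψc : ContinuousOn ψ (Icc T₀ R) := ((hcont huc).sub (by fun_prop)).div (hcont hwc)
    fun s hs => (wAxis_pos hb (hT.trans_le hs.1)).ne'
  obtain ⟨s, hs, hmax⟩ := (isCompact_Icc).exists_isMaxOn
    (nonempty_Icc.mpr (ht.trans hRt.le)) hψc
  by_contra! hlt
  have htp : 0 < t := hT.trans_le ht
  have hψt : 0 < ψ t := div_pos (by linarith) (wAxis_pos hb htp)
  have hψs : 0 < ψ s := hψt.trans_le (hmax ⟨ht, hRt.le⟩)
  have hsp : 0 < s := hT.trans_le hs.1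
  have hnum : 0 < u s - ε * s := by
    have := mul_pos hψs (wAxis_pos hb hsp)
    rwa [hψ, div_mul_cancel₀ _ (wAxis_pos hb hsp).ne'] at this
  have hs1 : T₀ < s := lt_of_le_of_ne hs.1 fun h => by subst h; nlinarith
  have hs2 : s < R := lt_of_le_of_ne hs.2 fun h => by
    subst h; linarith [(abs_le.mp (hM s hsp)).2]
  have hb' : 0 < ‖b‖ := norm_pos_iff.mpr hb
  set ε₁ := min (min (s - T₀) (R - s)) (1 / (8 * ‖b‖)) with hε₁
  have hε₁pos : 0 < ε₁ := lt_min (lt_min (sub_pos.mpr hs1) (sub_pos.mpr hs2)) (by positivity)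
  set η := min 1 (ε₁ ^ 2 / (8 * s ^ 2)) with hη
  have hηpos : 0 < η := lt_min one_pos (by positivity)
  have hη8 : 8 * η * s ^ 2 ≤ ε₁ ^ 2 := by
    have h := min_le_right (1 : ℝ) (ε₁ ^ 2 / (8 * s ^ 2))
    rw [← hη, le_div_iff₀ (by positivity)] at h
    linarith
  set k := hat η with hk
  set P := axisPt s with hP
  have hPt : P.t = s := by rw [hP, axisPt_eq hsp]
  have hPz : P.z = 0 := by rw [hP, axisPt_eq hsp]
  have hkI : ∀ {f : H3 → ℝ}, Continuous f →
      Integrable (fun Q => k (H3.coshDist P Q) * f Q) H3.volH3 := fun hf =>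
    integrable_kernel_mul_real (continuous_hat η) (hasCompactSupport_hat η) P hf
  have hcos := continuous_cosPhase b
  have hle : ∫ Q, k (H3.coshDist P Q) * (cosPhase b Q * (u Q.t - ε * Q.t)) ∂H3.volH3 ≤
      ∫ Q, ψ s * (k (H3.coshDist P Q) * (cosPhase b Q * wAxis b Q.t)) ∂H3.volH3 := by
    refine integral_mono (hkI (hcos.mul (huc.sub (H3.continuous_t.const_smul ε))))
      ((hkI (hcos.mul hwc)).const_mul _) fun Q => ?_
    rcases eq_or_ne (k (H3.coshDist P Q)) 0 with h | h
    · simp [h]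
    have hb1 := (bounds_of_hat_ne_zero (min_le_left _ _) h).trans
      (le_of_eq_of_le (congrArg (fun x => 8 * η * x ^ 2) hPt) hη8)
    rw [hPt, hPz, zero_sub, norm_neg] at hb1
    have h2 : |Q.t - s| ≤ ε₁ := abs_le_of_sq_le_sq (by nlinarith) hε₁pos.le
    have h3 : ‖Q.z‖ ≤ ε₁ :=
      (abs_norm Q.z).symm.trans_le (abs_le_of_sq_le_sq (by nlinarith) hε₁pos.le)
    have hQI : Q.t ∈ Icc T₀ R := by
      have a1 : ε₁ ≤ s - T₀ := (min_le_left _ _).trans (min_le_left _ _)
      have a2 : ε₁ ≤ R - s := (min_le_left _ _).trans (min_le_right _ _)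
      constructor <;> linarith [(abs_le.mp h2).1, (abs_le.mp h2).2]
    have hc0 : 0 ≤ cosPhase b Q := by
      have a3 : ε₁ ≤ 1 / (8 * ‖b‖) := min_le_right _ _
      have h4 : |(b * Q.z).re| ≤ 1 / 8 := by
        refine (Complex.abs_re_le_norm _).trans ?_
        rw [norm_mul]
        calc ‖b‖ * ‖Q.z‖ ≤ ‖b‖ * (1 / (8 * ‖b‖)) :=
              mul_le_mul_of_nonneg_left (h3.trans a3) hb'.le
          _ = 1 / 8 := by field_simp
      have hpi := Real.pi_pos
      refine Real.cos_nonneg_of_mem_Icc ⟨?_, ?_⟩ <;>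
        nlinarith [(abs_le.mp h4).1, (abs_le.mp h4).2]
    have h5 : u Q.t - ε * Q.t ≤ ψ s * wAxis b Q.t := by
      have := hmax hQI
      rwa [hψ, Set.mem_ofPred_eq, div_le_iff₀ (wAxis_pos hb Q.t_pos)] at this
    have h6 : 0 ≤ k (H3.coshDist P Q) := le_max_left _ _
    calc k (H3.coshDist P Q) * (cosPhase b Q * (u Q.t - ε * Q.t))
        ≤ k (H3.coshDist P Q) * (cosPhase b Q * (ψ s * wAxis b Q.t)) :=
          mul_le_mul_of_nonneg_left (mul_le_mul_of_nonneg_left h5 hc0) h6
      _ = ψ s * (k (H3.coshDist P Q) * (cosPhase b Q * wAxis b Q.t)) := by ring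
  rw [integral_const_mul, hw k (continuous_hat η) (hasCompactSupport_hat η) P hPz, hPt] at hle
  have hsplit : (fun Q => k (H3.coshDist P Q) * (cosPhase b Q * (u Q.t - ε * Q.t))) = fun Q =>
      k (H3.coshDist P Q) * (cosPhase b Q * u Q.t) -
        ε * (k (H3.coshDist P Q) * (cosPhase b Q * Q.t)) := funext fun Q => by ring
  rw [hsplit, integral_sub (hkI (f := fun Q => cosPhase b Q * u Q.t) (hcos.mul huc))
    ((hkI (f := fun Q => cosPhase b Q * Q.t) (hcos.mul H3.continuous_t)).const_mul ε),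
    integral_const_mul, hu k (continuous_hat η) (hasCompactSupport_hat η) P hPz, hPt] at hle
  have hval : ψ s * (sphValue k * wAxis b s) = sphValue k * (u s - ε * s) := by
    rw [hψ]
    field_simp [(wAxis_pos hb hsp).ne']
  have hlt' := mul_lt_mul_of_pos_left (integral_cos_height_lt hb hηpos hsp) hε
  rw [← hk, ← hP] at hlt'
  rw [hval] at hle
  linarith

/-! ### Symmetrisation in the horizontal variable -/

/-- Point reflection in the horizontal plane. -/
def negPt (P : H3) : H3 := ⟨-P.z, P.t, P.t_pos⟩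

theorem integral_negPt (f : H3 → ℂ) :
    ∫ Q, f (negPt Q) ∂H3.volH3 = ∫ Q, f Q ∂H3.volH3 := by
  rw [integral_volH3, integral_volH3]
  have hmp : MeasurePreserving ((MeasurableEquiv.neg ℂ).prodCongr (MeasurableEquiv.refl ℝ))
      (volume : Measure (ℂ × ℝ)) volume := by
    have h1 : MeasurePreserving (Neg.neg : ℂ → ℂ) volume volume := Measure.measurePreserving_neg _
    exact h1.prod (MeasurePreserving.id _)
  rw [← hmp.setIntegral_preimage_emb
    ((MeasurableEquiv.neg ℂ).prodCongr (MeasurableEquiv.refl ℝ)).measurableEmbedding _ H3.halfSpace]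
  refine setIntegral_congr_fun H3.isOpen_halfSpace.measurableSet fun x hx => ?_
  have hx' : 0 < x.2 := hx
  simp [H3.mkPt, hx', negPt, MeasurableEquiv.prodCongr]

theorem coshDist_negPt {P : H3} (hP : P.z = 0) (Q : H3) :
    H3.coshDist P (negPt Q) = H3.coshDist P Q := by
  simp [H3.coshDist, negPt, hP]

variable {b : ℂ} {F : H3 → ℂ}

/-- An equivariant spherical eigenfunction is a phase times a radial eigenfunction. -/
theorem radialEigen_of_equivariant (hF : Continuous F)
    (hsh : ∀ (κ : ℂ) (P : H3),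
      F (H3.shift κ P) = cexp (((4 * π * (b * κ).re : ℝ) : ℂ) * I) * F P)
    (hsph : ∀ k : ℝ → ℝ, Continuous k → HasCompactSupport k → ∀ P : H3,
      ∫ Q, (k (H3.coshDist P Q) : ℂ) * F Q ∂H3.volH3 = (sphValue k : ℂ) * F P)
    (L : ℂ →L[ℝ] ℝ) : RadialEigen b fun t => L (F (axisPt t)) := by
  intro k hk hs P hP
  have hPa : axisPt P.t = P := by
    rw [axisPt_eq P.t_pos]; exact H3.ext hP.symm rfl
  have hQ : ∀ Q : H3, F Q = cexp (((4 * π * (b * Q.z).re : ℝ) : ℂ) * I) * F (axisPt Q.t) := by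
    intro Q
    rw [← hsh, axisPt_eq Q.t_pos]
    exact congrArg F (H3.ext (by simp [H3.shift]) rfl)
  have h1 := hsph k hk hs P
  have h2 := integral_negPt fun Q => (k (H3.coshDist P Q) : ℂ) * F Q
  simp only [coshDist_negPt hP] at h2
  have hFn : Continuous fun Q => F (negPt Q) :=
    hF.comp (H3.continuous_mk_iff.mpr ⟨H3.continuous_z.neg, H3.continuous_t⟩)
  have h3 : ∫ Q, (k (H3.coshDist P Q) : ℂ) * ((F Q + F (negPt Q)) / 2) ∂H3.volH3
      = (sphValue k : ℂ) * F P := by
    have e : (fun Q => (k (H3.coshDist P Q) : ℂ) * ((F Q + F (negPt Q)) / 2)) = fun Q =>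
        ((k (H3.coshDist P Q) : ℂ) * F Q + (k (H3.coshDist P Q) : ℂ) * F (negPt Q)) / 2 := by
      funext Q; ring
    rw [e, integral_div, integral_add (integrable_kernel_mul hk hs P hF)
      (integrable_kernel_mul hk hs P hFn), h2, h1]
    ring
  have h4 : ∀ Q, (F Q + F (negPt Q)) / 2 = (cosPhase b Q : ℂ) * F (axisPt Q.t) := by
    intro Q
    rw [hQ Q, hQ (negPt Q)]
    simp only [negPt, mul_neg, Complex.neg_re, mul_neg, Complex.ofReal_neg, cosPhase,
      Complex.ofReal_cos, Complex.cos, neg_mul]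
    ring
  simp only [h4] at h3
  have h5 := congrArg L h3
  have hI : Integrable (fun Q => (k (H3.coshDist P Q) : ℂ) *
      ((cosPhase b Q : ℂ) * F (axisPt Q.t))) H3.volH3 :=
    integrable_kernel_mul hk hs P ((Complex.continuous_ofReal.comp (continuous_cosPhase b)).mul
      (continuous_comp_axisPt hF))
  rw [← L.integral_comp_comm hI] at h5
  simpa only [← Complex.real_smul, L.map_smul, smul_eq_mul, hPa] using h5

/-- Uniqueness of the bounded equivariant spherical eigenfunction. -/
theorem eq_mul_wfun (hb : b ≠ 0) (hF : Continuous F) {M : ℝ} (hM : ∀ P, ‖F P‖ ≤ M)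
    (hsh : ∀ (κ : ℂ) (P : H3),
      F (H3.shift κ P) = cexp (((4 * π * (b * κ).re : ℝ) : ℂ) * I) * F P)
    (hsph : ∀ k : ℝ → ℝ, Continuous k → HasCompactSupport k → ∀ P : H3,
      ∫ Q, (k (H3.coshDist P Q) : ℂ) * F Q ∂H3.volH3 = (sphValue k : ℂ) * F P)
    (P : H3) : F P = F H3.base / wfun b H3.base * wfun b P := by
  have hwsh : ∀ (κ : ℂ) (Q : H3),
      wfun b (H3.shift κ Q) = cexp (((4 * π * (b * κ).re : ℝ) : ℂ) * I) * wfun b Q := by
    intro κ Q
    have := wfun_affine b (D := 1) (κ := κ) (P := Q) (Q := H3.shift κ Q)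
      (by simp [H3.shift]) (by simp [H3.shift])
    simpa using this
  have hw : RadialEigen b (wAxis b) :=
    radialEigen_of_equivariant (continuous_wfun hb) hwsh
      (fun k hk hs Q => spherical_wfun hb hk hs Q) Complex.reCLM
  obtain ⟨W, hW⟩ : ∃ W : ℝ, ∀ Q : H3, ‖wfun b Q‖ ≤ W := by
    have hb' : 0 < ‖b‖ := norm_pos_iff.mpr hb
    have hpi := Real.pi_pos
    refine ⟨1 / (32 * π * ‖b‖ ^ 2) + 1, fun Q => (norm_wfun_le hb Q).trans ?_⟩
    have ht := Q.t_pos
    have h1 : Real.sqrt (Q.t / (8 * ‖b‖)) ≤ Q.t / (8 * ‖b‖) + 1 := by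
      have h0 : 0 ≤ Q.t / (8 * ‖b‖) := by positivity
      nlinarith [Real.sq_sqrt h0, Real.sqrt_nonneg (Q.t / (8 * ‖b‖))]
    have h2 : Real.exp (-(4 * π * ‖b‖ * Q.t)) ≤ 1 / (4 * π * ‖b‖ * Q.t + 1) := by
      rw [Real.exp_neg, one_div]
      exact inv_anti₀ (by positivity) (Real.add_one_le_exp _)
    refine (mul_le_mul h1 h2 (Real.exp_pos _).le (by positivity)).trans ?_
    rw [mul_one_div, div_le_iff₀ (by positivity)]
    have e : (1 / (32 * π * ‖b‖ ^ 2) + 1) * (4 * π * ‖b‖ * Q.t + 1)
        = Q.t / (8 * ‖b‖) + 4 * π * ‖b‖ * Q.t + (1 / (32 * π * ‖b‖ ^ 2) + 1) := by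
      field_simp
      ring
    rw [e]
    have h3 : 0 ≤ 1 / (32 * π * ‖b‖ ^ 2) := by positivity
    have h4 : 0 ≤ 4 * π * ‖b‖ * Q.t := by positivity
    linarith
  have main : ∀ (L : ℂ →L[ℝ] ℝ), (∀ z, |L z| ≤ ‖z‖) → ∀ s t : ℝ, 0 < s → s ≤ t →
      L (F (axisPt t)) * wAxis b s = L (F (axisPt s)) * wAxis b t := by
    intro L hL s t hs hst
    set h : ℝ → ℝ := fun r => L (F (axisPt r)) with hh
    have hws := wAxis_pos hb hs
    set c := h s / wAxis b s with hc
    have he := radialEigen_of_equivariant hF hsh hsph L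
    have hwc : Continuous fun Q : H3 => wAxis b Q.t :=
      Complex.continuous_re.comp (continuous_comp_axisPt (continuous_wfun hb))
    have hhc : Continuous fun Q : H3 => h Q.t := L.continuous.comp (continuous_comp_axisPt hF)
    have one : ∀ σ : ℝ, σ = 1 ∨ σ = -1 → σ * (h t - c * wAxis b t) ≤ 0 := by
      intro σ hσ
      refine nonpos_above hb (u := fun r => σ * (h r - c * wAxis b r))
        (continuous_const.mul (hhc.sub (continuous_const.mul hwc))) ?_ hw
        (M := M + |c| * W) (fun r hr => ?_) hs ?_ hst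
      · intro k hk hk' Q hQ
        have hI : ∀ {f : H3 → ℝ}, Continuous f →
            Integrable (fun R => k (H3.coshDist Q R) * f R) H3.volH3 := fun hf =>
          integrable_kernel_mul_real hk hk' Q hf
        have e : (fun R => k (H3.coshDist Q R) * (cosPhase b R * (σ * (h R.t - c * wAxis b R.t))))
            = fun R => σ * (k (H3.coshDist Q R) * (cosPhase b R * h R.t) -
              c * (k (H3.coshDist Q R) * (cosPhase b R * wAxis b R.t))) := by
          funext R; ring
        rw [e, integral_const_mul, integral_sub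
          (hI (f := fun R => cosPhase b R * h R.t) ((continuous_cosPhase b).mul hhc))
          ((hI (f := fun R => cosPhase b R * wAxis b R.t)
            ((continuous_cosPhase b).mul hwc)).const_mul c), integral_const_mul,
          he k hk hk' Q hQ, hw k hk hk' Q hQ]
        ring
      · have h1 : |h r| ≤ M := (hL _).trans (hM _)
        have h2 : |wAxis b r| ≤ W := (Complex.abs_re_le_norm _).trans (hW _)
        rw [abs_mul, show |σ| = 1 by rcases hσ with rfl | rfl <;> simp, one_mul]
        refine (abs_sub _ _).trans (add_le_add h1 ?_)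
        rw [abs_mul]
        exact mul_le_mul_of_nonneg_left h2 (abs_nonneg c)
      · rw [hc, div_mul_cancel₀ _ hws.ne', sub_self, mul_zero]
    have hz : h t = c * wAxis b t := by linarith [one 1 (Or.inl rfl), one (-1) (Or.inr rfl)]
    show h t * wAxis b s = h s * wAxis b t
    rw [hz, hc]
    field_simp
  have main' : ∀ (L : ℂ →L[ℝ] ℝ), (∀ z, |L z| ≤ ‖z‖) → ∀ s t : ℝ, 0 < s → 0 < t →
      L (F (axisPt t)) * wAxis b s = L (F (axisPt s)) * wAxis b t := by
    intro L hL s t hs ht
    rcases le_total s t with h | h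
    · exact main L hL s t hs h
    · exact (main L hL t s ht h).symm
  have hbase : H3.base = axisPt 1 := (axisPt_eq one_pos).symm
  have hP : P = H3.shift P.z (axisPt P.t) := by
    rw [axisPt_eq P.t_pos]; exact H3.ext (by simp [H3.shift]) rfl
  have hax : F (axisPt P.t) * (wAxis b 1 : ℂ) = F (axisPt 1) * (wAxis b P.t : ℂ) :=
    Complex.ext
      (by
        simpa using
          main' Complex.reCLM (fun z => Complex.abs_re_le_norm z) 1 P.t one_pos P.t_pos)
      (by
        simpa using
          main' Complex.imCLM (fun z => Complex.abs_im_le_norm z) 1 P.t one_pos P.t_pos)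
  rw [ofReal_wAxis, ofReal_wAxis] at hax
  have h1 : wfun b (axisPt 1) ≠ 0 := wfun_ne_zero hb (by rw [axisPt_eq one_pos])
  have hFP : F P = cexp (((4 * π * (b * P.z).re : ℝ) : ℂ) * I) * F (axisPt P.t) :=
    (congrArg F hP).trans (hsh _ _)
  have hWP : wfun b P = cexp (((4 * π * (b * P.z).re : ℝ) : ℂ) * I) * wfun b (axisPt P.t) :=
    (congrArg (wfun b) hP).trans (hwsh _ _)
  rw [hbase, hFP, hWP]
  field_simp
  linear_combination hax

end FLTAgent.LanglandsTunnell.Expansion

end
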